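/-
MLT / [L2] / P4 (helper5), part 1: **the local-to-global statement of step C without norm
relations** (abstract `T4Pres` language, no modular curves).

In T4 (level `N' q²`, exponent `m` prime to `q² - 1`) the two norm relations at the triple points
force the jump data of a Kummer function to be trivial after raising to the power `q² - 1`.  For
`m = p ∣ q² - 1` this is no longer true: the jump data are a genuine invariant.  This file isolates
the part of step C which does not use the relations: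

* `MltJ4Chart P q m z`   : the chart hypotheses (noetherian, regular points, smooth vertical
  branches, horizontal roots) — a sub-structure of `T4nCChart` (`T4nCChart.toJ4`);
* `MltJ4TrivAt P q m z 𝔫` : the jump data of `z` at the closed point `𝔫` are trivial: some local
  generator `s` (`s ^ m * z ∈ B_𝔫^×`) takes the same value `κ ≠ 0` on all vertical branches
  through `𝔫` (= the hypothesis of `T4Pres.glue` at `𝔫`);
* `MltJ4Chart.trivAt_of_single` : automatic at the points with at most one vertical branch;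
* `MltJ4Chart.glue`      : trivial jump data at all points with several vertical branches ⇒ every
  section `t` of the twisted sheaf on the chart lies in `B + q · Ov`;
* `mltj4_core`           : both charts ⇒ the twist has a global section reducing to `1`
  (`T4Twist.t4_core`).
-/
import Fermat.Agent.Lib.T4.Core.StepCCore

set_option autoImplicit false
set_option linter.unusedSectionVars false
set_option linter.unusedVariables false
set_option linter.style.haveILetI false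

namespace Fermat.Agent.MLT

open Fermat.Agent.T4
open Fermat.Agent.T2 (T2Base t2Int)

/-- the chart hypotheses of step C which do not involve the norm relations -/
structure MltJ4Chart {F : Type*} [Field F] (P : T4Pres F) (q : F) (m : ℕ) (z : F) : Prop where
  noeth : IsNoetherianRing P.B
  hq : q ∈ P.B
  hm : (m : F)⁻¹ ∈ P.B
  hreg : ∀ 𝔫 : Ideal P.B, 𝔫.IsMaximal → (⟨q, hq⟩ : P.B) ∈ 𝔫 → P.RegAt 𝔫
  hsm : ∀ 𝔫 : Ideal P.B, 𝔫.IsMaximal → (⟨q, hq⟩ : P.B) ∈ 𝔫 →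
    ∀ (V : ValuationSubring F) (hV : V ∈ P.through 𝔫), V ∈ P.vert q → P.SmoothAt 𝔫 V hV
  hroot : ∀ V ∈ P.vals, V ∉ P.vert q → ∃ t : F, V.valuation (t ^ m * z) = 1

/-- the chart hypotheses of T4 contain those of the mod-`p` version -/
theorem _root_.Fermat.Agent.T4.T4nCChart.toJ4 {F : Type*} [Field F] {P : T4Pres F} {q : F} {m : ℕ}
    {z : F} {qq : ℕ} {Vinf Vmid V0 : ValuationSubring F} {a1 a2 b1 b2 : P.B} {h : F}
    (C : T4nCChart P q m z qq Vinf Vmid V0 a1 a2 b1 b2 h) : MltJ4Chart P q m z :=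
  ⟨C.noeth, C.hq, C.hm, C.hreg, C.hsm, C.hroot⟩

/-- **the jump data of `z` at `𝔫` are trivial**: some local generator takes the same non-zero
value on all vertical branches through `𝔫` -/
def MltJ4TrivAt {F : Type*} [Field F] (P : T4Pres F) (q : F) (m : ℕ) (z : F) (𝔫 : Ideal P.B) :
    Prop :=
  ∃ s : F, (∀ V ∈ P.through 𝔫, V.valuation (s ^ m * z) = 1) ∧
    ∃ κ : P.B ⧸ 𝔫, κ ≠ 0 ∧ ∀ V ∈ P.through 𝔫, V ∈ P.vert q → P.BranchVal 𝔫 V s κ

namespace MltJ4Chart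

variable {F : Type*} [Field F] {P : T4Pres F} {q : F} {m : ℕ} {z : F}

/-- at a closed point of the special fibre there is a local generator with non-zero branch values
on all vertical branches -/
theorem exists_datum (C : MltJ4Chart P q m z) (hmF : (m : F) ≠ 0) (hz0 : z ≠ 0)
    (hz : P.CongrOv q z 1) (𝔫 : Ideal P.B) (h𝔫 : 𝔫.IsMaximal) (hq𝔫 : (⟨q, C.hq⟩ : P.B) ∈ 𝔫) :
    ∃ s : F, s ≠ 0 ∧ (∀ V ∈ P.through 𝔫, V.valuation (s ^ m * z) = 1) ∧
      ∀ V ∈ P.through 𝔫, V ∈ P.vert q → ∃ κ : P.B ⧸ 𝔫, κ ≠ 0 ∧ P.BranchVal 𝔫 V s κ := by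
  haveI := C.noeth
  haveI := h𝔫
  have hmne : m ≠ 0 := by
    rintro rfl
    exact hmF (by simp)
  obtain ⟨s, u, hs0, _, _, hs, hκ⟩ := P.exists_datum 𝔫 (C.hreg 𝔫 h𝔫 hq𝔫) hmne hz0 hz
    (fun V hV hv => C.hroot V hV.1 hv) (C.hsm 𝔫 h𝔫 hq𝔫)
  refine ⟨s, hs0, hs, fun V hV hv => ?_⟩
  obtain ⟨κ, hκ0, hκV, _⟩ := hκ V hV hv
  exact ⟨κ, hκ0, hκV⟩

/-- the jump data are trivial at the points with at most one vertical branch -/
theorem trivAt_of_single (C : MltJ4Chart P q m z) (hmF : (m : F) ≠ 0) (hz0 : z ≠ 0)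
    (hz : P.CongrOv q z 1) (𝔫 : Ideal P.B) (h𝔫 : 𝔫.IsMaximal) (hq𝔫 : (⟨q, C.hq⟩ : P.B) ∈ 𝔫)
    (hone : ∀ V ∈ P.through 𝔫, V ∈ P.vert q → ∀ W ∈ P.through 𝔫, W ∈ P.vert q → V = W) :
    MltJ4TrivAt P q m z 𝔫 := by
  haveI := h𝔫
  haveI := h𝔫.isPrime
  obtain ⟨s, _, hs, hκ⟩ := C.exists_datum hmF hz0 hz 𝔫 h𝔫 hq𝔫
  refine P.glue_hyp_of_eq hs hκ ?_
  intro V hV hv W hW hw κ κ' hκV hκW
  obtain rfl := hone V hV hv W hW hw
  exact T4Pres.BranchVal.unique P hV hκV hκW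

/-- **the local-to-global statement**: trivial jump data at the points with several vertical
branches ⇒ the sections of the twisted sheaf on the chart lie in `B + q · Ov` -/
theorem glue (C : MltJ4Chart P q m z) (hq0 : q ≠ 0) (hmF : (m : F) ≠ 0) (hz0 : z ≠ 0)
    (hz : P.CongrOv q z 1)
    (H : ∀ 𝔫 : Ideal P.B, 𝔫.IsMaximal → (⟨q, C.hq⟩ : P.B) ∈ 𝔫 →
      (∀ V ∈ P.through 𝔫, V ∈ P.vert q → ∀ W ∈ P.through 𝔫, W ∈ P.vert q → V = W) ∨
        MltJ4TrivAt P q m z 𝔫)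
    {t : F} (ht : t ∈ P.ov q) (htz : t ^ m * z ∈ P.B) : ∃ b' ∈ P.B, P.CongrOv q t b' := by
  haveI := C.noeth
  refine P.glue C.hq hq0 C.hm hmF hz ?_ ht htz
  intro 𝔫 h𝔫 hq𝔫
  rcases H 𝔫 h𝔫 hq𝔫 with hone | htriv
  · exact C.trivAt_of_single hmF hz0 hz 𝔫 h𝔫 hq𝔫 hone
  · exact htriv

end MltJ4Chart

variable {K F k Fb : Type*} [Field K] [Field F] [Algebra K F] [Field k] [CommRing Fb] [Algebra k Fb]

/-- **step C without norm relations, core**: both charts satisfy `MltJ4Chart` and the jump data of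
`z` are trivial at all closed points of the special fibre through which several vertical valuation
rings pass; then the twist by `z` has a global section reducing to `1` -/
theorem mltj4_core {d : T2Base K F k Fb} {su : T4Setup d} (tw : T4Twist su)
    (P₁ P₂ : T4Pres F) {q : F}
    (hB₁ : ∀ f : F, f ∈ P₁.B ↔ f ∈ t2Int (K := K) su.x ∧ f ∈ d.Ov)
    (hB₂ : ∀ f : F, f ∈ P₂.B ↔ f ∈ t2Int (K := K) su.x⁻¹ ∧ f ∈ d.Ov)
    (hOv₁ : ∀ f : F, f ∈ P₁.ov q ↔ f ∈ d.Ov) (hOv₂ : ∀ f : F, f ∈ P₂.ov q ↔ f ∈ d.Ov)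
    (hqres : ∃ hq : q ∈ d.Ov, d.res ⟨q, hq⟩ = 0) (hq0 : q ≠ 0) (hmF : (su.m : F) ≠ 0)
    {z : F} (hz0 : z ≠ 0) (hz : ∃ o ∈ d.Ov, z - 1 = q * o)
    (C₁ : MltJ4Chart P₁ q su.m z) (C₂ : MltJ4Chart P₂ q su.m z)
    (H₁ : ∀ 𝔫 : Ideal P₁.B, 𝔫.IsMaximal → (⟨q, C₁.hq⟩ : P₁.B) ∈ 𝔫 →
      (∀ V ∈ P₁.through 𝔫, V ∈ P₁.vert q → ∀ W ∈ P₁.through 𝔫, W ∈ P₁.vert q → V = W) ∨
        MltJ4TrivAt P₁ q su.m z 𝔫)
    (H₂ : ∀ 𝔫 : Ideal P₂.B, 𝔫.IsMaximal → (⟨q, C₂.hq⟩ : P₂.B) ∈ 𝔫 →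
      (∀ V ∈ P₂.through 𝔫, V ∈ P₂.vert q → ∀ W ∈ P₂.through 𝔫, W ∈ P₂.vert q → V = W) ∨
        MltJ4TrivAt P₂ q su.m z 𝔫)
    (hy : tw.y = z) :
    ∃ s : F, s ∈ tw.L1 ∧ s ∈ tw.L2 ∧ ∃ hs : s ∈ d.Ov, d.res ⟨s, hs⟩ = 1 := by
  have hz₁ : P₁.CongrOv q z 1 := by
    obtain ⟨o, ho, hzo⟩ := hz
    exact ⟨o, (hOv₁ o).mpr ho, hzo⟩
  have hz₂ : P₂.CongrOv q z 1 := by
    obtain ⟨o, ho, hzo⟩ := hz
    exact ⟨o, (hOv₂ o).mpr ho, hzo⟩
  refine tw.t4_core (t4c_Mbar1_le tw P₁ hB₁ hOv₁ hqres ?_) (t4c_Mbar2_le tw P₂ hB₂ hOv₂ hqres ?_)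
  · intro t ht htz
    rw [hy] at htz
    exact C₁.glue hq0 hmF hz0 hz₁ H₁ ht htz
  · intro t ht htz
    rw [hy] at htz
    exact C₂.glue hq0 hmF hz0 hz₂ H₂ ht htz

end Fermat.Agent.MLT
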