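/-
MLT / [L2] / P4 (helper5), part 2: **step C without norm relations, export at the inertia level**.

On the three-valuation base of level `N' p²` over `L = ℚ̄^I` (`p = 𝔓.p` the residue characteristic,
`m` prime to `p`): a Kummer function `z ≡ 1 (mod p 𝒪)` for which both charts `X^{±1}`,
`X = j^Q - j`, satisfy `MltJ4Chart` and whose jump data are trivial at all closed points of the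
special fibre with several vertical branches is a constant times an `m`-th power
(`mltj4_export`).  This is helper4's `t4nt_export` with the exponent `p² - 1` and the correcting
element removed: `mltj4_core` instead of `t4n_stepC_core`.
-/
import Fermat.Agent.Lib.MLT.L2.P4.Glue
import Fermat.Agent.Lib.T4.New.Export

set_option autoImplicit false
set_option linter.unusedSectionVars false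
set_option linter.unusedVariables false
set_option linter.style.haveILetI false

open HahnSeries ModularCurve Module AlgebraicCurve IntermediateField Fermat.Agent.Curve
  Fermat.Agent.T1 Fermat.Agent.T2 Fermat.Agent.TW Fermat.Agent.S05Lib Fermat.Agent.T4

noncomputable section

namespace Fermat.Agent.MLT

local notation "Qb" => AlgebraicClosure ℚ

attribute [local instance] t2i_dvr t2i_isAlgClosed t2i_charP t2i_fact t2iAlgebra t2i_isScalarTower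

variable (𝔓 : FFPlace) (N' : ℕ) [NeZero N'] (h : ¬ 𝔓.p ∣ N') {ζ : Qb}
  (hζ : IsPrimitiveRoot ζ 𝔓.p)

/-- **step C without norm relations, export**: a Kummer function `z ≡ 1 (mod p 𝒪)` with trivial
jump data is a constant times an `m`-th power -/
theorem mltj4_export {Qc : ℕ} (hQc : 2 ≤ Qc) {m : ℕ} (hm0 : m ≠ 0) (hm : Nat.Coprime m 𝔓.p)
    {z : ↥(tbLevF 𝔓 (N' * 𝔓.p * 𝔓.p) ⊤)} (hz0 : z ≠ 0)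
    (hzO : z ∈ (t4vBaseFix 𝔓 N' h hζ).Ov)
    (hz1 : ∃ o ∈ (t4vBaseFix 𝔓 N' h hζ).Ov, z - 1 = t4vQFix 𝔓 N' * o)
    (hdiv : ∀ v : Place Qb ↥(modularFunctionFieldBar (N' * 𝔓.p * 𝔓.p)),
      (m : ℤ) ∣ v.ord (tbPhiF 𝔓 (N' * 𝔓.p * 𝔓.p) ⊤ z))
    (P₁ P₂ : T4Pres ↥(tbLevF 𝔓 (N' * 𝔓.p * 𝔓.p) ⊤))
    (hB₁ : ∀ f : ↥(tbLevF 𝔓 (N' * 𝔓.p * 𝔓.p) ⊤), f ∈ P₁.B ↔
      f ∈ t2Int (K := ↥(tbFix 𝔓 (⊤ : Subgroup 𝔓.I))) (t4vcX 𝔓 (N' * 𝔓.p * 𝔓.p) ⊤ Qc) ∧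
        f ∈ (t4vBaseFix 𝔓 N' h hζ).Ov)
    (hB₂ : ∀ f : ↥(tbLevF 𝔓 (N' * 𝔓.p * 𝔓.p) ⊤), f ∈ P₂.B ↔
      f ∈ t2Int (K := ↥(tbFix 𝔓 (⊤ : Subgroup 𝔓.I))) (t4vcX 𝔓 (N' * 𝔓.p * 𝔓.p) ⊤ Qc)⁻¹ ∧
        f ∈ (t4vBaseFix 𝔓 N' h hζ).Ov)
    (hOv₁ : ∀ f : ↥(tbLevF 𝔓 (N' * 𝔓.p * 𝔓.p) ⊤), f ∈ P₁.ov (t4vQFix 𝔓 N') ↔
      f ∈ (t4vBaseFix 𝔓 N' h hζ).Ov)
    (hOv₂ : ∀ f : ↥(tbLevF 𝔓 (N' * 𝔓.p * 𝔓.p) ⊤), f ∈ P₂.ov (t4vQFix 𝔓 N') ↔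
      f ∈ (t4vBaseFix 𝔓 N' h hζ).Ov)
    (C₁ : MltJ4Chart P₁ (t4vQFix 𝔓 N') m z) (C₂ : MltJ4Chart P₂ (t4vQFix 𝔓 N') m z)
    (H₁ : ∀ 𝔫 : Ideal P₁.B, 𝔫.IsMaximal → (⟨t4vQFix 𝔓 N', C₁.hq⟩ : P₁.B) ∈ 𝔫 →
      (∀ V ∈ P₁.through 𝔫, V ∈ P₁.vert (t4vQFix 𝔓 N') →
        ∀ W ∈ P₁.through 𝔫, W ∈ P₁.vert (t4vQFix 𝔓 N') → V = W) ∨
        MltJ4TrivAt P₁ (t4vQFix 𝔓 N') m z 𝔫)
    (H₂ : ∀ 𝔫 : Ideal P₂.B, 𝔫.IsMaximal → (⟨t4vQFix 𝔓 N', C₂.hq⟩ : P₂.B) ∈ 𝔫 →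
      (∀ V ∈ P₂.through 𝔫, V ∈ P₂.vert (t4vQFix 𝔓 N') →
        ∀ W ∈ P₂.through 𝔫, W ∈ P₂.vert (t4vQFix 𝔓 N') → V = W) ∨
        MltJ4TrivAt P₂ (t4vQFix 𝔓 N') m z 𝔫) :
    ∃ (c : ↥(tbFix 𝔓 (⊤ : Subgroup 𝔓.I))) (t : ↥(tbLevF 𝔓 (N' * 𝔓.p * 𝔓.p) ⊤)), c ≠ 0 ∧ t ≠ 0 ∧
      z = c • t ^ m := by
  obtain ⟨su, hsm, hsx, -, hsn, hsc, -⟩ := t4v_exists_setup_fix 𝔓 N' h hζ hQc m hm
  subst hsm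
  have hX : IsFunctionFieldGen Qb ↥(modularFunctionFieldBar (N' * 𝔓.p * 𝔓.p))
      (tbPhiF 𝔓 (N' * 𝔓.p * 𝔓.p) ⊤ su.x) := by
    rw [hsx]
    exact t4vc_gen_X 𝔓 (N' * 𝔓.p * 𝔓.p) ⊤ hQc
  rw [← hsx] at hB₁ hB₂
  have hzres : (t4vBaseFix 𝔓 N' h hζ).res ⟨z, hzO⟩ = 1 := t4nt_res_eq_one 𝔓 N' h hζ hzO hz1
  obtain ⟨tw, hty, hL1, hL2⟩ := t4vc_exists_twist 𝔓 (N' * 𝔓.p * 𝔓.p) ⊤ su hX hsn hsc hz0 hzO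
    hzres hdiv
  have hmF : ((su.m : ℕ) : ↥(tbLevF 𝔓 (N' * 𝔓.p * 𝔓.p) ⊤)) ≠ 0 := by
    haveI : CharZero ↥(tbFix 𝔓 (⊤ : Subgroup 𝔓.I)) := algebraRat.charZero _
    haveI : CharZero ↥(tbLevF 𝔓 (N' * 𝔓.p * 𝔓.p) ⊤) :=
      charZero_of_injective_algebraMap
        (algebraMap ↥(tbFix 𝔓 (⊤ : Subgroup 𝔓.I)) ↥(tbLevF 𝔓 (N' * 𝔓.p * 𝔓.p) ⊤)).injective
    exact Nat.cast_ne_zero.mpr hm0
  have hq0 : t4vQFix 𝔓 N' ≠ 0 := by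
    intro h0
    have := (t4vQFix_inf 𝔓 N').2
    rw [h0, inv_zero] at this
    exact this (zero_mem _)
  obtain ⟨s, hs1, hs2, hsO, hsres⟩ := mltj4_core tw P₁ P₂ hB₁ hB₂ hOv₁ hOv₂
    (t4nt_res_Q 𝔓 N' h hζ) hq0 hmF hz0 hz1 C₁ C₂ H₁ H₂ hty
  have hs0 : s ≠ 0 := t4nt_ne_zero_of_res (t4vBaseFix 𝔓 N' h hζ) hsO hsres
  obtain ⟨g, hg⟩ := t4vc_exists_root 𝔓 (N' * 𝔓.p * 𝔓.p) ⊤ hX hz0 (Nat.pos_of_ne_zero hm0) hdiv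
    hs0 ((hL1 s).mp hs1) ((hL2 s).mp hs2)
  refine t4nt_descend 𝔓 (N' * 𝔓.p * 𝔓.p) hm0 hz0 (one_ne_zero) (g := g) ?_
  rw [one_pow, mul_one]
  exact hg

end Fermat.Agent.MLT
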