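/-
MLT / [L2] / P4 (helper5), part 3: **INJECTIVITY of the jump data at level `N' p²`** (inertia level,
`p = 𝔓.p` the residue characteristic, `4 ∣ N' ∨ 9 ∣ N'`, exponent `m` prime to `p`).

The two concrete chart presentations of T4 (`t4vyPFix` = chart `X` finite, `X = j^(p²) - j`, which
contains all the triple points; `t4vyP2Fix` = chart `X⁻¹` finite, on which at most one vertical
valuation ring passes through every closed point).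

* `mltj4_charts_fix` : the T4 chart hypotheses `T4nCChart` on BOTH concrete charts for a Kummer
  function `z ≡ 1` with normalised norm constants (the body of `t4nsc_stepC_fix_of_noeth`, with the
  charts exposed);
* `MltJ4TripleTriv`   : the jump data of `z` are trivial at every triple point of chart 1
  (`MltJ4TrivAt` at all closed points through which the three vertical valuation rings pass);
* **`mltj4_inj_fix`** : a Kummer unit `z ∈ U¹_q` (both over `L` and over `ℚ̄`) both of whose norms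
  are `constant × m`-th powers and whose jump data are trivial at the triple points is a
  `constant × m`-th power.  [For `m ∣ q² - 1` the exponent `q² - 1` of T4 is NOT available: this is
  the statement "δ is injective" of the decomposition of `MltL2JL`.]
-/
import Fermat.Agent.Lib.MLT.L2.P4.Export
import Fermat.Agent.Lib.T4.New.StepCFixU

set_option autoImplicit false
set_option linter.unusedSectionVars false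
set_option linter.unusedVariables false
set_option linter.style.haveILetI false
set_option synthInstance.maxHeartbeats 400000

open HahnSeries ModularCurve AlgebraicCurve Fermat.Agent.T1 Fermat.Agent.T2 IntermediateField
  Fermat.Agent.Curve Fermat.Agent.TW Fermat.Agent.S05Lib Fermat.Agent.T4

noncomputable section

namespace Fermat.Agent.MLT

local notation "Qb" => AlgebraicClosure ℚ

attribute [local instance] t2i_dvr t2i_isAlgClosed t2i_charP t2i_fact t2iAlgebra t2i_isScalarTower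

variable (𝔓 : FFPlace) (N' : ℕ) [NeZero N'] (h : ¬ 𝔓.p ∣ N') {ζ : Qb}
  (hζ : IsPrimitiveRoot ζ 𝔓.p) (h49 : 4 ∣ N' ∨ 9 ∣ N')

set_option maxHeartbeats 1600000 in
include h49 in
/-- **the T4 chart hypotheses on the two concrete charts** (the step-C instance with the charts
exposed) -/
theorem mltj4_charts_fix {m : ℕ} (hm : m ≠ 0) (hqm : Nat.Coprime m 𝔓.p) :
    letI := t4cyAlgebra 𝔓 (le_top : t4cyH 𝔓 ζ ≤ ⊤)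
    ∀ z : ↥(tbLevF 𝔓 (N' * 𝔓.p * 𝔓.p) ⊤), z ≠ 0 →
      (∀ P : Place ↥(tbFix 𝔓 (⊤ : Subgroup 𝔓.I)) ↥(tbLevF 𝔓 (N' * 𝔓.p * 𝔓.p) ⊤),
        (m : ℤ) ∣ P.ord z) →
      T4niConstA (tbFixO 𝔓 ⊤) (tbFixRes 𝔓 ⊤) (tbFixRes_surjective 𝔓 ⊤) (t2iALFix 𝔓 ⊤ N' h) m z →
      T4niConstB (tbFixO 𝔓 ⊤) (tbFixRes 𝔓 ⊤) (tbFixRes_surjective 𝔓 ⊤) (t2iALFix 𝔓 ⊤ N' h) m z →
      ∃ (hh : ↥(tbLevF 𝔓 (N' * 𝔓.p * 𝔓.p) ⊤)) (a1 a2 b1 b2 : ↥(t4vyPFix 𝔓 N' h hζ).B)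
        (a1' a2' b1' b2' : ↥(t4vyP2Fix 𝔓 N' h hζ).B),
        T4nCChart (t4vyPFix 𝔓 N' h hζ) (t4vQFix 𝔓 N') m z 𝔓.p (t4vOinfFix 𝔓 N')
          (t4vOmidFix 𝔓 N' h hζ) (t4vO0Fix 𝔓 N' h) a1 a2 b1 b2 hh ∧
        T4nCChart (t4vyP2Fix 𝔓 N' h hζ) (t4vQFix 𝔓 N') m z 𝔓.p (t4vOinfFix 𝔓 N')
          (t4vOmidFix 𝔓 N' h hζ) (t4vO0Fix 𝔓 N' h) a1' a2' b1' b2' hh := by
  letI := t4cyAlgebra 𝔓 (le_top : t4cyH 𝔓 ζ ≤ ⊤)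
  intro z hz0 hK hA hBc
  obtain ⟨ca, fa, a, hca, hcai, hπca, hfa0, hNa, hfa1, hfa2, ha⟩ := hA
  obtain ⟨cb, fb, b, hcb, hcbi, hπcb, hfb0, hNb, hfb1, hfb2, hb⟩ := hBc
  obtain ⟨hh, hh0, hhm, h1, h2, h3⟩ := t4nh_exists_hh (tbFixO 𝔓 ⊤) (tbFixRes 𝔓 ⊤)
    (tbFixRes_surjective 𝔓 ⊤) (t2i_natCast_ne_zero 𝔓 h) (t2iALFix 𝔓 ⊤ N' h) (t2iFrobFix 𝔓 N')
    (t4iALFix 𝔓 ⊤ N' h) (t4cy_irreducible_p 𝔓) (tbFixO 𝔓 (t4cyH 𝔓 ζ)) (tbFixRes 𝔓 (t4cyH 𝔓 ζ))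
    (t4iCycFix 𝔓 hζ) (t4vMidFix 𝔓 N' h hζ) hm ha hb
  have hQ := t4nsc_two_le 𝔓
  have T := t4nsc_top_fix 𝔓 N' h hζ h49 (t4vyPFix 𝔓 N' h hζ) (t4vyPFix_vals 𝔓 N' h hζ)
    (mem_t4vyPFix_B 𝔓 N' h hζ)
  have C1 := t4nsc_chart1_fix 𝔓 N' h hζ h49 (t4vyPFix 𝔓 N' h hζ) (t4vyPFix_vals 𝔓 N' h hζ)
    (mem_t4vyPFix_B 𝔓 N' h hζ) (t4vyPFix_noeth 𝔓 N' h hζ) hm hqm hz0 hK hca hcai hπca hcb hcbi
    hπcb hNa hfa1 hfa2 ha hNb hfb1 hfb2 hb h1 h2 h3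
  obtain ⟨a2', b2', ha2', hb2', C2⟩ := t4nc2_chart2_fix_K2 𝔓 N' h h49 hζ T
    (t4rgf_low0 𝔓 N' h hQ h49) (t4rgf_regG0 𝔓 N' h hQ h49) (t4rgf_regM0 𝔓 N' h hQ h49)
    (t4vyP2Fix_vals 𝔓 N' h hζ) (mem_t4vyP2Fix_B 𝔓 N' h hζ) (t4vyP2Fix_noeth 𝔓 N' h hζ) hm hqm hz0
    hK ha hb h1 h2 h3
  exact ⟨hh, 1, _, 1, _, 1, a2', 1, b2', C1, C2⟩

/-- **the jump data of `z` are trivial at all triple points** (of chart 1 = `t4vyPFix`, which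
contains all of them) -/
def MltJ4TripleTriv (m : ℕ) (z : ↥(tbLevF 𝔓 (N' * 𝔓.p * 𝔓.p) ⊤)) : Prop :=
  ∀ 𝔫 : Ideal ↥(t4vyPFix 𝔓 N' h hζ).B, 𝔫.IsMaximal →
    t4vOinfFix 𝔓 N' ∈ (t4vyPFix 𝔓 N' h hζ).through 𝔫 →
    t4vOmidFix 𝔓 N' h hζ ∈ (t4vyPFix 𝔓 N' h hζ).through 𝔫 →
    t4vO0Fix 𝔓 N' h ∈ (t4vyPFix 𝔓 N' h hζ).through 𝔫 →
    MltJ4TrivAt (t4vyPFix 𝔓 N' h hζ) (t4vQFix 𝔓 N') m z 𝔫

include h49 in
/-- **injectivity of the jump data** (function form): a Kummer function `z ≡ 1 (mod p 𝒪)` with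
normalised norm constants and trivial jump data at the triple points is a constant times an
`m`-th power -/
theorem mltj4_inj_fun {m : ℕ} (hm : m ≠ 0) (hqm : Nat.Coprime m 𝔓.p)
    {z : ↥(tbLevF 𝔓 (N' * 𝔓.p * 𝔓.p) ⊤)} (hz0 : z ≠ 0)
    (hzO : z ∈ (t4vBaseFix 𝔓 N' h hζ).Ov)
    (hz1 : ∃ o ∈ (t4vBaseFix 𝔓 N' h hζ).Ov, z - 1 = t4vQFix 𝔓 N' * o)
    (hK : ∀ P : Place ↥(tbFix 𝔓 (⊤ : Subgroup 𝔓.I)) ↥(tbLevF 𝔓 (N' * 𝔓.p * 𝔓.p) ⊤),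
      (m : ℤ) ∣ P.ord z)
    (hdiv : ∀ v : Place Qb ↥(modularFunctionFieldBar (N' * 𝔓.p * 𝔓.p)),
      (m : ℤ) ∣ v.ord (tbPhiF 𝔓 (N' * 𝔓.p * 𝔓.p) ⊤ z))
    (hA : T4niConstA (tbFixO 𝔓 ⊤) (tbFixRes 𝔓 ⊤) (tbFixRes_surjective 𝔓 ⊤) (t2iALFix 𝔓 ⊤ N' h)
      m z)
    (hBc : T4niConstB (tbFixO 𝔓 ⊤) (tbFixRes 𝔓 ⊤) (tbFixRes_surjective 𝔓 ⊤) (t2iALFix 𝔓 ⊤ N' h)
      m z)
    (htriv : MltJ4TripleTriv 𝔓 N' h hζ m z) :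
    ∃ (c : ↥(tbFix 𝔓 (⊤ : Subgroup 𝔓.I))) (t : ↥(tbLevF 𝔓 (N' * 𝔓.p * 𝔓.p) ⊤)), c ≠ 0 ∧ t ≠ 0 ∧
      z = c • t ^ m := by
  letI := t4cyAlgebra 𝔓 (le_top : t4cyH 𝔓 ζ ≤ ⊤)
  obtain ⟨hh, a1, a2, b1, b2, a1', a2', b1', b2', C1, C2⟩ :=
    mltj4_charts_fix 𝔓 N' h hζ h49 hm hqm z hz0 hK hA hBc
  have hmF : ((m : ℕ) : ↥(tbLevF 𝔓 (N' * 𝔓.p * 𝔓.p) ⊤)) ≠ 0 := by
    haveI : CharZero ↥(tbFix 𝔓 (⊤ : Subgroup 𝔓.I)) := algebraRat.charZero _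
    haveI : CharZero ↥(tbLevF 𝔓 (N' * 𝔓.p * 𝔓.p) ⊤) :=
      charZero_of_injective_algebraMap
        (algebraMap ↥(tbFix 𝔓 (⊤ : Subgroup 𝔓.I)) ↥(tbLevF 𝔓 (N' * 𝔓.p * 𝔓.p) ⊤)).injective
    exact Nat.cast_ne_zero.mpr hm
  have hz₁ : (t4vyPFix 𝔓 N' h hζ).CongrOv (t4vQFix 𝔓 N') z 1 := by
    obtain ⟨o, ho, hzo⟩ := hz1
    exact ⟨o, (mem_t4vyPFix_ov 𝔓 N' h hζ o).mpr ho, hzo⟩
  refine mltj4_export 𝔓 N' h hζ (t4nsc_two_le 𝔓) hm hqm hz0 hzO hz1 hdiv (t4vyPFix 𝔓 N' h hζ)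
    (t4vyP2Fix 𝔓 N' h hζ) (mem_t4vyPFix_B 𝔓 N' h hζ) (mem_t4vyP2Fix_B 𝔓 N' h hζ)
    (mem_t4vyPFix_ov 𝔓 N' h hζ) (mem_t4vyP2Fix_ov 𝔓 N' h hζ) C1.toJ4 C2.toJ4 ?_ ?_
  · -- chart 1: the dichotomy of `T4nCChart.hcase`, for a local generator
    intro 𝔫 h𝔫 hq𝔫
    obtain ⟨s, -, hs, -⟩ := C1.toJ4.exists_datum hmF hz0 hz₁ 𝔫 h𝔫 hq𝔫
    rcases C1.hcase 𝔫 h𝔫 hq𝔫 s hs with hone | ⟨-, hVi, hVm, hV0, -⟩
    · exact Or.inl hone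
    · exact Or.inr (htriv 𝔫 h𝔫 hVi hVm hV0)
  · -- chart 2: at most one vertical valuation ring through every point
    intro 𝔫 h𝔫 _
    refine Or.inl (t4vs2_hone_fix 𝔓 N' h hζ (t4vyP2Fix 𝔓 N' h hζ) (mem_t4vyP2Fix_B 𝔓 N' h hζ)
      (fun V hV => ?_) h𝔫.ne_top)
    rw [t4vyP2Fix_vert] at hV
    simpa using hV

end Fermat.Agent.MLT
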