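/-
MLT / [L2] / P4 (helper5), part 4: **injectivity of the jump data, in the `(D, B)`-language of
steps A + B** (`D = t4niAFix`, `B = t4niBFix`, helper4's instance of `T4nA`, `T4nB` at the inertia
level).

**`mltj4_inj_fix`** : `z ∈ B.U1q` (a unit `≡ 1 mod q 𝒪`), Kummer over `L` and over `ℚ̄`, with
`D.Nα z`, `D.Nβ z ∈ L^× · F₁^{×m}` and trivial jump data at the triple points ⟹
`z = D.cF c * t ^ m`.  (Same shape as helper4's `t4nt_stepC_fix`, exponent `1` instead of `q² - 1`.)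
-/
import Fermat.Agent.Lib.MLT.L2.P4.Charts

set_option autoImplicit false
set_option linter.unusedSectionVars false
set_option linter.unusedVariables false
set_option linter.style.haveILetI false
set_option synthInstance.maxHeartbeats 400000

open HahnSeries ModularCurve AlgebraicCurve Fermat.Agent.T1 Fermat.Agent.T2 IntermediateField
  Fermat.Agent.Curve Fermat.Agent.TW Fermat.Agent.S05Lib Fermat.Agent.T4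

noncomputable section

namespace Fermat.Agent.MLT

local notation "Qb" => AlgebraicClosure ℚ

attribute [local instance] t2i_dvr t2i_isAlgClosed t2i_charP t2i_fact t2iAlgebra t2i_isScalarTower

variable (𝔓 : FFPlace) (N' : ℕ) [NeZero N'] (h : ¬ 𝔓.p ∣ N') {ζ : Qb}
  (hζ : IsPrimitiveRoot ζ 𝔓.p) (h49 : 4 ∣ N' ∨ 9 ∣ N')

include h49 in
/-- **injectivity of the jump data**: a Kummer unit `z ≡ 1 (mod q 𝒪)` whose two norms are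
`constant × m`-th powers and whose jump data are trivial at the triple points is a
`constant × m`-th power -/
theorem mltj4_inj_fix (m : ℕ) (hm : m ≠ 0) (hqm : Nat.Coprime m 𝔓.p)
    (z : (↥(tbLevF 𝔓 (N' * 𝔓.p * 𝔓.p) ⊤))ˣ) (hzU : z ∈ (t4niBFix 𝔓 N' h hζ m hm hqm).U1q)
    (hzK : z ∈ tWsub ↥(tbFix 𝔓 (⊤ : Subgroup 𝔓.I)) (N' * 𝔓.p * 𝔓.p) m)
    (hzQ : ∀ P : Place Qb ↥(modularFunctionFieldBar (N' * 𝔓.p * 𝔓.p)),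
      (m : ℤ) ∣ P.ord (tbPhiF 𝔓 (N' * 𝔓.p * 𝔓.p) ⊤ (z : ↥(tbLevF 𝔓 (N' * 𝔓.p * 𝔓.p) ⊤))))
    (hα : ∃ (c : (↥(tbFix 𝔓 (⊤ : Subgroup 𝔓.I)))ˣ) (g : (↥(tbLevF 𝔓 (N' * 𝔓.p) ⊤))ˣ),
      (t4niAFix 𝔓 N' h hζ m).Nα z = (t4niAFix 𝔓 N' h hζ m).cF1 c * g ^ m)
    (hβ : ∃ (c : (↥(tbFix 𝔓 (⊤ : Subgroup 𝔓.I)))ˣ) (g : (↥(tbLevF 𝔓 (N' * 𝔓.p) ⊤))ˣ),
      (t4niAFix 𝔓 N' h hζ m).Nβ z = (t4niAFix 𝔓 N' h hζ m).cF1 c * g ^ m)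
    (htriv : MltJ4TripleTriv 𝔓 N' h hζ m (z : ↥(tbLevF 𝔓 (N' * 𝔓.p * 𝔓.p) ⊤))) :
    ∃ (c : (↥(tbFix 𝔓 (⊤ : Subgroup 𝔓.I)))ˣ) (t : (↥(tbLevF 𝔓 (N' * 𝔓.p * 𝔓.p) ⊤))ˣ),
      z = (t4niAFix 𝔓 N' h hζ m).cF c * t ^ m := by
  letI := t4cyAlgebra 𝔓 (le_top : t4cyH 𝔓 ζ ≤ ⊤)
  obtain ⟨hzO, hzO', hz1⟩ := mem_t4nU1q.mp hzU
  obtain ⟨hA, hB⟩ := t4ni_norm_consts (tbFixO 𝔓 ⊤) (tbFixRes 𝔓 ⊤) (tbFixRes_surjective 𝔓 ⊤)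
    (t2i_natCast_ne_zero 𝔓 h) (t2iALFix 𝔓 ⊤ N' h) (t2iFrobFix 𝔓 N') (t4iALFix 𝔓 ⊤ N' h)
    (t4cy_irreducible_p 𝔓) (tbFixO 𝔓 (t4cyH 𝔓 ζ)) (tbFixRes 𝔓 (t4cyH 𝔓 ζ)) (t4iCycFix 𝔓 hζ)
    (t4vMidFix 𝔓 N' h hζ) m hm hqm hzU hα hβ
  obtain ⟨c, t, hc0, ht0, hct⟩ := mltj4_inj_fun 𝔓 N' h hζ h49 hm hqm z.ne_zero hzO hz1
    (mem_tWsub.mp hzK) hzQ hA hB htriv
  refine ⟨Units.mk0 c hc0, Units.mk0 t ht0, Units.ext ?_⟩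
  rw [hct, Algebra.smul_def, Units.val_mul, Units.val_pow_eq_pow_val]
  rfl

end Fermat.Agent.MLT
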