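/-
MLT / [L2] / P4 (helper5), part 5: **branch values are values at places of the special fibre**
(abstract `T4Pres` language, no modular curves).

`P : T4Pres F` a chart presentation, `Ov ⊇ P.B` a subring of `F` (the intersection of the vertical
valuation rings), `cst : k → P.B` lifts of the constants of the residue field `k`,
`V` a (vertical) valuation ring, `E / k` a function field with separating generator `z`.

* `MltJ4Red P Ov hBO cst V E z` : a reduction map `ρ : Ov → E` with kernel the centre of `V`, which maps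
  `B` ONTO the integral closure `IntCl(k[z])` and the lifted constants to the constants;
* `R.PlaceAt 𝔫 Pl` : the place `Pl` of `E / k` (finite on the chart `z`) is the point `𝔫` of the branch `V`:
  `b ∈ 𝔫 ↔ (ρ b)(Pl) = 0`;
* `R.exists_placeAt` : every closed point `𝔫` through which `V` passes is a place of `E`;
* `PlaceAt.val_iff` : `b ≡ cst c (mod 𝔫) ↔ (ρ b)(Pl) = c`;
* **`PlaceAt.branchVal`** : `(ρ f)(Pl) = c  ⟹  P.BranchVal 𝔫 V f [cst c]`;
* **`PlaceAt.val_of_branchVal`** : the converse;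
* `PlaceAt.val_of_loc` (continuity): for `u ∈ B_𝔫`: `(ρ u)(Pl) = c ↔ u(𝔫) = [cst c]`;
* `PlaceAt.eq_of_agree` : two reductions which agree on enough elements of `B` define the same place.
-/
import Fermat.Agent.Lib.T4.Local.BranchVal
import Fermat.Agent.Lib.Delta.Glue.Local

set_option autoImplicit false
set_option linter.unusedSectionVars false
set_option linter.unusedVariables false
set_option linter.style.haveILetI false

namespace Fermat.Agent.MLT

open Fermat.Agent.T4 Fermat.Agent.Delta AlgebraicCurve Fermat.Agent.Curve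
  Fermat.Agent.Curve.PlaceAux IsDedekindDomain

/-- **the reduction of a chart presentation on one of its valuation rings** -/
structure MltJ4Red {F : Type*} [Field F] (P : T4Pres F) (Ov : Subring F) (hBO : P.B ≤ Ov)
    {k : Type*} [Field k] (cst : k → ↥P.B) (V : ValuationSubring F)
    (E : Type*) [Field E] [Algebra k E] (z : E) where
  /-- the reduction map -/
  ρ : ↥Ov →+* E
  ker : ∀ f : ↥Ov, ρ f = 0 ↔ V.valuation (f : F) < 1
  int : ∀ b : ↥P.B, IsIntegral ↥(Algebra.adjoin k {z}) (ρ (Subring.inclusion hBO b))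
  surj : ∀ t : E, IsIntegral ↥(Algebra.adjoin k {z}) t →
    ∃ b : ↥P.B, ρ (Subring.inclusion hBO b) = t
  cst_eq : ∀ c : k, ρ (Subring.inclusion hBO (cst c)) = algebraMap k E c

namespace MltJ4Red

variable {F : Type*} [Field F] {P : T4Pres F} {Ov : Subring F} {hBO : P.B ≤ Ov}
  {k : Type*} [Field k] {cst : k → ↥P.B} {V : ValuationSubring F}
  {E : Type*} [Field E] [Algebra k E] {z : E}
  (R : MltJ4Red P Ov hBO cst V E z)

/-- the reduction on the chart ring -/
def ρB : ↥P.B →+* E := R.ρ.comp (Subring.inclusion hBO)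

theorem ρB_apply (b : ↥P.B) : R.ρB b = R.ρ (Subring.inclusion hBO b) := rfl

theorem ρB_eq_zero_iff (b : ↥P.B) : R.ρB b = 0 ↔ V.valuation (b : F) < 1 :=
  R.ker (Subring.inclusion hBO b)

theorem ρB_cst (c : k) : R.ρB (cst c) = algebraMap k E c := R.cst_eq c

/-- the kernel of the reduction lies in every point through which `V` passes -/
theorem mem_of_ρB_eq_zero {𝔫 : Ideal ↥P.B} (hV : V ∈ P.through 𝔫) {b : ↥P.B} (hb : R.ρB b = 0) :
    b ∈ 𝔫 :=
  hV.2 b ((R.ρB_eq_zero_iff b).mp hb)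

/-- **the place `Pl` is the point `𝔫` of the branch `V`** -/
def PlaceAt (𝔫 : Ideal ↥P.B) (Pl : Place k E) : Prop :=
  0 ≤ Pl.ord z ∧ ∀ b : ↥P.B, b ∈ 𝔫 ↔ OrdGE Pl (R.ρB b) 1

namespace PlaceAt

variable {R} {𝔫 : Ideal ↥P.B} {Pl : Place k E}

theorem ρB_mem (h : R.PlaceAt 𝔫 Pl) (b : ↥P.B) : R.ρB b ∈ Pl.toValuationSubring :=
  mem_of_ord_nonneg Pl (Fermat.Agent.T1.ta_ord_nonneg_of_isIntegral (R.int b) Pl h.1)

/-- **values of the reduction are residues modulo `𝔫`** -/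
theorem val_iff (h : R.PlaceAt 𝔫 Pl) (b : ↥P.B) (c : k) :
    b - cst c ∈ 𝔫 ↔ DlgVal Pl (R.ρB b) c := by
  rw [h.2, map_sub, R.ρB_cst]
  rfl

theorem cst_mem_iff (h : R.PlaceAt 𝔫 Pl) (c : k) : cst c ∈ 𝔫 ↔ c = 0 := by
  rw [h.2, R.ρB_cst, ordGE_iff]
  constructor
  · rintro (h0 | h0)
    · exact (map_eq_zero _).mp h0
    · by_contra hc
      rw [ord_algebraMap] at h0
      omega
  · rintro rfl
    exact Or.inl (map_zero _)

theorem ne_top (h : R.PlaceAt 𝔫 Pl) : 𝔫 ≠ ⊤ := by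
  intro htop
  have h1 : (1 : ↥P.B) ∈ 𝔫 := by rw [htop]; trivial
  have h2 := (h.2 1).mp h1
  rw [map_one] at h2
  rcases (ordGE_iff Pl).mp h2 with h0 | h0
  · exact one_ne_zero h0
  · rw [Pl.ord_one] at h0
    omega

variable [IsAlgClosed k] [hz : Fact (IsFunctionFieldGen k E z)]
  [hsep : Algebra.IsSeparable (IntermediateField.adjoin k {z}) E]

/-- the lifted constants are injective modulo `𝔫` -/
theorem cst_inj (h : R.PlaceAt 𝔫 Pl) {c c' : k}
    (hcc : Ideal.Quotient.mk 𝔫 (cst c) = Ideal.Quotient.mk 𝔫 (cst c')) : c = c' := by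
  have h1 : cst c - cst c' ∈ 𝔫 := Ideal.Quotient.eq.mp hcc
  have h2 := (h.val_iff (cst c) c').mp h1
  rw [R.ρB_cst] at h2
  exact (DlgVal.const Pl c).unique h2

/-- the residue field of `𝔫` is `k` -/
theorem exists_val (h : R.PlaceAt 𝔫 Pl) (b : ↥P.B) : ∃ c : k, b - cst c ∈ 𝔫 := by
  obtain ⟨c, hc⟩ := dlg_exists_val hz.out Pl (h.ρB_mem b)
  exact ⟨c, (h.val_iff b c).mpr hc⟩

/-- **a value at the place is a branch value** -/
theorem branchVal (h : R.PlaceAt 𝔫 Pl) {f : F} (hf : f ∈ Ov) {c : k}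
    (hval : DlgVal Pl (R.ρ ⟨f, hf⟩) c) : P.BranchVal 𝔫 V f (Ideal.Quotient.mk 𝔫 (cst c)) := by
  have hzP : z ∈ Pl.toValuationSubring := mem_of_ord_nonneg Pl h.1
  obtain ⟨n, d, hn, hd, hd0, hdord, hfd⟩ := dlg_exists_frac Pl hzP hval.mem
  obtain ⟨b, hb⟩ := R.surj n hn
  obtain ⟨c', hc'⟩ := R.surj d hd
  refine ⟨b, c', ?_, ?_, ?_⟩
  · intro hmem
    have h1 := (h.2 c').mp hmem
    rw [R.ρB_apply, hc'] at h1
    rcases (ordGE_iff Pl).mp h1 with h0 | h0
    · exact hd0 h0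
    · omega
  · have h1 : R.ρ (⟨f, hf⟩ * Subring.inclusion hBO c' - Subring.inclusion hBO b) = 0 := by
      rw [map_sub, map_mul, hb, hc', hfd, sub_self]
    exact (R.ker _).mp h1
  · rw [← map_mul, ← sub_eq_zero, ← map_sub, Ideal.Quotient.eq_zero_iff_mem, h.2, map_sub,
      map_mul, R.ρB_cst, R.ρB_apply, R.ρB_apply, hb, hc', ← hfd]
    have h1 : algebraMap k E c * d - R.ρ ⟨f, hf⟩ * d = -((R.ρ ⟨f, hf⟩ - algebraMap k E c) * d) := by
      ring
    rw [h1]
    have hdm : OrdGE Pl d 0 := by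
      rw [ordGE_iff]; right; omega
    have h2 : OrdGE Pl ((R.ρ ⟨f, hf⟩ - algebraMap k E c) * d) (1 + 0) := OrdGE.mul Pl hval hdm
    exact (h2.mono Pl (by norm_num)).neg Pl

/-- **a branch value is a value at the place** -/
theorem val_of_branchVal (h : R.PlaceAt 𝔫 Pl) [h𝔫 : 𝔫.IsPrime] (hV : V ∈ P.through 𝔫) {f : F}
    (hf : f ∈ Ov) {κ : ↥P.B ⧸ 𝔫} (hκ : P.BranchVal 𝔫 V f κ) :
    ∃ c : k, DlgVal Pl (R.ρ ⟨f, hf⟩) c ∧ κ = Ideal.Quotient.mk 𝔫 (cst c) := by
  obtain ⟨b, c', hc', hval, -⟩ := id hκ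
  have h1 : R.ρ (⟨f, hf⟩ * Subring.inclusion hBO c' - Subring.inclusion hBO b) = 0 :=
    (R.ker _).mpr hval
  rw [map_sub, map_mul, sub_eq_zero] at h1
  have hc'0 : R.ρB c' ≠ 0 := fun h0 => hc' (R.mem_of_ρB_eq_zero hV h0)
  have hc'ord : Pl.ord (R.ρB c') = 0 := by
    have h2 : ¬ OrdGE Pl (R.ρB c') 1 := fun h3 => hc' ((h.2 c').mpr h3)
    rw [ordGE_iff] at h2
    push Not at h2
    have h3 := ord_nonneg_of_mem Pl (h.ρB_mem c')
    omega
  have hmem : R.ρ ⟨f, hf⟩ ∈ Pl.toValuationSubring := by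
    have hc'0' : R.ρ (Subring.inclusion hBO c') ≠ 0 := hc'0
    have h2 : R.ρ ⟨f, hf⟩ = R.ρB b * (R.ρB c')⁻¹ := by
      rw [R.ρB_apply b, ← h1, R.ρB_apply c', mul_assoc, mul_inv_cancel₀ hc'0', mul_one]
    rw [h2]
    refine Pl.toValuationSubring.mul_mem _ _ (h.ρB_mem b) (mem_of_ord_nonneg Pl ?_)
    rw [Pl.ord_inv, hc'ord, neg_zero]
  obtain ⟨c, hc⟩ := dlg_exists_val hz.out Pl hmem
  exact ⟨c, hc, T4Pres.BranchVal.unique P hV hκ (h.branchVal hf hc)⟩

/-- **continuity**: the value at the place of the reduction of `u ∈ B_𝔫` is the value `u(𝔫)` -/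
theorem val_of_loc (h : R.PlaceAt 𝔫 Pl) [h𝔫 : 𝔫.IsMaximal] (hV : V ∈ P.through 𝔫)
    (u : ↥(P.loc 𝔫)) (hu : (u : F) ∈ Ov) :
    ∃ c : k, DlgVal Pl (R.ρ ⟨(u : F), hu⟩) c ∧ P.locVal 𝔫 u = Ideal.Quotient.mk 𝔫 (cst c) := by
  haveI := h𝔫.isPrime
  exact h.val_of_branchVal hV hu (P.branchVal_of_loc hV u)

end PlaceAt

variable [IsAlgClosed k] [hz : Fact (IsFunctionFieldGen k E z)]
  [hsep : Algebra.IsSeparable (IntermediateField.adjoin k {z}) E]

local instance : IsDedekindDomain (CurveP.Bx k z) := CurveP.Bx.isDedekindDomain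

local instance : IsFractionRing (CurveP.Bx k z) E := CurveP.Bx.isFractionRing

/-- the reduction on the chart ring, with values in `IntCl(k[z])` -/
def ρBx : ↥P.B →+* ↥(CurveP.Bx k z) :=
  R.ρB.codRestrict (CurveP.Bx k z).toSubring (fun b => R.int b)

theorem coe_ρBx (b : ↥P.B) : ((R.ρBx b : ↥(CurveP.Bx k z)) : E) = R.ρB b := rfl

theorem ρBx_surjective : Function.Surjective R.ρBx := by
  rintro ⟨t, ht⟩
  obtain ⟨b, hb⟩ := R.surj t ht
  exact ⟨b, Subtype.ext hb⟩

/-- the places of the chart with the same centre on `IntCl(k[z])` coincide -/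
theorem _root_.Fermat.Agent.MLT.mltj4_place_ext {Pl Pl' : Place k E} (h1 : 0 ≤ Pl.ord z)
    (h2 : 0 ≤ Pl'.ord z)
    (h : ∀ t : E, IsIntegral ↥(Algebra.adjoin k {z}) t → (OrdGE Pl t 1 ↔ OrdGE Pl' t 1)) :
    Pl = Pl' := by
  have hzP : z ∈ Pl.toValuationSubring := mem_of_ord_nonneg Pl h1
  have hzP' : z ∈ Pl'.toValuationSubring := mem_of_ord_nonneg Pl' h2
  rw [eq_ofHeightOneSpectrum_centre Pl (CurveP.PlaceAux.Bx_le Pl hzP),
    eq_ofHeightOneSpectrum_centre Pl' (CurveP.PlaceAux.Bx_le Pl' hzP')]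
  congr 1
  apply HeightOneSpectrum.ext
  ext t
  rw [mem_centre_iff, mem_centre_iff]
  have h3 := h (algebraMap ↥(CurveP.Bx k z) E t) t.2
  rw [ordGE_iff, ordGE_iff] at h3
  have h0 : algebraMap ↥(CurveP.Bx k z) E t = 0 ↔ t = 0 := IsFractionRing.to_map_eq_zero_iff
  rw [h0] at h3
  constructor
  · rintro (h4 | h4)
    · exact Or.inl h4
    · rcases h3.mp (Or.inr (by omega)) with h5 | h5
      · exact Or.inl h5
      · exact Or.inr (by omega)
  · rintro (h4 | h4)
    · exact Or.inl h4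
    · rcases h3.mpr (Or.inr (by omega)) with h5 | h5
      · exact Or.inl h5
      · exact Or.inr (by omega)

variable {R} in
/-- two reductions which agree on lifts of all integral functions define the same place -/
theorem PlaceAt.eq_of_agree {V' : ValuationSubring F} {R' : MltJ4Red P Ov hBO cst V' E z}
    {𝔫 : Ideal ↥P.B} {Pl Pl' : Place k E} (h : R.PlaceAt 𝔫 Pl) (h' : R'.PlaceAt 𝔫 Pl')
    (hagree : ∀ t : E, IsIntegral ↥(Algebra.adjoin k {z}) t →
      ∃ b : ↥P.B, R.ρB b = t ∧ R'.ρB b = t) : Pl = Pl' := by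
  refine mltj4_place_ext h.1 h'.1 (fun t ht => ?_)
  obtain ⟨b, hb, hb'⟩ := hagree t ht
  rw [← hb, ← h.2 b, h'.2 b, hb', hb]

/-- **every closed point through which `V` passes is a place of the reduction** -/
theorem exists_placeAt {𝔫 : Ideal ↥P.B} [h𝔫 : 𝔫.IsMaximal] (hV : V ∈ P.through 𝔫) :
    ∃ Pl : Place k E, R.PlaceAt 𝔫 Pl := by
  haveI := h𝔫.isPrime
  have hsurj := R.ρBx_surjective
  have hk𝔫 : RingHom.ker R.ρBx ≤ 𝔫 := by
    intro b hb
    refine R.mem_of_ρB_eq_zero hV ?_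
    have h1 : R.ρBx b = 0 := (RingHom.mem_ker).mp hb
    rw [← R.coe_ρBx, h1]
    rfl
  have hcomap : (𝔫.map R.ρBx).comap R.ρBx = 𝔫 := by
    rw [Ideal.comap_map_of_surjective R.ρBx hsurj]
    exact sup_eq_left.mpr hk𝔫
  have h𝔪 : (𝔫.map R.ρBx).IsMaximal := by
    rcases Ideal.map_eq_top_or_isMaximal_of_surjective R.ρBx hsurj h𝔫 with h | h
    · exfalso
      rw [h, Ideal.comap_top] at hcomap
      exact h𝔫.ne_top hcomap.symm
    · exact h
  have hmem𝔪 : ∀ b : ↥P.B, R.ρBx b ∈ 𝔫.map R.ρBx ↔ b ∈ 𝔫 := by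
    intro b
    constructor
    · intro hb
      have : b ∈ (𝔫.map R.ρBx).comap R.ρBx := hb
      rwa [hcomap] at this
    · exact fun hb => Ideal.mem_map_of_mem R.ρBx hb
  -- `IntCl(k[z])` is not a field
  have hnf : ¬ IsField ↥(CurveP.Bx k z) := by
    intro hf
    have hA : IsField ↥(CurveP.Ax k z) :=
      isField_of_isIntegral_of_isField (R := ↥(CurveP.Ax k z)) (S := ↥(CurveP.Bx k z))
        (FaithfulSMul.algebraMap_injective _ _) hf
    have e : Polynomial k ≃ₐ[k] ↥(CurveP.Ax k z) :=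
      Polynomial.algEquivOfTranscendental k z hz.out.transcendental
    exact Polynomial.not_isField k (e.toMulEquiv.isField hA)
  have hbot : 𝔫.map R.ρBx ≠ ⊥ := by
    intro hb
    rw [hb] at h𝔪
    exact hnf (Ring.isField_iff_maximal_bot.mpr h𝔪)
  set w : HeightOneSpectrum ↥(CurveP.Bx k z) := ⟨𝔫.map R.ρBx, h𝔪.isPrime, hbot⟩ with hw
  refine ⟨Place.ofHeightOneSpectrum (K := k) w, ?_, fun b => ?_⟩
  · apply ord_nonneg_of_mem
    rw [Place.ofHeightOneSpectrum_toValuationSubring, Valuation.mem_valuationSubring_iff]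
    have hzB : z ∈ CurveP.Bx k z := isIntegral_algebraMap
      (x := (⟨z, Algebra.self_mem_adjoin_singleton k z⟩ : ↥(CurveP.Ax k z)))
    exact w.valuation_le_one (⟨z, hzB⟩ : ↥(CurveP.Bx k z))
  · rw [← hmem𝔪 b, ordGE_iff, ofHeightOneSpectrum_ord]
    have h1 : R.ρB b = algebraMap ↥(CurveP.Bx k z) E (R.ρBx b) := rfl
    rw [h1]
    have h2 : R.ρBx b ∈ 𝔫.map R.ρBx ↔ w.valuation E (algebraMap ↥(CurveP.Bx k z) E (R.ρBx b)) < 1 :=
      (w.valuation_lt_one_iff_mem (R.ρBx b)).symm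
    rw [h2]
    have h0 : algebraMap ↥(CurveP.Bx k z) E (R.ρBx b) = 0 ↔ R.ρBx b = 0 :=
      IsFractionRing.to_map_eq_zero_iff
    by_cases hb0 : R.ρBx b = 0
    · rw [hb0, map_zero, map_zero]
      exact ⟨fun _ => Or.inl rfl, fun _ => zero_lt_one⟩
    · have hne : w.valuation E (algebraMap ↥(CurveP.Bx k z) E (R.ρBx b)) ≠ 0 :=
        (Valuation.ne_zero_iff _).mpr (fun h3 => hb0 (h0.mp h3))
      constructor
      · intro hlt
        right
        have h4 : WithZero.log (w.valuation E (algebraMap ↥(CurveP.Bx k z) E (R.ρBx b))) < 0 := by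
          rwa [← WithZero.log_one, WithZero.log_lt_log hne one_ne_zero]
        omega
      · rintro (h3 | h3)
        · exact absurd (h0.mp h3) hb0
        · have h4 : WithZero.log (w.valuation E (algebraMap ↥(CurveP.Bx k z) E (R.ρBx b))) < 0 := by
            omega
          rwa [← WithZero.log_one, WithZero.log_lt_log hne one_ne_zero] at h4

end MltJ4Red

end Fermat.Agent.MLT
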