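/-
MLT / [L2] / P4 (helper5), part 7: **three branches through one point** (abstract).

`R₁`, `R₂`, `R₃` reductions (`MltJ4Red`) of a chart presentation `P` on three valuation rings
`V₁`, `V₂`, `V₃` (the vertical ones), `𝔫` a closed point which is the place `Pl_i` on the branch `V_i`.

* `mltj4_val_pow`        : values of powers;
* **`mltj4_vals_of_unit`** (continuity): a function which is a unit at all valuation rings through `𝔫`
  has the SAME non-zero value at the three places;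
* **`mltj4_trivAt_of_vals`** : a local generator `s` of `z₀` at `𝔫` whose three reductions have the same
  non-zero value at the three places trivialises the jump data of `z₀` at `𝔫` (`MltJ4TrivAt`).
-/
import Fermat.Agent.Lib.MLT.L2.P4.Bridge
import Fermat.Agent.Lib.MLT.L2.P4.Glue

set_option autoImplicit false
set_option linter.unusedSectionVars false
set_option linter.unusedVariables false
set_option linter.style.haveILetI false

namespace Fermat.Agent.MLT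

open Fermat.Agent.T4 Fermat.Agent.Delta AlgebraicCurve Fermat.Agent.Curve

/-- values of powers -/
theorem mltj4_val_pow {k E : Type*} [Field k] [Field E] [Algebra k E] [IsAlgClosed k]
    {Pl : Place k E} {f : E} {c : k} (h : DlgVal Pl f c) (n : ℕ) : DlgVal Pl (f ^ n) (c ^ n) := by
  induction n with
  | zero =>
    rw [pow_zero, pow_zero]
    exact DlgVal.one Pl
  | succ n ih =>
    rw [pow_succ, pow_succ]
    exact ih.mul h

section Three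

variable {F : Type*} [Field F] {P : T4Pres F} {Ov : Subring F} {hBO : P.B ≤ Ov}
  {k : Type*} [Field k] {cst : k → ↥P.B} {V₁ V₂ V₃ : ValuationSubring F}
  {E : Type*} [Field E] [Algebra k E] {z : E}
  [IsAlgClosed k] [hz : Fact (IsFunctionFieldGen k E z)]
  [hsep : Algebra.IsSeparable (IntermediateField.adjoin k {z}) E]
  {R₁ : MltJ4Red P Ov hBO cst V₁ E z} {R₂ : MltJ4Red P Ov hBO cst V₂ E z}
  {R₃ : MltJ4Red P Ov hBO cst V₃ E z}
  {𝔫 : Ideal ↥P.B} {Pl₁ Pl₂ Pl₃ : Place k E}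

/-- **continuity at a point of three branches** -/
theorem mltj4_vals_of_unit [h𝔫 : 𝔫.IsMaximal] (hV₁ : V₁ ∈ P.through 𝔫) (hV₂ : V₂ ∈ P.through 𝔫)
    (hV₃ : V₃ ∈ P.through 𝔫) (p₁ : R₁.PlaceAt 𝔫 Pl₁) (p₂ : R₂.PlaceAt 𝔫 Pl₂)
    (p₃ : R₃.PlaceAt 𝔫 Pl₃) {u : F} (hu : u ∈ Ov)
    (hu1 : ∀ V ∈ P.through 𝔫, V.valuation u = 1) :
    ∃ c : k, c ≠ 0 ∧ DlgVal Pl₁ (R₁.ρ ⟨u, hu⟩) c ∧ DlgVal Pl₂ (R₂.ρ ⟨u, hu⟩) c ∧
      DlgVal Pl₃ (R₃.ρ ⟨u, hu⟩) c := by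
  haveI := h𝔫.isPrime
  have hloc : u ∈ P.loc 𝔫 := fun V hV => (V.valuation_le_one_iff _).mp (hu1 V hV).le
  have hu0 : u ≠ 0 := by
    rintro rfl
    have := hu1 V₁ hV₁
    rw [map_zero] at this
    exact zero_ne_one this
  have hunit : IsUnit (⟨u, hloc⟩ : ↥(P.loc 𝔫)) := (P.isUnit_loc_iff _).mpr ⟨hu0, hu1⟩
  have hne : P.locVal 𝔫 ⟨u, hloc⟩ ≠ 0 := fun h0 => (P.locVal_eq_zero_iff _).mp h0 hunit
  obtain ⟨c₁, d₁, e₁⟩ := p₁.val_of_loc hV₁ ⟨u, hloc⟩ hu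
  obtain ⟨c₂, d₂, e₂⟩ := p₂.val_of_loc hV₂ ⟨u, hloc⟩ hu
  obtain ⟨c₃, d₃, e₃⟩ := p₃.val_of_loc hV₃ ⟨u, hloc⟩ hu
  have h12 : c₁ = c₂ := p₁.cst_inj (e₁.symm.trans e₂)
  have h13 : c₁ = c₃ := p₁.cst_inj (e₁.symm.trans e₃)
  subst h12
  subst h13
  refine ⟨c₁, ?_, d₁, d₂, d₃⟩
  rintro rfl
  apply hne
  rw [e₁, Ideal.Quotient.eq_zero_iff_mem]
  exact (p₁.cst_mem_iff 0).mpr rfl

/-- **equal values on the three branches trivialise the jump data** -/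
theorem mltj4_trivAt_of_vals {q : F} {m : ℕ} {z₀ : F}
    (hvert : ∀ V ∈ P.through 𝔫, V ∈ P.vert q → V = V₁ ∨ V = V₂ ∨ V = V₃)
    (p₁ : R₁.PlaceAt 𝔫 Pl₁) (p₂ : R₂.PlaceAt 𝔫 Pl₂) (p₃ : R₃.PlaceAt 𝔫 Pl₃)
    {s : F} (hs : s ∈ Ov) (hsz : ∀ V ∈ P.through 𝔫, V.valuation (s ^ m * z₀) = 1)
    {c : k} (hc : c ≠ 0) (v₁ : DlgVal Pl₁ (R₁.ρ ⟨s, hs⟩) c) (v₂ : DlgVal Pl₂ (R₂.ρ ⟨s, hs⟩) c)
    (v₃ : DlgVal Pl₃ (R₃.ρ ⟨s, hs⟩) c) : MltJ4TrivAt P q m z₀ 𝔫 := by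
  refine ⟨s, hsz, Ideal.Quotient.mk 𝔫 (cst c), ?_, fun V hV hv => ?_⟩
  · intro h0
    exact hc ((p₁.cst_mem_iff c).mp (Ideal.Quotient.eq_zero_iff_mem.mp h0))
  · rcases hvert V hV hv with rfl | rfl | rfl
    · exact p₁.branchVal hs v₁
    · exact p₂.branchVal hs v₂
    · exact p₃.branchVal hs v₃

end Three

end Fermat.Agent.MLT
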