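/-
MLT / [L2] / P4 (helper5), part 8: **jump data from global roots, generic instance**
(three-valuation base `t4vInput`, `(D, B) = (t4niAU, t4niBU)`, chart 1 presentation `P`).

`y ∈ D.U` a unit at the three vertical valuations whose three residues are `m`-th powers
`g_inf ^ m`, `g_mid ^ m`, `g_0 ^ m` in `E'`, and which is a unit at all valuation rings through the
triple points.  If at every triple point (= place `Pl` of `E' / k`, `mltj4_triple_place`) the three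
roots take the same value, then `y = z · s ^ m` with `s ∈ D.U`, `z ∈ U¹_q` and the jump data of `z`
are trivial at all triple points (`MltJ4TrivAt`).

* `mltj4_red1_eq`, `mltj4_red2_eq`, `mltj4_red3_eq` : the reductions of `RedInst.lean` are the residue
  maps of `B`;
* `mltj4_unit_vals` (continuity): the residues of such a `y` have the same non-zero value at the
  place of a triple point;
* **`mltj4_roots_gen`**.
-/
import Fermat.Agent.Lib.MLT.L2.P4.RedInst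
import Fermat.Agent.Lib.MLT.L2.P4.Jump
import Fermat.Agent.Lib.T4.New.InstU

set_option autoImplicit false
set_option linter.unusedSectionVars false
set_option linter.unusedVariables false
set_option linter.style.haveILetI false
set_option synthInstance.maxHeartbeats 400000

open HahnSeries ModularCurve AlgebraicCurve Fermat.Agent.T1 Fermat.Agent.T2 Fermat.Agent.T4
  Fermat.Agent.Curve Fermat.Agent.Delta IntermediateField

noncomputable section

namespace Fermat.Agent.MLT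

section Inst

attribute [local instance] t2iAlgebra t2i_isScalarTower

variable {L : Type} [Field L] [Algebra ℚ L] {O : ValuationSubring L} {k : Type} [Field k]
  {π : ↥O →+* k} [IsDiscreteValuationRing ↥O] {hπ : Function.Surjective π} [IsAlgClosed k]
  {N' q : ℕ} [NeZero N'] [hq : Fact q.Prime] [CharP k q] {hN' : (N' : k) ≠ 0}
  (W1 : T2iAL L N' q) {Fr : T2iFrob k N' q} (W : T4iAL L N' q)
  (hqO : Irreducible ((q : ℕ) : ↥O))
  {L' : Type*} [Field L'] [Algebra L L'] (O' : ValuationSubring L')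
  [IsDiscreteValuationRing ↥O'] (π' : ↥O' →+* k) (C : T4iCyc O O' π π' q)
  (M : T4iMid L L' N' q C.ζ)
  {y0 : ↥(TaF L N')} (G : T4vmGood O π hπ hN' Fr y0)
  (P : T4Pres ↥(TaF L (N' * q * q)))
  (hB : ∀ f, f ∈ P.B ↔ f ∈ t2Int (K := L) (t4vA0 L N' q y0) ∧
    f ∈ (t4vInput O π hπ hN' W1 Fr W hqO O' π' C M).Ov)
  {z : ↥(modularFunctionFieldFullC k N')}
  (hz : ∀ t : ↥(modularFunctionFieldFullC k N'),
    IsIntegral ↥(Algebra.adjoin k {G.yb}) t ↔ IsIntegral ↥(Algebra.adjoin k {z}) t)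
  (hA2 : ∀ f0 : ↥(taOv O π hπ N'), (f0 : ↥(TaF L N')) ∈ t2Int (K := L) y0 →
    t4vA2 L N' q (f0 : ↥(TaF L N')) ∈ P.B)
  {m : ℕ} (hm : m ≠ 0) (hqm : Nat.Coprime m q)

/-- the reduction at `∞` of `RedInst.lean` is the residue map `rinf` of `B` -/
theorem mltj4_red1_eq (s : ↥(t4niAU O π hπ hN' W1 Fr W hqO O' π' C M m).U)
    (hs : (((s : (↥(TaF L (N' * q * q)))ˣ)) : ↥(TaF L (N' * q * q))) ∈
      (t4vInput O π hπ hN' W1 Fr W hqO O' π' C M).Ov) :
    (mltj4Red1 W1 W hqO O' π' C M G P hB hz).ρ ⟨_, hs⟩ =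
      (((t4niBU O π hπ hN' W1 Fr W hqO O' π' C M m hm hqm).rinf s :
        (↥(modularFunctionFieldFullC k N'))ˣ) : ↥(modularFunctionFieldFullC k N')) :=
  Subtype.ext rfl

/-- the middle reduction of `RedInst.lean` is the residue map `rmid` of `B` -/
theorem mltj4_red2_eq (s : ↥(t4niAU O π hπ hN' W1 Fr W hqO O' π' C M m).U)
    (hs : (((s : (↥(TaF L (N' * q * q)))ˣ)) : ↥(TaF L (N' * q * q))) ∈
      (t4vInput O π hπ hN' W1 Fr W hqO O' π' C M).Ov) :
    (mltj4Red2 W1 W hqO O' π' C M G P hB hz).ρ ⟨_, hs⟩ =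
      (((t4niBU O π hπ hN' W1 Fr W hqO O' π' C M m hm hqm).rmid s :
        (↥(modularFunctionFieldFullC k N'))ˣ) : ↥(modularFunctionFieldFullC k N')) :=
  Subtype.ext rfl

/-- the reduction at `0` of `RedInst.lean` is the residue map `r0` of `B` -/
theorem mltj4_red3_eq (s : ↥(t4niAU O π hπ hN' W1 Fr W hqO O' π' C M m).U)
    (hs : (((s : (↥(TaF L (N' * q * q)))ˣ)) : ↥(TaF L (N' * q * q))) ∈
      (t4vInput O π hπ hN' W1 Fr W hqO O' π' C M).Ov) :
    (mltj4Red3 W1 W hqO O' π' C M G P hB hz hA2).ρ ⟨_, hs⟩ =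
      (((t4niBU O π hπ hN' W1 Fr W hqO O' π' C M m hm hqm).r0 s :
        (↥(modularFunctionFieldFullC k N'))ˣ) : ↥(modularFunctionFieldFullC k N')) :=
  Subtype.ext rfl

variable [hgen : Fact (IsFunctionFieldGen k ↥(modularFunctionFieldFullC k N') z)]
  [hsep : Algebra.IsSeparable (IntermediateField.adjoin k {z}) ↥(modularFunctionFieldFullC k N')]

/-- **continuity**: the three residues of a unit at a triple point have the same non-zero value at
its place -/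
theorem mltj4_unit_vals {𝔫 : Ideal ↥P.B} [h𝔫 : 𝔫.IsMaximal]
    (hi : t4vOinf (N' := N') (q := q) O π hπ ∈ P.through 𝔫)
    (hmid : t4vOmid O π hπ O' π' C M ∈ P.through 𝔫) (h0 : t4vO0 O π hπ W ∈ P.through 𝔫)
    {Pl : Place k ↥(modularFunctionFieldFullC k N')}
    (p₁ : (mltj4Red1 W1 W hqO O' π' C M G P hB hz).PlaceAt 𝔫 Pl)
    (p₂ : (mltj4Red2 W1 W hqO O' π' C M G P hB hz).PlaceAt 𝔫 Pl)
    (p₃ : (mltj4Red3 W1 W hqO O' π' C M G P hB hz hA2).PlaceAt 𝔫 Pl)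
    (y : ↥(t4niAU O π hπ hN' W1 Fr W hqO O' π' C M m).U)
    (hloc : ∀ V ∈ P.through 𝔫,
      V.valuation (((y : (↥(TaF L (N' * q * q)))ˣ)) : ↥(TaF L (N' * q * q))) = 1) :
    ∃ c : k, c ≠ 0 ∧
      DlgVal Pl (((t4niBU O π hπ hN' W1 Fr W hqO O' π' C M m hm hqm).rinf y :
        (↥(modularFunctionFieldFullC k N'))ˣ) : ↥(modularFunctionFieldFullC k N')) c ∧
      DlgVal Pl (((t4niBU O π hπ hN' W1 Fr W hqO O' π' C M m hm hqm).rmid y :
        (↥(modularFunctionFieldFullC k N'))ˣ) : ↥(modularFunctionFieldFullC k N')) c ∧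
      DlgVal Pl (((t4niBU O π hπ hN' W1 Fr W hqO O' π' C M m hm hqm).r0 y :
        (↥(modularFunctionFieldFullC k N'))ˣ) : ↥(modularFunctionFieldFullC k N')) c := by
  have hy := (t4ni_mem_Ov_of_mem_U O π hπ hN' W1 Fr W hqO O' π' C M m
    (t4ni_happrox O π hπ hN' W1 Fr W hqO O' π' C M) y.2).1
  obtain ⟨c, hc, v₁, v₂, v₃⟩ := mltj4_vals_of_unit hi hmid h0 p₁ p₂ p₃ hy hloc
  rw [mltj4_red1_eq W1 W hqO O' π' C M G P hB hz hm hqm y hy] at v₁
  rw [mltj4_red2_eq W1 W hqO O' π' C M G P hB hz hm hqm y hy] at v₂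
  rw [mltj4_red3_eq W1 W hqO O' π' C M G P hB hz hA2 hm hqm y hy] at v₃
  exact ⟨c, hc, v₁, v₂, v₃⟩

local notation "D" => t4niAU O π hπ hN' W1 Fr W hqO O' π' C M m

local notation "Bb" => t4niBU O π hπ hN' W1 Fr W hqO O' π' C M m hm hqm

include hA2 in
/-- **jump data from global roots**: if the three roots of the residues of `y` take the same value
at the place of every triple point, then `y = z · s ^ m` with `z ∈ U¹_q` of trivial jump data at
all triple points -/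
theorem mltj4_roots_gen
    (hvert : P.vert (t4vQ L N' q) =
      {t4vOinf (N' := N') (q := q) O π hπ, t4vOmid O π hπ O' π' C M, t4vO0 O π hπ W})
    (y : ↥(t4niAU O π hπ hN' W1 Fr W hqO O' π' C M m).U)
    (g₁ g₂ g₃ : (↥(modularFunctionFieldFullC k N'))ˣ)
    (h₁ : (t4niBU O π hπ hN' W1 Fr W hqO O' π' C M m hm hqm).rinf y = g₁ ^ m)
    (h₂ : (t4niBU O π hπ hN' W1 Fr W hqO O' π' C M m hm hqm).rmid y = g₂ ^ m)
    (h₃ : (t4niBU O π hπ hN' W1 Fr W hqO O' π' C M m hm hqm).r0 y = g₃ ^ m)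
    (hloc : ∀ 𝔫 : Ideal ↥P.B, 𝔫.IsMaximal → t4vOinf (N' := N') (q := q) O π hπ ∈ P.through 𝔫 →
      t4vOmid O π hπ O' π' C M ∈ P.through 𝔫 → t4vO0 O π hπ W ∈ P.through 𝔫 →
      ∀ V ∈ P.through 𝔫,
        V.valuation (((y : (↥(TaF L (N' * q * q)))ˣ)) : ↥(TaF L (N' * q * q))) = 1)
    (heq : ∀ 𝔫 : Ideal ↥P.B, 𝔫.IsMaximal → t4vOinf (N' := N') (q := q) O π hπ ∈ P.through 𝔫 →
      t4vOmid O π hπ O' π' C M ∈ P.through 𝔫 → t4vO0 O π hπ W ∈ P.through 𝔫 →
      ∀ Pl : Place k ↥(modularFunctionFieldFullC k N'),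
        (mltj4Red1 W1 W hqO O' π' C M G P hB hz).PlaceAt 𝔫 Pl →
        ∃ c : k, DlgVal Pl (g₁ : ↥(modularFunctionFieldFullC k N')) c ∧
          DlgVal Pl (g₂ : ↥(modularFunctionFieldFullC k N')) c ∧
          DlgVal Pl (g₃ : ↥(modularFunctionFieldFullC k N')) c) :
    ∃ s : ↥(t4niAU O π hπ hN' W1 Fr W hqO O' π' C M m).U,
      (y : (↥(TaF L (N' * q * q)))ˣ) * ((s : (↥(TaF L (N' * q * q)))ˣ) ^ m)⁻¹ ∈
        (t4niBU O π hπ hN' W1 Fr W hqO O' π' C M m hm hqm).U1q ∧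
      ∀ 𝔫 : Ideal ↥P.B, 𝔫.IsMaximal → t4vOinf (N' := N') (q := q) O π hπ ∈ P.through 𝔫 →
        t4vOmid O π hπ O' π' C M ∈ P.through 𝔫 → t4vO0 O π hπ W ∈ P.through 𝔫 →
        MltJ4TrivAt P (t4vQ L N' q) m
          ((((y : (↥(TaF L (N' * q * q)))ˣ) * ((s : (↥(TaF L (N' * q * q)))ˣ) ^ m)⁻¹ :
            (↥(TaF L (N' * q * q)))ˣ)) : ↥(TaF L (N' * q * q))) 𝔫 := by
  -- kill the residues
  obtain ⟨Gg, hG1, hG2, hG3⟩ := (Bb).approx_r g₁⁻¹ g₂⁻¹ g₃⁻¹
  obtain ⟨z', hz'⟩ : ∃ z' : ↥(D).U, z' = y * Gg ^ m := ⟨_, rfl⟩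
  have r1 : (Bb).rinf z' = 1 := by
    rw [hz', map_mul, map_pow, h₁, hG1, inv_pow, mul_inv_cancel]
  have r2 : (Bb).rmid z' = 1 := by
    rw [hz', map_mul, map_pow, h₂, hG2, inv_pow, mul_inv_cancel]
  have r3 : (Bb).r0 z' = 1 := by
    rw [hz', map_mul, map_pow, h₃, hG3, inv_pow, mul_inv_cancel]
  have hzO := t4ni_mem_Ov_of_mem_U O π hπ hN' W1 Fr W hqO O' π' C M m
    (t4ni_happrox O π hπ hN' W1 Fr W hqO O' π' C M) z'.2
  -- the `q`-group step, with an explicit root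
  obtain ⟨a, ha⟩ := t4ni_qgrp O π hπ hN' W1 Fr W hqO O' π' C M hqm hzO.1 hzO.2
    (congrArg (fun u : (↥(modularFunctionFieldFullC k N'))ˣ =>
      ((u : ↥(modularFunctionFieldFullC k N')) : LaurentSeries k)) r1)
    (congrArg (fun u : (↥(modularFunctionFieldFullC k N'))ˣ =>
      ((u : ↥(modularFunctionFieldFullC k N')) : LaurentSeries k)) r2)
    (congrArg (fun u : (↥(modularFunctionFieldFullC k N'))ˣ =>
      ((u : ↥(modularFunctionFieldFullC k N')) : LaurentSeries k)) r3)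
  obtain ⟨s, hs⟩ : ∃ s : ↥(D).U, s = Gg⁻¹ * z' ^ a := ⟨_, rfl⟩
  have s1 : (Bb).rinf s = g₁ := by
    rw [hs, map_mul, map_inv, map_zpow, r1, one_zpow, mul_one, hG1, inv_inv]
  have s2 : (Bb).rmid s = g₂ := by
    rw [hs, map_mul, map_inv, map_zpow, r2, one_zpow, mul_one, hG2, inv_inv]
  have s3 : (Bb).r0 s = g₃ := by
    rw [hs, map_mul, map_inv, map_zpow, r3, one_zpow, mul_one, hG3, inv_inv]
  have hyz : (y : (↥(TaF L (N' * q * q)))ˣ) * ((s : (↥(TaF L (N' * q * q)))ˣ) ^ m)⁻¹ =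
      (z' : (↥(TaF L (N' * q * q)))ˣ) * (((z' : (↥(TaF L (N' * q * q)))ˣ) ^ a) ^ m)⁻¹ := by
    have e1 : (s : (↥(TaF L (N' * q * q)))ˣ) =
        (Gg : (↥(TaF L (N' * q * q)))ˣ)⁻¹ * (z' : (↥(TaF L (N' * q * q)))ˣ) ^ a := by
      rw [hs]
      push_cast
      rfl
    have e2 : (z' : (↥(TaF L (N' * q * q)))ˣ) =
        (y : (↥(TaF L (N' * q * q)))ˣ) * (Gg : (↥(TaF L (N' * q * q)))ˣ) ^ m := by
      rw [hz']
      push_cast
      rfl
    rw [e1, mul_pow, inv_pow, mul_inv, inv_inv, ← mul_assoc, ← e2]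
  refine ⟨s, ?_, ?_⟩
  · rw [hyz]
    exact ha
  · intro 𝔫 h𝔫 hi hmid h0
    haveI := h𝔫
    obtain ⟨Pl, p₁, p₂, p₃⟩ := mltj4_triple_place W1 W hqO O' π' C M G P hB hz hA2 hi hmid h0
    obtain ⟨c, v₁, v₂, v₃⟩ := heq 𝔫 h𝔫 hi hmid h0 Pl p₁
    -- the common value is not zero
    obtain ⟨c₀, hc₀, w₁, -, -⟩ := mltj4_unit_vals W1 W hqO O' π' C M G P hB hz hA2 hm hqm hi hmid h0
      p₁ p₂ p₃ y (hloc 𝔫 h𝔫 hi hmid h0)
    have hc : c ≠ 0 := by
      have h4 : (((Bb).rinf y : (↥(modularFunctionFieldFullC k N'))ˣ) :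
          ↥(modularFunctionFieldFullC k N')) = (g₁ : ↥(modularFunctionFieldFullC k N')) ^ m := by
        rw [h₁, Units.val_pow_eq_pow_val]
      rw [h4] at w₁
      have h5 := (mltj4_val_pow v₁ m).unique w₁
      rintro rfl
      rw [zero_pow hm] at h5
      exact hc₀ h5.symm
    have hsO := (t4ni_mem_Ov_of_mem_U O π hπ hN' W1 Fr W hqO O' π' C M m
      (t4ni_happrox O π hπ hN' W1 Fr W hqO O' π' C M) s.2).1
    refine mltj4_trivAt_of_vals (R₁ := mltj4Red1 W1 W hqO O' π' C M G P hB hz)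
      (R₂ := mltj4Red2 W1 W hqO O' π' C M G P hB hz)
      (R₃ := mltj4Red3 W1 W hqO O' π' C M G P hB hz hA2) ?_ p₁ p₂ p₃ hsO ?_ hc ?_ ?_ ?_
    · intro V _ hv
      rw [hvert] at hv
      simpa using hv
    · intro V hV
      have e3 : ((s : (↥(TaF L (N' * q * q)))ˣ) : ↥(TaF L (N' * q * q))) ^ m *
          ((((y : (↥(TaF L (N' * q * q)))ˣ) * ((s : (↥(TaF L (N' * q * q)))ˣ) ^ m)⁻¹ :
            (↥(TaF L (N' * q * q)))ˣ)) : ↥(TaF L (N' * q * q))) =
          (((y : (↥(TaF L (N' * q * q)))ˣ)) : ↥(TaF L (N' * q * q))) := by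
        rw [← Units.val_pow_eq_pow_val, ← Units.val_mul, mul_comm (y : (↥(TaF L (N' * q * q)))ˣ),
          mul_inv_cancel_left]
      rw [e3]
      exact hloc 𝔫 h𝔫 hi hmid h0 V hV
    · rw [mltj4_red1_eq W1 W hqO O' π' C M G P hB hz hm hqm s hsO, s1]
      exact v₁
    · rw [mltj4_red2_eq W1 W hqO O' π' C M G P hB hz hm hqm s hsO, s2]
      exact v₂
    · rw [mltj4_red3_eq W1 W hqO O' π' C M G P hB hz hA2 hm hqm s hsO, s3]
      exact v₃

end Inst

end Fermat.Agent.MLT
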