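/-
MLT / [L2] / P4 (helper5), part 9: **INJECTIVITY of the jump data in the form with global roots**, at
level `N' p²` (inertia level, `p = 𝔓.p`, `4 ∣ N' ∨ 9 ∣ N'`, exponent `m` prime to `p`;
`(D, B) = (t4niAFix, t4niBFix)`, chart 1 = `t4vyPFix`).

* `MltJ4TriplePt 𝔫`      : `𝔫` is a closed point of chart 1 through which the three vertical valuation
                            rings pass;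
* `MltJ4PlaceOf h49 𝔫 Pl` : the place `Pl` of `E = tbBarF 𝔓 N'` (finite on the chart `j̄`) is the point `𝔫`:
                            `b ∈ 𝔫 ↔ (ρ_inf b)(Pl) = 0` — and then also `↔ (ρ_mid b)(Pl) = 0 ↔ (ρ_0 b)(Pl) = 0`
                            (ONE place for the three branches; no Frobenius twists in the normalisation
                            of the residue maps of `t4niBFix`);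
* `mltj4_exists_placeOf`, `mltj4_placeOf_unique`;
* **`mltj4_continuity_fix`** : a unit `y ∈ D.U` which is a unit at the valuation rings through the triple
  point `𝔫` has `(rinf y)(Pl) = (rmid y)(Pl) = (r0 y)(Pl) ≠ 0`;
* **`mltj4_inj_roots`** : `y ∈ D.U` Kummer (over `L` and `ℚ̄`), both norms `constant × m`-th powers, unit at the
  triple points, residues `g_inf ^ m`, `g_mid ^ m`, `g_0 ^ m` with `g_inf(Pl) = g_mid(Pl) = g_0(Pl)` at all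
  triple points  ⟹  `y = D.cF c * t ^ m`.
-/
import Fermat.Agent.Lib.MLT.L2.P4.RootsGen
import Fermat.Agent.Lib.MLT.L2.P4.Inj

set_option autoImplicit false
set_option linter.unusedSectionVars false
set_option linter.unusedVariables false
set_option linter.style.haveILetI false
set_option synthInstance.maxHeartbeats 400000

open HahnSeries ModularCurve AlgebraicCurve Fermat.Agent.T1 Fermat.Agent.T2 IntermediateField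
  Fermat.Agent.Curve Fermat.Agent.Curve.PlaceAux Fermat.Agent.TW Fermat.Agent.S05Lib Fermat.Agent.T4
  Fermat.Agent.Delta

noncomputable section

namespace Fermat.Agent.MLT

local notation "Qb" => AlgebraicClosure ℚ

/-! ### Generic: the elements `a2 f₀` lie in the chart-1 ring -/

section Gen

attribute [local instance] t2iAlgebra t2i_isScalarTower

variable {L : Type} [Field L] [Algebra ℚ L] {O : ValuationSubring L} {k : Type*} [Field k]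
  {π : ↥O →+* k} [IsDiscreteValuationRing ↥O] {hπ : Function.Surjective π} [IsAlgClosed k]
  {N' q : ℕ} [NeZero N'] [hq : Fact q.Prime] [CharP k q] {hN' : (N' : k) ≠ 0}
  {W1 : T2iAL L N' q} {Fr : T2iFrob k N' q} {W : T4iAL L N' q}
  {L' : Type*} [Field L'] [Algebra L L'] {O' : ValuationSubring L'}
  [IsDiscreteValuationRing ↥O'] {π' : ↥O' →+* k} {C : T4iCyc O O' π π' q}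
  {M : T4iMid L L' N' q C.ζ}
  {y0 : ↥(TaF L N')} {P : T4Pres ↥(TaF L (N' * q * q))} {P1 : T4Pres ↥(TaF L (N' * q))}
  {x1 : ↥(TaF L (N' * q))} {P' : T4Pres ↥(TaF L N')}

/-- on chart 1 the elements `a2 f₀ = β₂ (β₁ f₀)` lie in the chart ring -/
theorem mltj4_hA2_of_top (T : T4rtTop O π hπ W1 W O' π' C M x1 (t4vA0 L N' q y0) P1 P)
    (T' : T4rmLow O π hπ y0 P' P1)
    (hB' : ∀ f : ↥(TaF L N'), f ∈ P'.B ↔ f ∈ t2Int (K := L) y0 ∧ f ∈ taOv O π hπ N')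
    (f0 : ↥(taOv O π hπ N')) (hf0 : (f0 : ↥(TaF L N')) ∈ t2Int (K := L) y0) :
    t4vA2 L N' q (f0 : ↥(TaF L N')) ∈ P.B :=
  @T4PresOver.map_mem _ _ _ _ (t4vnAlgB L N' q) _ _ T.overB _
    (T'.mapB' (f0 : ↥(TaF L N')) ((hB' _).mpr ⟨hf0, f0.2⟩))

end Gen

/-! ### The inertia level -/

attribute [local instance] t2i_dvr t2i_isAlgClosed t2i_charP t2i_fact t2iAlgebra t2i_isScalarTower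

variable (𝔓 : FFPlace) (N' : ℕ) [NeZero N'] (h : ¬ 𝔓.p ∣ N') {ζ : Qb}
  (hζ : IsPrimitiveRoot ζ 𝔓.p) (h49 : 4 ∣ N' ∨ 9 ∣ N')

/-- **a triple point of chart 1**: a closed point through which the three vertical valuation rings
pass -/
def MltJ4TriplePt (𝔫 : Ideal ↥(t4vyPFix 𝔓 N' h hζ).B) : Prop :=
  𝔫.IsMaximal ∧ t4vOinfFix 𝔓 N' ∈ (t4vyPFix 𝔓 N' h hζ).through 𝔫 ∧
    t4vOmidFix 𝔓 N' h hζ ∈ (t4vyPFix 𝔓 N' h hζ).through 𝔫 ∧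
    t4vO0Fix 𝔓 N' h ∈ (t4vyPFix 𝔓 N' h hζ).through 𝔫

include h49 in
/-- good reduction of the chart `X' = j^(p²) - j` -/
theorem mltj4_fix_good :
    T4vmGood (tbFixO 𝔓 ⊤) (tbFixRes 𝔓 ⊤) (tbFixRes_surjective 𝔓 ⊤) (t2i_natCast_ne_zero 𝔓 h)
      (t2iFrobFix 𝔓 N') (t4vX' ↥(tbFix 𝔓 (⊤ : Subgroup 𝔓.I)) N' (𝔓.p * 𝔓.p)) :=
  t4vg_good_X 𝔓 ⊤ N' h h49 (t4nsc_two_le 𝔓) (dvd_mul_right _ _)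

/-- the dictionary of the chart-1 ring in the form of `ChartSm.lean` -/
theorem mltj4_fix_hB :
    letI := t4cyAlgebra 𝔓 (le_top : t4cyH 𝔓 ζ ≤ ⊤)
    ∀ f, f ∈ (t4vyPFix 𝔓 N' h hζ).B ↔
      f ∈ t2Int (K := ↥(tbFix 𝔓 (⊤ : Subgroup 𝔓.I)))
        (t4vA0 ↥(tbFix 𝔓 (⊤ : Subgroup 𝔓.I)) N' 𝔓.p
          (t4vX' ↥(tbFix 𝔓 (⊤ : Subgroup 𝔓.I)) N' (𝔓.p * 𝔓.p))) ∧
      f ∈ (t4vInput (tbFixO 𝔓 ⊤) (tbFixRes 𝔓 ⊤) (tbFixRes_surjective 𝔓 ⊤)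
        (t2i_natCast_ne_zero 𝔓 h) (t2iALFix 𝔓 ⊤ N' h) (t2iFrobFix 𝔓 N') (t4iALFix 𝔓 ⊤ N' h)
        (t4cy_irreducible_p 𝔓) (tbFixO 𝔓 (t4cyH 𝔓 ζ)) (tbFixRes 𝔓 (t4cyH 𝔓 ζ))
        (t4iCycFix 𝔓 hζ) (t4vMidFix 𝔓 N' h hζ)).Ov := by
  letI := t4cyAlgebra 𝔓 (le_top : t4cyH 𝔓 ζ ≤ ⊤)
  intro f
  rw [← t4vX_eq]
  exact mem_t4vyPFix_B 𝔓 N' h hζ f

include h49 in
/-- integrality over `k[X̄']` is integrality over `k[j̄]` -/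
theorem mltj4_fix_hz (t : ↥(tbBarF 𝔓 N')) :
    IsIntegral ↥(Algebra.adjoin (IsLocalRing.ResidueField ↥𝔓.P)
      {(mltj4_fix_good 𝔓 N' h h49).yb}) t ↔
    IsIntegral ↥(Algebra.adjoin (IsLocalRing.ResidueField ↥𝔓.P)
      {taBarJ (IsLocalRing.ResidueField ↥𝔓.P) N'}) t := by
  rw [t4vg_yb_X 𝔓 ⊤ N' h (mltj4_fix_good 𝔓 N' h h49), ← mem_t2R, ← mem_t2R,
    t4vg_t2R_X (IsLocalRing.ResidueField ↥𝔓.P) N' (t4nsc_two_le 𝔓)]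

include h49 in
/-- on chart 1 the elements `a2 f₀` lie in the chart ring -/
theorem mltj4_fix_hA2 :
    ∀ f0 : ↥(taOv (tbFixO 𝔓 ⊤) (tbFixRes 𝔓 ⊤) (tbFixRes_surjective 𝔓 ⊤) N'),
      (f0 : ↥(TaF ↥(tbFix 𝔓 (⊤ : Subgroup 𝔓.I)) N')) ∈
        t2Int (K := ↥(tbFix 𝔓 (⊤ : Subgroup 𝔓.I)))
          (t4vX' ↥(tbFix 𝔓 (⊤ : Subgroup 𝔓.I)) N' (𝔓.p * 𝔓.p)) →
      t4vA2 ↥(tbFix 𝔓 (⊤ : Subgroup 𝔓.I)) N' 𝔓.p (f0 : ↥(TaF ↥(tbFix 𝔓 (⊤ : Subgroup 𝔓.I)) N')) ∈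
        (t4vyPFix 𝔓 N' h hζ).B := by
  letI := t4cyAlgebra 𝔓 (le_top : t4cyH 𝔓 ζ ≤ ⊤)
  have T := t4nsc_top_fix 𝔓 N' h hζ h49 (t4vyPFix 𝔓 N' h hζ) (t4vyPFix_vals 𝔓 N' h hζ)
    (mem_t4vyPFix_B 𝔓 N' h hζ)
  rw [t4vX_eq] at T
  exact mltj4_hA2_of_top T (t4rgf_low0 𝔓 N' h (t4nsc_two_le 𝔓) h49)
    (mem_t4rLevFixP'_B 𝔓 N' (t4nsc_two_le 𝔓))

/-- `j̄` is a separating generator of `E / k` -/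
theorem mltj4_fix_gen : Fact (IsFunctionFieldGen (IsLocalRing.ResidueField ↥𝔓.P) ↥(tbBarF 𝔓 N')
    (taBarJ (IsLocalRing.ResidueField ↥𝔓.P) N')) :=
  ⟨ta_bar_isFunctionFieldGen (IsLocalRing.ResidueField ↥𝔓.P) N'⟩

include h in
theorem mltj4_fix_sep : Algebra.IsSeparable
    (IntermediateField.adjoin (IsLocalRing.ResidueField ↥𝔓.P)
      {taBarJ (IsLocalRing.ResidueField ↥𝔓.P) N'}) ↥(tbBarF 𝔓 N') :=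
  ta_bar_isSeparable (IsLocalRing.ResidueField ↥𝔓.P) N' (t2i_natCast_ne_zero 𝔓 h)

/-- **the place `Pl` of `E / k` is the point `𝔫` of chart 1** (on the branch `∞`, hence on all
three) -/
def MltJ4PlaceOf (𝔫 : Ideal ↥(t4vyPFix 𝔓 N' h hζ).B)
    (Pl : Place (IsLocalRing.ResidueField ↥𝔓.P) ↥(tbBarF 𝔓 N')) : Prop :=
  letI := t4cyAlgebra 𝔓 (le_top : t4cyH 𝔓 ζ ≤ ⊤)
  (mltj4Red1 (t2iALFix 𝔓 ⊤ N' h) (t4iALFix 𝔓 ⊤ N' h) (t4cy_irreducible_p 𝔓)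
    (tbFixO 𝔓 (t4cyH 𝔓 ζ)) (tbFixRes 𝔓 (t4cyH 𝔓 ζ)) (t4iCycFix 𝔓 hζ) (t4vMidFix 𝔓 N' h hζ)
    (mltj4_fix_good 𝔓 N' h h49) (t4vyPFix 𝔓 N' h hζ) (mltj4_fix_hB 𝔓 N' h hζ)
    (mltj4_fix_hz 𝔓 N' h h49)).PlaceAt 𝔫 Pl

/-- the place of a point determines the point: `b ∈ 𝔫 ↔ (ρ_inf b)(Pl) = 0` -/
theorem MltJ4PlaceOf.mem_iff {𝔫 : Ideal ↥(t4vyPFix 𝔓 N' h hζ).B}
    {Pl : Place (IsLocalRing.ResidueField ↥𝔓.P) ↥(tbBarF 𝔓 N')}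
    (hp : MltJ4PlaceOf 𝔓 N' h hζ h49 𝔫 Pl) (b : ↥(t4vyPFix 𝔓 N' h hζ).B) :
    letI := t4cyAlgebra 𝔓 (le_top : t4cyH 𝔓 ζ ≤ ⊤)
    b ∈ 𝔫 ↔ OrdGE Pl (t4niRho1 (tbFixO 𝔓 ⊤) (tbFixRes 𝔓 ⊤) (tbFixRes_surjective 𝔓 ⊤)
      (t2i_natCast_ne_zero 𝔓 h) (t2iALFix 𝔓 ⊤ N' h) (t2iFrobFix 𝔓 N') (t4iALFix 𝔓 ⊤ N' h)
      (t4cy_irreducible_p 𝔓) (tbFixO 𝔓 (t4cyH 𝔓 ζ)) (tbFixRes 𝔓 (t4cyH 𝔓 ζ))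
      (t4iCycFix 𝔓 hζ) (t4vMidFix 𝔓 N' h hζ)
      ⟨(b : ↥(tbLevF 𝔓 (N' * 𝔓.p * 𝔓.p) ⊤)), ((mltj4_fix_hB 𝔓 N' h hζ _).mp b.2).2⟩) 1 :=
  hp.2 b

theorem MltJ4PlaceOf.finite {𝔫 : Ideal ↥(t4vyPFix 𝔓 N' h hζ).B}
    {Pl : Place (IsLocalRing.ResidueField ↥𝔓.P) ↥(tbBarF 𝔓 N')}
    (hp : MltJ4PlaceOf 𝔓 N' h hζ h49 𝔫 Pl) :
    0 ≤ Pl.ord (taBarJ (IsLocalRing.ResidueField ↥𝔓.P) N') :=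
  hp.1

include h49 in
/-- every triple point is a place -/
theorem mltj4_exists_placeOf {𝔫 : Ideal ↥(t4vyPFix 𝔓 N' h hζ).B}
    (h𝔫 : MltJ4TriplePt 𝔓 N' h hζ 𝔫) :
    ∃ Pl : Place (IsLocalRing.ResidueField ↥𝔓.P) ↥(tbBarF 𝔓 N'),
      MltJ4PlaceOf 𝔓 N' h hζ h49 𝔫 Pl := by
  letI := t4cyAlgebra 𝔓 (le_top : t4cyH 𝔓 ζ ≤ ⊤)
  haveI := h𝔫.1
  haveI := mltj4_fix_gen 𝔓 N'
  haveI := mltj4_fix_sep 𝔓 N' h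
  exact (mltj4Red1 (t2iALFix 𝔓 ⊤ N' h) (t4iALFix 𝔓 ⊤ N' h) (t4cy_irreducible_p 𝔓)
    (tbFixO 𝔓 (t4cyH 𝔓 ζ)) (tbFixRes 𝔓 (t4cyH 𝔓 ζ)) (t4iCycFix 𝔓 hζ) (t4vMidFix 𝔓 N' h hζ)
    (mltj4_fix_good 𝔓 N' h h49) (t4vyPFix 𝔓 N' h hζ) (mltj4_fix_hB 𝔓 N' h hζ)
    (mltj4_fix_hz 𝔓 N' h h49)).exists_placeAt h𝔫.2.1

/-- the place of a point is unique -/
theorem mltj4_placeOf_unique {𝔫 : Ideal ↥(t4vyPFix 𝔓 N' h hζ).B}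
    {Pl Pl' : Place (IsLocalRing.ResidueField ↥𝔓.P) ↥(tbBarF 𝔓 N')}
    (hp : MltJ4PlaceOf 𝔓 N' h hζ h49 𝔫 Pl) (hp' : MltJ4PlaceOf 𝔓 N' h hζ h49 𝔫 Pl') :
    Pl = Pl' := by
  letI := t4cyAlgebra 𝔓 (le_top : t4cyH 𝔓 ζ ≤ ⊤)
  haveI := mltj4_fix_gen 𝔓 N'
  haveI := mltj4_fix_sep 𝔓 N' h
  refine MltJ4Red.PlaceAt.eq_of_agree hp hp' (fun t ht => ?_)
  obtain ⟨b, hb⟩ := (mltj4Red1 (t2iALFix 𝔓 ⊤ N' h) (t4iALFix 𝔓 ⊤ N' h) (t4cy_irreducible_p 𝔓)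
    (tbFixO 𝔓 (t4cyH 𝔓 ζ)) (tbFixRes 𝔓 (t4cyH 𝔓 ζ)) (t4iCycFix 𝔓 hζ) (t4vMidFix 𝔓 N' h hζ)
    (mltj4_fix_good 𝔓 N' h h49) (t4vyPFix 𝔓 N' h hζ) (mltj4_fix_hB 𝔓 N' h hζ)
    (mltj4_fix_hz 𝔓 N' h h49)).surj t ht
  exact ⟨b, hb, hb⟩

/-- the point of a place is unique -/
theorem mltj4_pointOf_unique {𝔫 𝔫' : Ideal ↥(t4vyPFix 𝔓 N' h hζ).B}
    {Pl : Place (IsLocalRing.ResidueField ↥𝔓.P) ↥(tbBarF 𝔓 N')}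
    (hp : MltJ4PlaceOf 𝔓 N' h hζ h49 𝔫 Pl) (hp' : MltJ4PlaceOf 𝔓 N' h hζ h49 𝔫' Pl) :
    𝔫 = 𝔫' := by
  ext b
  rw [hp.2 b, hp'.2 b]

include h49 in
/-- **continuity at the triple points**: the three residues of a unit have the same non-zero value -/
theorem mltj4_continuity_fix {m : ℕ} (hm : m ≠ 0) (hqm : Nat.Coprime m 𝔓.p)
    {𝔫 : Ideal ↥(t4vyPFix 𝔓 N' h hζ).B} (h𝔫 : MltJ4TriplePt 𝔓 N' h hζ 𝔫)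
    {Pl : Place (IsLocalRing.ResidueField ↥𝔓.P) ↥(tbBarF 𝔓 N')}
    (hp : MltJ4PlaceOf 𝔓 N' h hζ h49 𝔫 Pl)
    (y : ↥(t4niAFix 𝔓 N' h hζ m).U)
    (hloc : ∀ V ∈ (t4vyPFix 𝔓 N' h hζ).through 𝔫,
      V.valuation (((y : (↥(tbLevF 𝔓 (N' * 𝔓.p * 𝔓.p) ⊤))ˣ)) : ↥(tbLevF 𝔓 (N' * 𝔓.p * 𝔓.p) ⊤)) =
        1) :
    ∃ c : IsLocalRing.ResidueField ↥𝔓.P, c ≠ 0 ∧
      DlgVal Pl (((t4niBFix 𝔓 N' h hζ m hm hqm).rinf y : (↥(tbBarF 𝔓 N'))ˣ) : ↥(tbBarF 𝔓 N')) c ∧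
      DlgVal Pl (((t4niBFix 𝔓 N' h hζ m hm hqm).rmid y : (↥(tbBarF 𝔓 N'))ˣ) : ↥(tbBarF 𝔓 N')) c ∧
      DlgVal Pl (((t4niBFix 𝔓 N' h hζ m hm hqm).r0 y : (↥(tbBarF 𝔓 N'))ˣ) : ↥(tbBarF 𝔓 N')) c := by
  letI := t4cyAlgebra 𝔓 (le_top : t4cyH 𝔓 ζ ≤ ⊤)
  haveI := h𝔫.1
  haveI := mltj4_fix_gen 𝔓 N'
  haveI := mltj4_fix_sep 𝔓 N' h
  obtain ⟨Pl', p₁, p₂, p₃⟩ := mltj4_triple_place (t2iALFix 𝔓 ⊤ N' h) (t4iALFix 𝔓 ⊤ N' h)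
    (t4cy_irreducible_p 𝔓) (tbFixO 𝔓 (t4cyH 𝔓 ζ)) (tbFixRes 𝔓 (t4cyH 𝔓 ζ)) (t4iCycFix 𝔓 hζ)
    (t4vMidFix 𝔓 N' h hζ) (mltj4_fix_good 𝔓 N' h h49) (t4vyPFix 𝔓 N' h hζ)
    (mltj4_fix_hB 𝔓 N' h hζ) (mltj4_fix_hz 𝔓 N' h h49) (mltj4_fix_hA2 𝔓 N' h hζ h49)
    h𝔫.2.1 h𝔫.2.2.1 h𝔫.2.2.2
  obtain rfl : Pl = Pl' := mltj4_placeOf_unique 𝔓 N' h hζ h49 hp p₁
  exact mltj4_unit_vals (t2iALFix 𝔓 ⊤ N' h) (t4iALFix 𝔓 ⊤ N' h)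
    (t4cy_irreducible_p 𝔓) (tbFixO 𝔓 (t4cyH 𝔓 ζ)) (tbFixRes 𝔓 (t4cyH 𝔓 ζ)) (t4iCycFix 𝔓 hζ)
    (t4vMidFix 𝔓 N' h hζ) (mltj4_fix_good 𝔓 N' h h49) (t4vyPFix 𝔓 N' h hζ)
    (mltj4_fix_hB 𝔓 N' h hζ) (mltj4_fix_hz 𝔓 N' h h49) (mltj4_fix_hA2 𝔓 N' h hζ h49) hm hqm
    h𝔫.2.1 h𝔫.2.2.1 h𝔫.2.2.2 p₁ p₂ p₃ y hloc

include h49 in
/-- **injectivity of the jump data, global-root form**: a Kummer unit `y ∈ D.U`, both of whose norms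
are `constant × m`-th powers, which is a unit at the triple points and whose three residues have
`m`-th roots taking the same value at every triple point, is a `constant × m`-th power -/
theorem mltj4_inj_roots (m : ℕ) (hm : m ≠ 0) (hqm : Nat.Coprime m 𝔓.p)
    (y : ↥(t4niAFix 𝔓 N' h hζ m).U)
    (hyK : (y : (↥(tbLevF 𝔓 (N' * 𝔓.p * 𝔓.p) ⊤))ˣ) ∈
      tWsub ↥(tbFix 𝔓 (⊤ : Subgroup 𝔓.I)) (N' * 𝔓.p * 𝔓.p) m)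
    (hyQ : ∀ P : Place Qb ↥(modularFunctionFieldBar (N' * 𝔓.p * 𝔓.p)),
      (m : ℤ) ∣ P.ord (tbPhiF 𝔓 (N' * 𝔓.p * 𝔓.p) ⊤
        (((y : (↥(tbLevF 𝔓 (N' * 𝔓.p * 𝔓.p) ⊤))ˣ)) : ↥(tbLevF 𝔓 (N' * 𝔓.p * 𝔓.p) ⊤))))
    (hα : ∃ (c : (↥(tbFix 𝔓 (⊤ : Subgroup 𝔓.I)))ˣ) (g : (↥(tbLevF 𝔓 (N' * 𝔓.p) ⊤))ˣ),
      (t4niAFix 𝔓 N' h hζ m).Nα y = (t4niAFix 𝔓 N' h hζ m).cF1 c * g ^ m)
    (hβ : ∃ (c : (↥(tbFix 𝔓 (⊤ : Subgroup 𝔓.I)))ˣ) (g : (↥(tbLevF 𝔓 (N' * 𝔓.p) ⊤))ˣ),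
      (t4niAFix 𝔓 N' h hζ m).Nβ y = (t4niAFix 𝔓 N' h hζ m).cF1 c * g ^ m)
    (hloc : ∀ 𝔫 : Ideal ↥(t4vyPFix 𝔓 N' h hζ).B, MltJ4TriplePt 𝔓 N' h hζ 𝔫 →
      ∀ V ∈ (t4vyPFix 𝔓 N' h hζ).through 𝔫,
        V.valuation (((y : (↥(tbLevF 𝔓 (N' * 𝔓.p * 𝔓.p) ⊤))ˣ)) :
          ↥(tbLevF 𝔓 (N' * 𝔓.p * 𝔓.p) ⊤)) = 1)
    (g₁ g₂ g₃ : (↥(tbBarF 𝔓 N'))ˣ)
    (h₁ : (t4niBFix 𝔓 N' h hζ m hm hqm).rinf y = g₁ ^ m)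
    (h₂ : (t4niBFix 𝔓 N' h hζ m hm hqm).rmid y = g₂ ^ m)
    (h₃ : (t4niBFix 𝔓 N' h hζ m hm hqm).r0 y = g₃ ^ m)
    (heq : ∀ 𝔫 : Ideal ↥(t4vyPFix 𝔓 N' h hζ).B, MltJ4TriplePt 𝔓 N' h hζ 𝔫 →
      ∀ Pl : Place (IsLocalRing.ResidueField ↥𝔓.P) ↥(tbBarF 𝔓 N'),
        MltJ4PlaceOf 𝔓 N' h hζ h49 𝔫 Pl →
        ∃ c : IsLocalRing.ResidueField ↥𝔓.P, DlgVal Pl (g₁ : ↥(tbBarF 𝔓 N')) c ∧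
          DlgVal Pl (g₂ : ↥(tbBarF 𝔓 N')) c ∧ DlgVal Pl (g₃ : ↥(tbBarF 𝔓 N')) c) :
    ∃ (c : (↥(tbFix 𝔓 (⊤ : Subgroup 𝔓.I)))ˣ) (t : (↥(tbLevF 𝔓 (N' * 𝔓.p * 𝔓.p) ⊤))ˣ),
      (y : (↥(tbLevF 𝔓 (N' * 𝔓.p * 𝔓.p) ⊤))ˣ) = (t4niAFix 𝔓 N' h hζ m).cF c * t ^ m := by
  letI := t4cyAlgebra 𝔓 (le_top : t4cyH 𝔓 ζ ≤ ⊤)
  haveI := mltj4_fix_gen 𝔓 N'
  haveI := mltj4_fix_sep 𝔓 N' h
  obtain ⟨s, hzU, htriv⟩ := mltj4_roots_gen (t2iALFix 𝔓 ⊤ N' h) (t4iALFix 𝔓 ⊤ N' h)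
    (t4cy_irreducible_p 𝔓) (tbFixO 𝔓 (t4cyH 𝔓 ζ)) (tbFixRes 𝔓 (t4cyH 𝔓 ζ)) (t4iCycFix 𝔓 hζ)
    (t4vMidFix 𝔓 N' h hζ) (mltj4_fix_good 𝔓 N' h h49) (t4vyPFix 𝔓 N' h hζ)
    (mltj4_fix_hB 𝔓 N' h hζ) (mltj4_fix_hz 𝔓 N' h h49) (mltj4_fix_hA2 𝔓 N' h hζ h49) hm hqm
    (t4vyPFix_vert 𝔓 N' h hζ) y g₁ g₂ g₃ h₁ h₂ h₃
    (fun 𝔫 h𝔫 hi hmid h0 => hloc 𝔫 ⟨h𝔫, hi, hmid, h0⟩)
    (fun 𝔫 h𝔫 hi hmid h0 Pl hp => heq 𝔫 ⟨h𝔫, hi, hmid, h0⟩ Pl hp)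
  -- the Kummer and norm conditions for `z = y / s ^ m`
  have hsK : ((s : (↥(tbLevF 𝔓 (N' * 𝔓.p * 𝔓.p) ⊤))ˣ) ^ m)⁻¹ ∈
      tWsub ↥(tbFix 𝔓 (⊤ : Subgroup 𝔓.I)) (N' * 𝔓.p * 𝔓.p) m := by
    refine Subgroup.inv_mem _ (mem_tWsub.mpr (fun Pp => ?_))
    rw [Units.val_pow_eq_pow_val, ← zpow_natCast, Place.ord_zpow]
    exact dvd_mul_right _ _
  have hzK := Subgroup.mul_mem _ hyK hsK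
  have hzQ : ∀ Pp : Place Qb ↥(modularFunctionFieldBar (N' * 𝔓.p * 𝔓.p)),
      (m : ℤ) ∣ Pp.ord (tbPhiF 𝔓 (N' * 𝔓.p * 𝔓.p) ⊤
        ((((y : (↥(tbLevF 𝔓 (N' * 𝔓.p * 𝔓.p) ⊤))ˣ) *
          ((s : (↥(tbLevF 𝔓 (N' * 𝔓.p * 𝔓.p) ⊤))ˣ) ^ m)⁻¹ :
            (↥(tbLevF 𝔓 (N' * 𝔓.p * 𝔓.p) ⊤))ˣ)) : ↥(tbLevF 𝔓 (N' * 𝔓.p * 𝔓.p) ⊤))) := by
    intro Pp
    have hy0 : tbPhiF 𝔓 (N' * 𝔓.p * 𝔓.p) ⊤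
        (((y : (↥(tbLevF 𝔓 (N' * 𝔓.p * 𝔓.p) ⊤))ˣ)) : ↥(tbLevF 𝔓 (N' * 𝔓.p * 𝔓.p) ⊤)) ≠ 0 := by
      rw [Ne, map_eq_zero]
      exact Units.ne_zero _
    have hs0 : tbPhiF 𝔓 (N' * 𝔓.p * 𝔓.p) ⊤
        (((s : (↥(tbLevF 𝔓 (N' * 𝔓.p * 𝔓.p) ⊤))ˣ)) : ↥(tbLevF 𝔓 (N' * 𝔓.p * 𝔓.p) ⊤)) ≠ 0 := by
      rw [Ne, map_eq_zero]
      exact Units.ne_zero _
    rw [Units.val_mul, Units.val_inv_eq_inv_val, Units.val_pow_eq_pow_val, map_mul, map_inv₀,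
      map_pow, Place.ord_mul Pp hy0 (inv_ne_zero (pow_ne_zero _ hs0)), Place.ord_inv,
      ← zpow_natCast, Place.ord_zpow]
    exact dvd_add (hyQ Pp) ((dvd_neg).mpr (dvd_mul_right _ _))
  have key : ∀ (Nn : (↥(tbLevF 𝔓 (N' * 𝔓.p * 𝔓.p) ⊤))ˣ →* (↥(tbLevF 𝔓 (N' * 𝔓.p) ⊤))ˣ)
      (cc : (↥(tbFix 𝔓 (⊤ : Subgroup 𝔓.I)))ˣ →* (↥(tbLevF 𝔓 (N' * 𝔓.p) ⊤))ˣ),
      (∃ (c : (↥(tbFix 𝔓 (⊤ : Subgroup 𝔓.I)))ˣ) (g : (↥(tbLevF 𝔓 (N' * 𝔓.p) ⊤))ˣ),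
        Nn y = cc c * g ^ m) →
      ∃ (c : (↥(tbFix 𝔓 (⊤ : Subgroup 𝔓.I)))ˣ) (g : (↥(tbLevF 𝔓 (N' * 𝔓.p) ⊤))ˣ),
        Nn ((y : (↥(tbLevF 𝔓 (N' * 𝔓.p * 𝔓.p) ⊤))ˣ) *
          ((s : (↥(tbLevF 𝔓 (N' * 𝔓.p * 𝔓.p) ⊤))ˣ) ^ m)⁻¹) = cc c * g ^ m := by
    rintro Nn cc ⟨c, g, hcg⟩
    refine ⟨c, g * (Nn (s : (↥(tbLevF 𝔓 (N' * 𝔓.p * 𝔓.p) ⊤))ˣ))⁻¹, ?_⟩
    rw [map_mul, map_inv, map_pow, hcg, mul_pow, inv_pow, mul_assoc]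
  have hαz := key _ _ hα
  have hβz := key _ _ hβ
  have htr : MltJ4TripleTriv 𝔓 N' h hζ m
      ((((y : (↥(tbLevF 𝔓 (N' * 𝔓.p * 𝔓.p) ⊤))ˣ) *
        ((s : (↥(tbLevF 𝔓 (N' * 𝔓.p * 𝔓.p) ⊤))ˣ) ^ m)⁻¹ :
          (↥(tbLevF 𝔓 (N' * 𝔓.p * 𝔓.p) ⊤))ˣ)) : ↥(tbLevF 𝔓 (N' * 𝔓.p * 𝔓.p) ⊤)) :=
    fun 𝔫 h𝔫 hi hmid h0 => htriv 𝔫 h𝔫 hi hmid h0
  obtain ⟨c, t, hct⟩ := mltj4_inj_fix 𝔓 N' h hζ h49 m hm hqm _ hzU hzK hzQ hαz hβz htr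
  refine ⟨c, t * (s : (↥(tbLevF 𝔓 (N' * 𝔓.p * 𝔓.p) ⊤))ˣ), ?_⟩
  rw [mul_pow, ← mul_assoc, ← hct, inv_mul_cancel_right]

end Fermat.Agent.MLT
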