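/-
MLT / [L2] / P4 (helper5), part 16a: **the algebra of the jump data** (abstract: a group `U` of units, two
residue maps `r, r' : U →* Eˣ` into the units of a function field `E / k`, a place `Pl` of `E`).

For roots `a, b ∈ Eˣ` and a strip `s ∈ U` the jump is the value at `Pl` of `(a · r s) / (b · r' s)`.

* `mltj4a_res_strip`  : `r (s ^ m * y) = κ · (g · r s) ^ m` if `r y = κ · g ^ m`;
* `mltj4a_of_strip`   : change of the strip by a unit with equal values on the two branches;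
* `mltj4a_pow`        : the `m`-th power of the jump is the quotient of the constants;
* `mltj4a_exists`     : existence of the jump;
* `mltj4a_mul`, `mltj4a_inv`, `mltj4a_one`, `mltj4a_root` : multiplicativity, change of the roots by constants.
-/
import Fermat.Agent.Lib.MLT.L2.P4.Jump
import Fermat.Agent.Lib.Delta.NodeX.Local
import Fermat.Agent.Lib.CurveP.AdeleDim

set_option autoImplicit false
set_option linter.unusedSectionVars false
set_option linter.unusedVariables false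
set_option linter.style.haveILetI false

open AlgebraicCurve Fermat.Agent.Curve Fermat.Agent.Curve.PlaceAux Fermat.Agent.Delta

namespace Fermat.Agent.MLT

/-! ### Values of roots -/

section Root

variable {k κ : Type*} [Field k] [Field κ] [Algebra k κ] [IsAlgClosed k] {z : κ}

/-- a function whose `m`-th power has a non-zero value has a non-zero value -/
theorem mltj4_val_root (hz : IsFunctionFieldGen k κ z) (P : Place k κ) {f : κ} {c : k} {m : ℕ}
    (hm : m ≠ 0) (hc : c ≠ 0) (hval : DlgVal P (f ^ m) c) :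
    ∃ d : k, d ≠ 0 ∧ d ^ m = c ∧ DlgVal P f d := by
  obtain ⟨hf0, hord⟩ := hval.ord_eq_zero P hc
  have hf : f ≠ 0 := fun h0 => hf0 (by rw [h0, zero_pow hm])
  have h1 : P.ord f = 0 := by
    rw [← zpow_natCast, Place.ord_zpow] at hord
    rcases mul_eq_zero.mp hord with h2 | h2
    · exact absurd (Int.natCast_eq_zero.mp h2) hm
    · exact h2
  obtain ⟨d, hd⟩ := dlg_exists_val hz P (mem_of_ord_nonneg P h1.ge)
  have h3 : d ^ m = c := (mltj4_val_pow hd m).unique hval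
  refine ⟨d, ?_, h3, hd⟩
  rintro rfl
  rw [zero_pow hm] at h3
  exact hc h3.symm

/-- the same with a constant factor -/
theorem mltj4_val_root' (hz : IsFunctionFieldGen k κ z) (P : Place k κ) {f : κ} {a c : k} {m : ℕ}
    (hm : m ≠ 0) (ha : a ≠ 0) (hc : c ≠ 0) (hval : DlgVal P (algebraMap k κ a * f ^ m) c) :
    ∃ d : k, d ≠ 0 ∧ a * d ^ m = c ∧ DlgVal P f d := by
  have h1 : DlgVal P (f ^ m) (a⁻¹ * c) := by
    have h2 := (DlgVal.const P a⁻¹).mul hval
    rwa [← mul_assoc, ← map_mul, inv_mul_cancel₀ ha, map_one, one_mul] at h2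
  obtain ⟨d, hd0, hdm, hd⟩ := mltj4_val_root hz P hm (mul_ne_zero (inv_ne_zero ha) hc) h1
  exact ⟨d, hd0, by rw [hdm, ← mul_assoc, mul_inv_cancel₀ ha, one_mul], hd⟩

end Root

/-! ### The algebra of the jump -/

section Alg

variable {U : Type*} [Group U] {E : Type*} [Field E] {k : Type*} [Field k] [Algebra k E]
  [IsAlgClosed k] (Pl : Place k E) (r r' : U →* Eˣ)

/-- the residue of `s ^ m * y` -/
theorem mltj4a_res_strip (y s : U) {κc g : Eˣ} {m : ℕ} (hr : r y = κc * g ^ m) :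
    ((r (s ^ m * y) : Eˣ) : E) = (κc : E) * (((g * r s : Eˣ)) : E) ^ m := by
  rw [← Units.val_pow_eq_pow_val, ← Units.val_mul, map_mul, map_pow, hr, mul_pow,
    mul_comm (r s ^ m), mul_assoc]

/-- **change of the strip**: if `t / s` has the same non-zero value on the two branches, the jump
computed with `t` is the jump computed with `s` -/
theorem mltj4a_of_strip {s t : U} {a b : Eˣ} {ξ d : k} (hd : d ≠ 0)
    (w : DlgVal Pl (((a * r s / (b * r' s) : Eˣ)) : E) ξ)
    (x : DlgVal Pl ((r (t / s) : Eˣ) : E) d) (x' : DlgVal Pl ((r' (t / s) : Eˣ) : E) d) :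
    DlgVal Pl (((a * r t / (b * r' t) : Eˣ)) : E) ξ := by
  have e1 : r t = r (t / s) * r s := by rw [← map_mul, div_mul_cancel]
  have e2 : r' t = r' (t / s) * r' s := by rw [← map_mul, div_mul_cancel]
  have e3 : (((a * r t / (b * r' t) : Eˣ)) : E) =
      (((a * r s / (b * r' s) : Eˣ)) : E) *
        (((r (t / s) : Eˣ) : E) / ((r' (t / s) : Eˣ) : E)) := by
    rw [← Units.val_div_eq_div_val, ← Units.val_mul, e1, e2]
    congr 1
    rw [mul_comm (r (t / s)), mul_comm (r' (t / s)), ← mul_assoc, ← mul_assoc, mul_div_mul_comm]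
  rw [e3]
  have := w.mul (x.div Pl x' hd)
  rwa [div_self hd, mul_one] at this

/-- **the `m`-th power of the jump** is the quotient of the constants -/
theorem mltj4a_pow {y s : U} {g g' κc κc' : Eˣ} {c c' : kˣ} {m : ℕ}
    (hκ : (κc : E) = algebraMap k E (c : k)) (hκ' : (κc' : E) = algebraMap k E (c' : k))
    (hr : r y = κc * g ^ m) (hr' : r' y = κc' * g' ^ m) {d : k} (hd : d ≠ 0)
    (x : DlgVal Pl ((r (s ^ m * y) : Eˣ) : E) d) (x' : DlgVal Pl ((r' (s ^ m * y) : Eˣ) : E) d)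
    {ξ : kˣ} (w : DlgVal Pl (((g * r s / (g' * r' s) : Eˣ)) : E) (ξ : k)) : ξ ^ m = c' / c := by
  rw [mltj4a_res_strip r y s hr, hκ] at x
  rw [mltj4a_res_strip r' y s hr', hκ'] at x'
  rw [Units.val_div_eq_div_val] at w
  have hA : (((g * r s : Eˣ)) : E) ≠ 0 := Units.ne_zero _
  have hB : (((g' * r' s : Eˣ)) : E) ≠ 0 := Units.ne_zero _
  have ha : algebraMap k E (c : k) ≠ 0 := (map_ne_zero _).mpr c.ne_zero
  have hb : algebraMap k E (c' : k) ≠ 0 := (map_ne_zero _).mpr c'.ne_zero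
  have e1 : ((((g * r s : Eˣ)) : E) / (((g' * r' s : Eˣ)) : E)) ^ m =
      algebraMap k E ((c' : k) / (c : k)) *
        ((algebraMap k E (c : k) * (((g * r s : Eˣ)) : E) ^ m) /
          (algebraMap k E (c' : k) * (((g' * r' s : Eˣ)) : E) ^ m)) := by
    rw [map_div₀, div_pow]
    field_simp
  have h5 := mltj4_val_pow w m
  rw [e1] at h5
  have h6 := (DlgVal.const Pl ((c' : k) / (c : k))).mul (x.div Pl x' hd)
  rw [div_self hd, mul_one] at h6
  apply Units.ext
  rw [Units.val_pow_eq_pow_val, Units.val_div_eq_div_val]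
  exact h5.unique h6

/-- **existence of the jump** -/
theorem mltj4a_exists {z : E} (hz : IsFunctionFieldGen k E z) {y s : U} {g g' κc κc' : Eˣ}
    {c c' : kˣ} {m : ℕ} (hm : m ≠ 0)
    (hκ : (κc : E) = algebraMap k E (c : k)) (hκ' : (κc' : E) = algebraMap k E (c' : k))
    (hr : r y = κc * g ^ m) (hr' : r' y = κc' * g' ^ m) {d : k} (hd : d ≠ 0)
    (x : DlgVal Pl ((r (s ^ m * y) : Eˣ) : E) d) (x' : DlgVal Pl ((r' (s ^ m * y) : Eˣ) : E) d) :
    ∃ ξ : kˣ, DlgVal Pl (((g * r s / (g' * r' s) : Eˣ)) : E) (ξ : k) := by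
  rw [mltj4a_res_strip r y s hr, hκ] at x
  rw [mltj4a_res_strip r' y s hr', hκ'] at x'
  obtain ⟨d₁, hd₁, -, y₁⟩ := mltj4_val_root' hz Pl hm c.ne_zero hd x
  obtain ⟨d₂, hd₂, -, y₂⟩ := mltj4_val_root' hz Pl hm c'.ne_zero hd x'
  refine ⟨Units.mk0 d₁ hd₁ / Units.mk0 d₂ hd₂, ?_⟩
  rw [Units.val_div_eq_div_val, Units.val_div_eq_div_val]
  exact y₁.div Pl y₂ hd₂

/-- multiplicativity of the jump -/
theorem mltj4a_mul {s s' : U} {a b a' b' : Eˣ} {ξ η : kˣ}
    (w : DlgVal Pl (((a * r s / (b * r' s) : Eˣ)) : E) (ξ : k))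
    (w' : DlgVal Pl (((a' * r s' / (b' * r' s') : Eˣ)) : E) (η : k)) :
    DlgVal Pl (((a * a' * r (s * s') / (b * b' * r' (s * s')) : Eˣ)) : E) ((ξ * η : kˣ) : k) := by
  have e : (a * a' * r (s * s') / (b * b' * r' (s * s')) : Eˣ) =
      (a * r s / (b * r' s)) * (a' * r s' / (b' * r' s')) := by
    rw [map_mul, map_mul, div_mul_div_comm]
    congr 1
    · rw [mul_mul_mul_comm]
    · rw [mul_mul_mul_comm]
  rw [e, Units.val_mul, Units.val_mul]
  exact w.mul w'

/-- the jump of the inverse -/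
theorem mltj4a_inv {s : U} {a b : Eˣ} {ξ : kˣ}
    (w : DlgVal Pl (((a * r s / (b * r' s) : Eˣ)) : E) (ξ : k)) :
    DlgVal Pl (((a⁻¹ * r s⁻¹ / (b⁻¹ * r' s⁻¹) : Eˣ)) : E) ((ξ⁻¹ : kˣ) : k) := by
  have e : (a⁻¹ * r s⁻¹ / (b⁻¹ * r' s⁻¹) : Eˣ) = (a * r s / (b * r' s))⁻¹ := by
    rw [map_inv, map_inv, ← mul_inv, ← mul_inv, inv_div_inv, inv_div]
  rw [e, Units.val_inv_eq_inv_val, Units.val_inv_eq_inv_val]
  exact w.inv Pl ξ.ne_zero

/-- the jump of an `m`-th power `t ^ m`, with the roots `r t`, `r' t` and the strip `t⁻¹` -/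
theorem mltj4a_one (t : U) :
    DlgVal Pl (((r t * r t⁻¹ / (r' t * r' t⁻¹) : Eˣ)) : E) ((1 : kˣ) : k) := by
  have e : (r t * r t⁻¹ / (r' t * r' t⁻¹) : Eˣ) = 1 := by
    rw [map_inv, map_inv, mul_inv_cancel, mul_inv_cancel, div_self']
  rw [e, Units.val_one, Units.val_one]
  exact DlgVal.one Pl

/-- change of the roots by constants -/
theorem mltj4a_root {s : U} {a b κe κe' : Eˣ} {e e' : kˣ} {ξ : kˣ}
    (hκ : (κe : E) = algebraMap k E (e : k)) (hκ' : (κe' : E) = algebraMap k E (e' : k))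
    (w : DlgVal Pl (((a * r s / (b * r' s) : Eˣ)) : E) (ξ : k)) :
    DlgVal Pl (((κe * a * r s / (κe' * b * r' s) : Eˣ)) : E) ((e / e' * ξ : kˣ) : k) := by
  have e1 : (κe * a * r s / (κe' * b * r' s) : Eˣ) = (κe / κe') * (a * r s / (b * r' s)) := by
    rw [mul_assoc, mul_assoc, mul_div_mul_comm]
  have ev : ((e / e' * ξ : kˣ) : k) = (e : k) / (e' : k) * (ξ : k) := by
    rw [Units.val_mul, Units.val_div_eq_div_val]
  rw [e1, ev, Units.val_mul (κe / κe'), Units.val_div_eq_div_val κe κe', hκ, hκ']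
  exact ((DlgVal.const Pl (e : k)).div Pl (DlgVal.const Pl (e' : k)) e'.ne_zero).mul w

/-- the residues of a product -/
theorem mltj4a_roots_mul {K : Type*} [CommGroup K] (κ : K →* Eˣ) {y y' : U} {g g' : Eˣ} {c c' : K}
    {m : ℕ} (hr : r y = κ c * g ^ m) (hr' : r y' = κ c' * g' ^ m) :
    r (y * y') = κ (c * c') * (g * g') ^ m := by
  rw [map_mul, map_mul, hr, hr', mul_pow, mul_mul_mul_comm]

/-- the residues of an inverse -/
theorem mltj4a_roots_inv {K : Type*} [CommGroup K] (κ : K →* Eˣ) {y : U} {g : Eˣ} {c : K}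
    {m : ℕ} (hr : r y = κ c * g ^ m) : r y⁻¹ = κ c⁻¹ * g⁻¹ ^ m := by
  rw [map_inv, map_inv, hr, mul_inv, inv_pow]

/-- the residues of an `m`-th power -/
theorem mltj4a_roots_powm {K : Type*} [CommGroup K] (κ : K →* Eˣ) (t : U) (m : ℕ) :
    r (t ^ m) = κ 1 * r t ^ m := by
  rw [map_pow, map_one, one_mul]

/-- the residue of `s ^ m * y` as an `m`-th power -/
theorem mltj4a_res_root (y s : U) {κc κe g : Eˣ} {m : ℕ} (hr : r y = κc * g ^ m)
    (hκ : κe ^ m = κc) : r (s ^ m * y) = (κe * g * r s) ^ m := by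
  rw [map_mul, map_pow, hr, ← hκ, mul_pow, mul_pow, mul_comm (r s ^ m)]

/-- three functions with non-zero value of the `m`-th power of the first and trivial quotients have
the same value -/
theorem mltj4a_equal_vals {z : E} (hz : IsFunctionFieldGen k E z) {G₁ G₂ G₃ : Eˣ} {m : ℕ}
    (hm : m ≠ 0) {d : k} (hd : d ≠ 0) (x : DlgVal Pl (((G₁ ^ m : Eˣ)) : E) d)
    (w : DlgVal Pl (((G₁ / G₂ : Eˣ)) : E) 1) (w' : DlgVal Pl (((G₂ / G₃ : Eˣ)) : E) 1) :
    ∃ c : k, DlgVal Pl (G₁ : E) c ∧ DlgVal Pl (G₂ : E) c ∧ DlgVal Pl (G₃ : E) c := by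
  rw [Units.val_pow_eq_pow_val] at x
  obtain ⟨d₁, hd₁, -, y₁⟩ := mltj4_val_root hz Pl hm hd x
  have e2 : (G₂ : E) = (G₁ : E) / (((G₁ / G₂ : Eˣ)) : E) := by
    rw [← Units.val_div_eq_div_val, div_div_cancel]
  have y₂ : DlgVal Pl (G₂ : E) d₁ := by
    rw [e2]
    have := y₁.div Pl w one_ne_zero
    rwa [div_one] at this
  have e3 : (G₃ : E) = (G₂ : E) / (((G₂ / G₃ : Eˣ)) : E) := by
    rw [← Units.val_div_eq_div_val, div_div_cancel]
  have y₃ : DlgVal Pl (G₃ : E) d₁ := by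
    rw [e3]
    have := y₂.div Pl w' one_ne_zero
    rwa [div_one] at this
  exact ⟨d₁, y₁, y₂, y₃⟩

/-- the jump computed with the trivial strip -/
theorem mltj4a_quot_one {a b : Eˣ} {ξ : k} (w : DlgVal Pl ((a : E) / (b : E)) ξ) :
    DlgVal Pl (((a * r 1 / (b * r' 1) : Eˣ)) : E) ξ := by
  rw [map_one, map_one, mul_one, mul_one, Units.val_div_eq_div_val]
  exact w

/-- the trivial jump of `1` -/
theorem mltj4a_one_one :
    DlgVal Pl ((((1 : Eˣ) * r 1 / ((1 : Eˣ) * r' 1) : Eˣ)) : E) ((1 : kˣ) : k) := by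
  rw [map_one, map_one, mul_one, div_self', Units.val_one, Units.val_one]
  exact DlgVal.one Pl

/-- the residues of `1` -/
theorem mltj4a_roots_one {K : Type*} [CommGroup K] (κ : K →* Eˣ) (m : ℕ) :
    r 1 = κ 1 * (1 : Eˣ) ^ m := by
  rw [map_one, map_one, one_pow, one_mul]

end Alg

/-! ### Strips -/

section Strip

variable {F : Type*} [Field F] (U : Subgroup Fˣ) (V : ValuationSubring F) {m : ℕ}

/-- the product of two strips strips the product -/
theorem mltj4a_strip_mul {y y' s s' : ↥U}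
    (hs : V.valuation ((((s : Fˣ)) : F) ^ m * (((y : Fˣ)) : F)) = 1)
    (hs' : V.valuation ((((s' : Fˣ)) : F) ^ m * (((y' : Fˣ)) : F)) = 1) :
    V.valuation (((((s * s' : ↥U) : Fˣ)) : F) ^ m * ((((y * y' : ↥U) : Fˣ)) : F)) = 1 := by
  have e : ((((s * s' : ↥U) : Fˣ)) : F) ^ m * ((((y * y' : ↥U) : Fˣ)) : F) =
      ((((s : Fˣ)) : F) ^ m * (((y : Fˣ)) : F)) * ((((s' : Fˣ)) : F) ^ m * (((y' : Fˣ)) : F)) := by
    rw [Subgroup.coe_mul, Subgroup.coe_mul, Units.val_mul, Units.val_mul]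
    ring
  rw [e, map_mul, hs, hs', one_mul]

/-- the inverse of a strip strips the inverse -/
theorem mltj4a_strip_inv {y s : ↥U}
    (hs : V.valuation ((((s : Fˣ)) : F) ^ m * (((y : Fˣ)) : F)) = 1) :
    V.valuation (((((s⁻¹ : ↥U) : Fˣ)) : F) ^ m * ((((y⁻¹ : ↥U) : Fˣ)) : F)) = 1 := by
  have e : ((((s⁻¹ : ↥U) : Fˣ)) : F) ^ m * ((((y⁻¹ : ↥U) : Fˣ)) : F) =
      ((((s : Fˣ)) : F) ^ m * (((y : Fˣ)) : F))⁻¹ := by
    rw [Subgroup.coe_inv, Subgroup.coe_inv, Units.val_inv_eq_inv_val, Units.val_inv_eq_inv_val,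
      mul_inv, inv_pow]
  rw [e, map_inv₀, hs, inv_one]

/-- `t⁻¹` strips `t ^ m` -/
theorem mltj4a_strip_powm (t : ↥U) :
    V.valuation (((((t⁻¹ : ↥U) : Fˣ)) : F) ^ m * ((((t ^ m : ↥U) : Fˣ)) : F)) = 1 := by
  have e : ((((t⁻¹ : ↥U) : Fˣ)) : F) ^ m * ((((t ^ m : ↥U) : Fˣ)) : F) = 1 := by
    rw [Subgroup.coe_inv, Subgroup.coe_pow, Units.val_inv_eq_inv_val, Units.val_pow_eq_pow_val,
      inv_pow, inv_mul_cancel₀ (pow_ne_zero _ (Units.ne_zero _))]
  rw [e, map_one]

/-- `1` strips a unit -/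
theorem mltj4a_strip_one {y : ↥U} (hy : V.valuation ((((y : Fˣ)) : F)) = 1) :
    V.valuation (((((1 : ↥U) : Fˣ)) : F) ^ m * (((y : Fˣ)) : F)) = 1 := by
  rw [Subgroup.coe_one, Units.val_one, one_pow, one_mul, hy]

/-- `1` strips `1` -/
theorem mltj4a_strip_one_one :
    V.valuation (((((1 : ↥U) : Fˣ)) : F) ^ m * ((((1 : ↥U) : Fˣ)) : F)) = 1 := by
  rw [Subgroup.coe_one, Units.val_one, one_pow, one_mul, map_one]

end Strip

/-! ### Closure under integral powers -/

/-- a relation which is compatible with `1`, products and inverses is compatible with integral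
powers -/
theorem mltj4a_zpow_closed {U X : Type*} [Group U] [CommGroup X] (J : U → X → X → Prop)
    (h1 : J 1 1 1)
    (hmul : ∀ y y' ξ ξ' η η', J y ξ ξ' → J y' η η' → J (y * y') (ξ * η) (ξ' * η'))
    (hinv : ∀ y ξ ξ', J y ξ ξ' → J y⁻¹ ξ⁻¹ ξ'⁻¹) {y : U} {ξ ξ' : X} (hJ : J y ξ ξ') (n : ℤ) :
    J (y ^ n) (ξ ^ n) (ξ' ^ n) := by
  have hpow : ∀ n : ℕ, J (y ^ n) (ξ ^ n) (ξ' ^ n) := by
    intro n
    induction n with
    | zero =>
      rw [pow_zero, pow_zero, pow_zero]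
      exact h1
    | succ n ih =>
      rw [pow_succ, pow_succ, pow_succ]
      exact hmul _ _ _ _ _ _ ih hJ
  cases n with
  | ofNat n =>
    rw [Int.ofNat_eq_natCast, zpow_natCast, zpow_natCast, zpow_natCast]
    exact hpow n
  | negSucc n =>
    rw [zpow_negSucc, zpow_negSucc, zpow_negSucc]
    exact hinv _ _ _ (hpow (n + 1))

/-! ### Roots are unique up to constants -/

section Const

variable {k E : Type*} [Field k] [Field E] [Algebra k E] [IsAlgClosed k] {z : E}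

/-- two `m`-th roots of the same function, up to constants, differ by a constant -/
theorem mltj4a_root_const (hz : IsFunctionFieldGen k E z)
    [Algebra.IsSeparable (IntermediateField.adjoin k {z}) E] {g g' : Eˣ} {c c' : kˣ} {m : ℕ}
    (hm : m ≠ 0)
    (hgg : algebraMap k E (c : k) * (g : E) ^ m = algebraMap k E (c' : k) * (g' : E) ^ m) :
    ∃ e : kˣ, (g' : E) = algebraMap k E (e : k) * (g : E) := by
  have hc : algebraMap k E (c : k) ≠ 0 := (map_ne_zero _).mpr c.ne_zero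
  have hc' : algebraMap k E (c' : k) ≠ 0 := (map_ne_zero _).mpr c'.ne_zero
  have hg : (g : E) ≠ 0 := Units.ne_zero _
  have hg' : (g' : E) ≠ 0 := Units.ne_zero _
  have hf0 : (g' : E) / (g : E) ≠ 0 := div_ne_zero hg' hg
  have hpow : ((g' : E) / (g : E)) ^ m = algebraMap k E ((c : k) / (c' : k)) := by
    rw [map_div₀, div_pow]
    field_simp
    rw [mul_comm _ (algebraMap k E (c' : k)), mul_comm _ (algebraMap k E (c : k))]
    exact hgg.symm
  have hord : ∀ Q : Place k E, Q.ord ((g' : E) / (g : E)) = 0 := by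
    intro Q
    have h1 : Q.ord (((g' : E) / (g : E)) ^ m) = 0 := by
      rw [hpow]
      exact ord_algebraMap Q _
    rw [← zpow_natCast, Place.ord_zpow] at h1
    rcases mul_eq_zero.mp h1 with h2 | h2
    · exact absurd (Int.natCast_eq_zero.mp h2) hm
    · exact h2
  have hmem : (g' : E) / (g : E) ∈ riemannRochSpace (0 : Divisor k E) := by
    rw [mem_riemannRochSpace_iff]
    intro v
    right
    rw [Finsupp.zero_apply, neg_zero, hord v]
  rw [Fermat.Agent.CurveP.riemannRochSpace_zero hz] at hmem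
  obtain ⟨e, he⟩ := hmem
  have he0 : e ≠ 0 := by
    rintro rfl
    rw [map_zero] at he
    exact hf0 he.symm
  refine ⟨Units.mk0 e he0, ?_⟩
  rw [Units.val_mk0]
  have h3 : algebraMap k E e = (g' : E) / (g : E) := he
  rw [h3, div_mul_cancel₀ _ hg]

/-- the same for the units, with the constants `κ : kˣ →* Eˣ` -/
theorem mltj4a_root_const' (hz : IsFunctionFieldGen k E z)
    [Algebra.IsSeparable (IntermediateField.adjoin k {z}) E] {κ : kˣ →* Eˣ}
    (hκ : ∀ c : kˣ, ((κ c : Eˣ) : E) = algebraMap k E (c : k)) {R g g' : Eˣ} {c c' : kˣ} {m : ℕ}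
    (hm : m ≠ 0) (hR : R = κ c * g ^ m) (hR' : R = κ c' * g' ^ m) :
    ∃ e : kˣ, g' = κ e * g := by
  have h1 : algebraMap k E (c : k) * (g : E) ^ m = algebraMap k E (c' : k) * (g' : E) ^ m := by
    rw [← hκ c, ← hκ c', ← Units.val_pow_eq_pow_val, ← Units.val_pow_eq_pow_val, ← Units.val_mul,
      ← Units.val_mul, ← hR, ← hR']
  obtain ⟨e, he⟩ := mltj4a_root_const hz hm h1
  refine ⟨e, Units.ext ?_⟩
  rw [Units.val_mul, hκ e, he]

end Const

end Fermat.Agent.MLT
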