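/-
MLT / [L2] / P4 (helper5), part 22a: abstract lemmas for the jump functions of an eigen-relation
`y' · y ^ (-a) = c · g ^ m` (`JumpEigen.lean`).
-/
import Fermat.Agent.Lib.MLT.L2.P4.JumpAbs

set_option autoImplicit false
set_option linter.unusedSectionVars false
set_option linter.unusedVariables false
set_option linter.style.haveILetI false

open AlgebraicCurve Fermat.Agent.Curve Fermat.Agent.Curve.PlaceAux Fermat.Agent.Delta

namespace Fermat.Agent.MLT

/-- the shape of `y'` in an eigen-relation -/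
theorem mltj4a_eigen_key {G : Type*} [CommGroup G] (U : Subgroup G) (y y' : ↥U) (a : ℤ) {c₁ g' : G}
    (hc : c₁ ∈ U) (hg : g' ∈ U) {m : ℕ} (h : (y' : G) * (y : G) ^ (-a) = c₁ * g' ^ m) :
    y' = (⟨c₁, hc⟩ : ↥U) * (⟨g', hg⟩ : ↥U) ^ m * y ^ a := by
  apply Subtype.ext
  rw [Subgroup.coe_mul, Subgroup.coe_mul, Subgroup.coe_pow, Subgroup.coe_zpow]
  show (y' : G) = c₁ * g' ^ m * (y : G) ^ a
  rw [← h, mul_assoc, ← zpow_add, neg_add_cancel, zpow_zero, mul_one]

/-- transport of a ternary relation along equalities -/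
theorem mltj4a_transport {U X : Type*} (J : U → X → X → Prop) {y y' : U} {ξ ξ' η η' : X}
    (hJ : J y ξ ξ') (ey : y' = y) (eξ : η = ξ) (eξ' : η' = ξ') : J y' η η' := by
  subst ey
  subst eξ
  subst eξ'
  exact hJ

/-- a constant residue, as a constant times the `m`-th power of `1` -/
theorem mltj4a_roots_const {U : Type*} [Group U] {E : Type*} [Field E] (r : U →* Eˣ) {y : U}
    {κb : Eˣ} (m : ℕ) (h : r y = κb) : r y = κb * (1 : Eˣ) ^ m := by
  rw [h, one_pow, mul_one]

/-- the value of `1 / 1` -/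
theorem mltj4a_val_one_div_one {k E : Type*} [Field k] [Field E] [Algebra k E] [IsAlgClosed k]
    (Pl : Place k E) {ξ : kˣ} (hξ : ξ = 1) :
    DlgVal Pl ((((1 : Eˣ)) : E) / (((1 : Eˣ)) : E)) (ξ : k) := by
  subst hξ
  rw [Units.val_one, Units.val_one, div_one]
  exact DlgVal.one Pl

/-- an element of a valuation ring whose inverse lies in the ring is a unit -/
theorem mltj4a_val_one_of_mem {F : Type*} [Field F] (V : ValuationSubring F) {u : Fˣ}
    (hu : (u : F) ∈ V) (hu' : ((u⁻¹ : Fˣ) : F) ∈ V) : V.valuation (u : F) = 1 := by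
  have h1 : V.valuation (u : F) ≤ 1 := (V.valuation_le_one_iff _).mpr hu
  have h2 : V.valuation ((u⁻¹ : Fˣ) : F) ≤ 1 := (V.valuation_le_one_iff _).mpr hu'
  rw [Units.val_inv_eq_inv_val, map_inv₀] at h2
  have h3 : V.valuation (u : F) ≠ 0 := (Valuation.ne_zero_iff _).mpr (Units.ne_zero _)
  exact le_antisymm h1 ((inv_le_one₀ (zero_lt_iff.mpr h3)).mp h2)

end Fermat.Agent.MLT
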