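/-
MLT / [L2] / P4 (helper5), part 25a: abstract lemmas for the Hecke-equivariance of the jump functions
(`HeckeJump.lean`): the operator `T̃ = N_α ∘ β` on a function field, roots of the residues of a Hecke translate,
and the group-theoretic bookkeeping.
-/
import Fermat.Agent.Lib.MLT.L2.P4.EigenAbs
import Fermat.Prelude.Def_AlgebraicCurve_Correspondence

set_option autoImplicit false
set_option linter.unusedSectionVars false
set_option linter.unusedVariables false
set_option linter.style.haveILetI false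

open AlgebraicCurve Fermat.Agent.Curve Fermat.Agent.Curve.PlaceAux Fermat.Agent.Delta

noncomputable section

namespace Fermat.Agent.MLT

section Norm

variable {k E E' : Type*} [Field k] [Field E] [Field E'] [Algebra k E] [Algebra k E']
  (α β : E →ₐ[k] E')

/-- **`T̃ = N_α ∘ β`** as a monoid homomorphism of `E` -/
def mltj4aT : E →* E :=
  (@Algebra.norm E E' _ _ (algebraAlong α)).comp ((β : E →+* E') : E →* E')

theorem mltj4aT_apply (x : E) :
    mltj4aT α β x = @Algebra.norm E E' _ _ (algebraAlong α) (β x) := rfl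

/-- `T̃` of a constant is a constant -/
theorem mltj4aT_const (c : k) :
    mltj4aT α β (algebraMap k E c) =
      algebraMap k E (c ^ (@Module.finrank E E' _ _ (algebraAlong α).toModule)) := by
  letI := algebraAlong α
  haveI := isScalarTower_along α
  rw [mltj4aT_apply, β.commutes, IsScalarTower.algebraMap_apply k E E', Algebra.norm_algebraMap,
    map_pow]

/-- the quotient of two translated units -/
theorem mltj4aT_div (G₁ G₂ : Eˣ) :
    ((Units.map (mltj4aT α β) G₁ : Eˣ) : E) / ((Units.map (mltj4aT α β) G₂ : Eˣ) : E) =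
      mltj4aT α β ((G₁ : E) / (G₂ : E)) := by
  rw [← Units.val_div_eq_div_val, ← map_div, ← Units.val_div_eq_div_val]
  rfl

/-- **the roots of the residue of a Hecke translate** -/
theorem mltj4a_hecke_roots {U : Type*} [Group U] (r : U →* Eˣ) (κ : kˣ →* Eˣ)
    (hκ : ∀ c : kˣ, ((κ c : Eˣ) : E) = algebraMap k E (c : k)) {z z' : U} {c : kˣ} {G : Eˣ} {m : ℕ}
    (hr : r z = κ c * G ^ m)
    (hz' : ((r z' : Eˣ) : E) = mltj4aT α β ((r z : Eˣ) : E)) :
    r z' = κ (c ^ (@Module.finrank E E' _ _ (algebraAlong α).toModule)) *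
      (Units.map (mltj4aT α β) G) ^ m := by
  apply Units.ext
  rw [hz', hr, Units.val_mul, Units.val_pow_eq_pow_val, map_mul, map_pow, hκ, mltj4aT_const,
    Units.val_mul, Units.val_pow_eq_pow_val, hκ, Units.val_pow_eq_pow_val]
  rfl

end Norm

section Group

/-- the Hecke translate of `t ^ m * y` -/
theorem mltj4a_hecke_eq {G H : Type*} [Group G] [Group H] (U : Subgroup G) (Φ : G →* H)
    (hΦ : Function.Injective Φ) (T : H →* H) {t y t' y' z' : ↥U} {m : ℕ}
    (ht : Φ (t' : G) = T (Φ (t : G))) (hy : Φ (y' : G) = T (Φ (y : G)))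
    (hz : Φ (z' : G) = T (Φ ((t ^ m * y : ↥U) : G))) : z' = t' ^ m * y' := by
  apply Subtype.ext
  apply hΦ
  rw [hz, Subgroup.coe_mul, Subgroup.coe_pow, map_mul, map_pow, map_mul, map_pow, ← ht, ← hy,
    Subgroup.coe_mul, Subgroup.coe_pow, map_mul, map_pow]

/-- removing an `m`-th power from a ternary multiplicative relation -/
theorem mltj4a_hecke_transport {U X : Type*} [CommGroup U] [CommGroup X] (J : U → X → X → Prop)
    (hmul : ∀ y y' ξ ξ' η η', J y ξ ξ' → J y' η η' → J (y * y') (ξ * η) (ξ' * η'))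
    (hinv : ∀ y ξ ξ', J y ξ ξ' → J y⁻¹ ξ⁻¹ ξ'⁻¹)
    {z' t' y' : U} {m : ℕ} (hz : z' = t' ^ m * y') {a b : X} (hJz : J z' a b)
    (hJt : J (t' ^ m) 1 1) : J y' a b := by
  have h1 := hmul _ _ _ _ _ _ hJz (hinv _ _ _ hJt)
  have e : z' * (t' ^ m)⁻¹ = y' := by
    rw [hz, mul_comm (t' ^ m) y', mul_inv_cancel_right]
  rw [e, inv_one, mul_one, mul_one] at h1
  exact h1

end Group

end Fermat.Agent.MLT
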