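/-
MLT / [L2] / P4 (helper5), part 24: **helper7's (G-Hecke)(a) at the inertia level in NORM form**.

For a prime `ℓ ∤ K q` and `y ∈ D.U` (`D = t4niAFix 𝔓 K hK hζ p`) there is `y' ∈ D.U` with
`Φ y' = T_ℓ^fun (Φ y)` over `ℚ̄` and

  `r_* y' = N_ᾱ (β̄ (r_* y))`,   `* = inf, mid, 0`,

(this is the first half of helper7's proof of `mltj5_abHecke_gen` (`L2/HkFix.lean`), before the translation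
into `tkrTilde`); `Φ` is injective, so the residues of ANY `y'` with `Φ y' = T_ℓ^fun (Φ y)` are given by these
formulas (`mltj4_hecke_res`).

Imports helper7's `L2/HkFix.lean` chain (origin/helper7 @dab3c19).
-/
import Fermat.Agent.Lib.MLT.L2.HkFix

set_option autoImplicit false
set_option linter.unusedSectionVars false
set_option linter.unusedVariables false
set_option linter.style.haveILetI false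
set_option synthInstance.maxHeartbeats 400000
set_option maxHeartbeats 1000000

open WeierstrassCurve

namespace Fermat.Agent.MLT

open ModularCurve HahnSeries Fermat.Agent.T1 Fermat.Agent.T2 Fermat.Agent.T4 Fermat.Agent.TW
  Fermat.Agent.Delta Fermat.Agent.T3 Fermat.Agent.Alpha AlgebraicCurve Fermat.Agent.Curve
  Fermat.Agent.S05Lib Module IntermediateField

local notation "Qb" => AlgebraicClosure ℚ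

noncomputable section

attribute [local instance] t2i_dvr t2i_isAlgClosed t2i_charP t2i_fact t2iAlgebra t2i_isScalarTower

/-- `Φ` is injective on units -/
theorem mltj4_phiU_injective (𝔓 : FFPlace) (N : ℕ) [NeZero N] :
    Function.Injective (mltl2PhiU 𝔓 N) := by
  intro a b hab
  apply Units.ext
  apply tbPhiF_injective 𝔓 N ⊤
  have := congrArg (fun u : (↥(modularFunctionFieldBar N))ˣ => (u : ↥(modularFunctionFieldBar N))) hab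
  exact this

variable (𝔓 : FFPlace) (K : ℕ) [NeZero K] (hK : ¬ 𝔓.p ∣ K) {ζ : Qb}
  (hζ : IsPrimitiveRoot ζ 𝔓.p) (p : ℕ) (hp0 : p ≠ 0) (hpq : Nat.Coprime p 𝔓.p)

/-- **(G-Hecke)(a) in norm form**: existence of the Hecke translate in `D.U`, with its three residues -/
theorem mltj4_hecke_norm (ℓ : ℕ) [NeZero ℓ] (hℓ : ℓ.Prime) (hℓK : ¬ ℓ ∣ K * 𝔓.p * 𝔓.p)
    (y : ↥(t4niAFix 𝔓 K hK hζ p).U) :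
    ∃ y' : ↥(t4niAFix 𝔓 K hK hζ p).U,
      mltl2PhiU 𝔓 (K * 𝔓.p * 𝔓.p) (y' : (↥(tbLevF 𝔓 (K * 𝔓.p * 𝔓.p) ⊤))ˣ) =
        tkrHeckeUnits (K * 𝔓.p * 𝔓.p) ℓ
          (mltl2PhiU 𝔓 (K * 𝔓.p * 𝔓.p) (y : (↥(tbLevF 𝔓 (K * 𝔓.p * 𝔓.p) ⊤))ˣ)) ∧
      (((t4niBFix 𝔓 K hK hζ p hp0 hpq).rinf y' : (↥(tbBarF 𝔓 K))ˣ) : ↥(tbBarF 𝔓 K)) =
        @Algebra.norm ↥(tbBarF 𝔓 K) ↥(tbBarF 𝔓 (K * ℓ)) _ _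
          (algebraAlong (dlhAlphaC (IsLocalRing.ResidueField ↥𝔓.P) K ℓ))
          (dlhBetaC (IsLocalRing.ResidueField ↥𝔓.P) K ℓ
            (((t4niBFix 𝔓 K hK hζ p hp0 hpq).rinf y : (↥(tbBarF 𝔓 K))ˣ) : ↥(tbBarF 𝔓 K))) ∧
      (((t4niBFix 𝔓 K hK hζ p hp0 hpq).rmid y' : (↥(tbBarF 𝔓 K))ˣ) : ↥(tbBarF 𝔓 K)) =
        @Algebra.norm ↥(tbBarF 𝔓 K) ↥(tbBarF 𝔓 (K * ℓ)) _ _
          (algebraAlong (dlhAlphaC (IsLocalRing.ResidueField ↥𝔓.P) K ℓ))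
          (dlhBetaC (IsLocalRing.ResidueField ↥𝔓.P) K ℓ
            (((t4niBFix 𝔓 K hK hζ p hp0 hpq).rmid y : (↥(tbBarF 𝔓 K))ˣ) : ↥(tbBarF 𝔓 K))) ∧
      (((t4niBFix 𝔓 K hK hζ p hp0 hpq).r0 y' : (↥(tbBarF 𝔓 K))ˣ) : ↥(tbBarF 𝔓 K)) =
        @Algebra.norm ↥(tbBarF 𝔓 K) ↥(tbBarF 𝔓 (K * ℓ)) _ _
          (algebraAlong (dlhAlphaC (IsLocalRing.ResidueField ↥𝔓.P) K ℓ))
          (dlhBetaC (IsLocalRing.ResidueField ↥𝔓.P) K ℓ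
            (((t4niBFix 𝔓 K hK hζ p hp0 hpq).r0 y : (↥(tbBarF 𝔓 K))ˣ) : ↥(tbBarF 𝔓 K))) := by
  letI := t4cyAlgebra 𝔓 (le_top : t4cyH 𝔓 ζ ≤ ⊤)
  haveI : Fact ℓ.Prime := ⟨hℓ⟩
  have hℓK' : ¬ ℓ ∣ K := fun h => hℓK ((h.mul_right _).mul_right _)
  have hℓq : ℓ ≠ 𝔓.p := by
    rintro rfl
    exact hℓK (Dvd.intro_left _ rfl)
  have hqℓ : ¬ 𝔓.p ∣ ℓ := fun h => hℓq ((Nat.prime_dvd_prime_iff_eq 𝔓.hp hℓ).mp h).symm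
  have hKℓ : ¬ 𝔓.p ∣ K * ℓ := dlh_not_dvd_mul 𝔓 hK hℓ hℓq
  have hdegE := mltl2h_finrank_alphaC_P 𝔓 hK hℓ hℓK' hℓq
  have hdeg := mltl2h_finrank_A (tbFixO 𝔓 ⊤) (tbFixRes 𝔓 ⊤) (tbFixRes_surjective 𝔓 ⊤)
    (t2i_natCast_ne_zero 𝔓 hK) (t2i_natCast_ne_zero 𝔓 hKℓ) (t2iALFix 𝔓 ⊤ K hK) (t2iFrobFix 𝔓 K)
    (t4iALFix 𝔓 ⊤ K hK) (t2iALFix 𝔓 ⊤ (K * ℓ) hKℓ) (t2iFrobFix 𝔓 (K * ℓ))
    (t4iALFix 𝔓 ⊤ (K * ℓ) hKℓ) (t4cy_irreducible_p 𝔓) (tbFixO 𝔓 (t4cyH 𝔓 ζ))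
    (tbFixRes 𝔓 (t4cyH 𝔓 ζ)) (t4iCycFix 𝔓 hζ) (t4vMidFix 𝔓 K hK hζ)
    (t4vMidFix 𝔓 (K * ℓ) hKℓ hζ) hℓ hℓK'
  have key := mltl2h_hecke_U (tbFixO 𝔓 ⊤) (tbFixRes 𝔓 ⊤)
    (tbFixRes_surjective 𝔓 ⊤)
    (t2i_natCast_ne_zero 𝔓 hK) (t2i_natCast_ne_zero 𝔓 hKℓ) (t2iALFix 𝔓 ⊤ K hK) (t2iFrobFix 𝔓 K)
    (t4iALFix 𝔓 ⊤ K hK) (t2iALFix 𝔓 ⊤ (K * ℓ) hKℓ) (t2iFrobFix 𝔓 (K * ℓ))
    (t4iALFix 𝔓 ⊤ (K * ℓ) hKℓ) (t4cy_irreducible_p 𝔓) (tbFixO 𝔓 (t4cyH 𝔓 ζ))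
    (tbFixRes 𝔓 (t4cyH 𝔓 ζ)) (t4iCycFix 𝔓 hζ) (t4vMidFix 𝔓 K hK hζ)
    (t4vMidFix 𝔓 (K * ℓ) hKℓ hζ) hℓ hℓK' hqℓ hdegE p hp0 hpq
  have key2 := key y
  obtain ⟨y', hh⟩ := key2
  have hy' := hh.1
  have e1 := hh.2.1
  have e2 := hh.2.2.1
  have e3 := hh.2.2.2
  refine ⟨y', ?_, e1, e2, e3⟩
  apply Units.ext
  rw [coe_mltl2PhiU, tkrHeckeUnits_coe, coe_mltl2PhiU, hy', mltl2hT_apply]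
  exact mltl2h_norm_phi 𝔓 ⊤ K 𝔓.p ℓ hℓK hdeg _

/-- **the residues of a Hecke translate** (any `y'` with `Φ y' = T_ℓ^fun (Φ y)`) -/
theorem mltj4_hecke_res (ℓ : ℕ) [NeZero ℓ] (hℓ : ℓ.Prime) (hℓK : ¬ ℓ ∣ K * 𝔓.p * 𝔓.p)
    (y y' : ↥(t4niAFix 𝔓 K hK hζ p).U)
    (hy' : mltl2PhiU 𝔓 (K * 𝔓.p * 𝔓.p) (y' : (↥(tbLevF 𝔓 (K * 𝔓.p * 𝔓.p) ⊤))ˣ) =
      tkrHeckeUnits (K * 𝔓.p * 𝔓.p) ℓ
        (mltl2PhiU 𝔓 (K * 𝔓.p * 𝔓.p) (y : (↥(tbLevF 𝔓 (K * 𝔓.p * 𝔓.p) ⊤))ˣ))) :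
    (((t4niBFix 𝔓 K hK hζ p hp0 hpq).rinf y' : (↥(tbBarF 𝔓 K))ˣ) : ↥(tbBarF 𝔓 K)) =
        @Algebra.norm ↥(tbBarF 𝔓 K) ↥(tbBarF 𝔓 (K * ℓ)) _ _
          (algebraAlong (dlhAlphaC (IsLocalRing.ResidueField ↥𝔓.P) K ℓ))
          (dlhBetaC (IsLocalRing.ResidueField ↥𝔓.P) K ℓ
            (((t4niBFix 𝔓 K hK hζ p hp0 hpq).rinf y : (↥(tbBarF 𝔓 K))ˣ) : ↥(tbBarF 𝔓 K))) ∧
      (((t4niBFix 𝔓 K hK hζ p hp0 hpq).rmid y' : (↥(tbBarF 𝔓 K))ˣ) : ↥(tbBarF 𝔓 K)) =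
        @Algebra.norm ↥(tbBarF 𝔓 K) ↥(tbBarF 𝔓 (K * ℓ)) _ _
          (algebraAlong (dlhAlphaC (IsLocalRing.ResidueField ↥𝔓.P) K ℓ))
          (dlhBetaC (IsLocalRing.ResidueField ↥𝔓.P) K ℓ
            (((t4niBFix 𝔓 K hK hζ p hp0 hpq).rmid y : (↥(tbBarF 𝔓 K))ˣ) : ↥(tbBarF 𝔓 K))) ∧
      (((t4niBFix 𝔓 K hK hζ p hp0 hpq).r0 y' : (↥(tbBarF 𝔓 K))ˣ) : ↥(tbBarF 𝔓 K)) =
        @Algebra.norm ↥(tbBarF 𝔓 K) ↥(tbBarF 𝔓 (K * ℓ)) _ _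
          (algebraAlong (dlhAlphaC (IsLocalRing.ResidueField ↥𝔓.P) K ℓ))
          (dlhBetaC (IsLocalRing.ResidueField ↥𝔓.P) K ℓ
            (((t4niBFix 𝔓 K hK hζ p hp0 hpq).r0 y : (↥(tbBarF 𝔓 K))ˣ) : ↥(tbBarF 𝔓 K))) := by
  have H := mltj4_hecke_norm 𝔓 K hK hζ p hp0 hpq ℓ hℓ hℓK y
  obtain ⟨y'', hΦ, e1, e2, e3⟩ := H
  have e : y'' = y' := by
    apply Subtype.ext
    exact mltj4_phiU_injective 𝔓 (K * 𝔓.p * 𝔓.p) (hΦ.trans hy'.symm)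
  have e1' := (congrArg (fun u : ↥(t4niAFix 𝔓 K hK hζ p).U =>
    (((t4niBFix 𝔓 K hK hζ p hp0 hpq).rinf u : (↥(tbBarF 𝔓 K))ˣ) : ↥(tbBarF 𝔓 K))) e).symm.trans e1
  have e2' := (congrArg (fun u : ↥(t4niAFix 𝔓 K hK hζ p).U =>
    (((t4niBFix 𝔓 K hK hζ p hp0 hpq).rmid u : (↥(tbBarF 𝔓 K))ˣ) : ↥(tbBarF 𝔓 K))) e).symm.trans e2
  have e3' := (congrArg (fun u : ↥(t4niAFix 𝔓 K hK hζ p).U =>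
    (((t4niBFix 𝔓 K hK hζ p hp0 hpq).r0 u : (↥(tbBarF 𝔓 K))ˣ) : ↥(tbBarF 𝔓 K))) e).symm.trans e3
  exact ⟨e1', e2', e3'⟩

end

end Fermat.Agent.MLT
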