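/-
MLT / [L2] / P4 (helper5), part 16: **THE JUMP DATA** (inertia level `N' p²`, `p = 𝔓.p`, `4 ∣ N' ∨ 9 ∣ N'`,
exponent `m` prime to `p`; `(D, B) = (t4niAFix, t4niBFix)`, chart 1 = `t4vyPFix`, `E = tbBarF 𝔓 N'`,
`𝕜` = the residue field of `𝔓.P`).

`y ∈ D.U` with roots `g₁, g₂, g₃ ∈ Eˣ` of its three residues (`r_i y = κ c_i * g_i ^ m`).  At a
supersingular place `Pl` (= a triple point `𝔫` of chart 1, `mltj4_SS_iff`) choose `s ∈ D.U` with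
`s ^ m * y` a unit at all valuation rings through `𝔫` (a STRIP); then

  `ξ(Pl)  := ((g₁ · r_inf s) / (g₂ · r_mid s))(Pl)`,   `ξ'(Pl) := ((g₂ · r_mid s) / (g₃ · r_0 s))(Pl)`

do not depend on `s` (continuity at the triple point).

* `MltJ4StripAt`, `MltJ4JumpAt`;
* `MltJ4StripAt.hloc`, `MltJ4StripAt.div`.
(The theorems are in `JumpBasic.lean`, the algebra in `JumpAbs.lean`.)
-/
import Fermat.Agent.Lib.MLT.L2.P4.RegTriple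
import Fermat.Agent.Lib.MLT.L2.P4.JumpAbs

set_option autoImplicit false
set_option linter.unusedSectionVars false
set_option linter.unusedVariables false
set_option linter.style.haveILetI false
set_option synthInstance.maxHeartbeats 400000
set_option maxHeartbeats 1000000

open HahnSeries ModularCurve AlgebraicCurve Fermat.Agent.T1 Fermat.Agent.T2 IntermediateField
  Fermat.Agent.Curve Fermat.Agent.Curve.PlaceAux Fermat.Agent.TW Fermat.Agent.S05Lib Fermat.Agent.T4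
  Fermat.Agent.Delta

noncomputable section

namespace Fermat.Agent.MLT

local notation "Qb" => AlgebraicClosure ℚ

/-! ### The inertia level -/

attribute [local instance] t2i_dvr t2i_isAlgClosed t2i_charP t2i_fact t2iAlgebra t2i_isScalarTower

variable (𝔓 : FFPlace) (N' : ℕ) [NeZero N'] (h : ¬ 𝔓.p ∣ N') {ζ : Qb}
  (hζ : IsPrimitiveRoot ζ 𝔓.p) (h49 : 4 ∣ N' ∨ 9 ∣ N')
  (m : ℕ) (hm : m ≠ 0) (hqm : Nat.Coprime m 𝔓.p)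

/-- **`s` strips `y` at the point `𝔫`**: `s ^ m * y` is a unit at all valuation rings through `𝔫` -/
def MltJ4StripAt (y s : ↥(t4niAFix 𝔓 N' h hζ m).U) (𝔫 : Ideal ↥(t4vyPFix 𝔓 N' h hζ).B) : Prop :=
  ∀ V ∈ (t4vyPFix 𝔓 N' h hζ).through 𝔫,
    V.valuation ((((s : (↥(tbLevF 𝔓 (N' * 𝔓.p * 𝔓.p) ⊤))ˣ)) : ↥(tbLevF 𝔓 (N' * 𝔓.p * 𝔓.p) ⊤)) ^ m *
      (((y : (↥(tbLevF 𝔓 (N' * 𝔓.p * 𝔓.p) ⊤))ˣ)) : ↥(tbLevF 𝔓 (N' * 𝔓.p * 𝔓.p) ⊤))) = 1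

/-- **the jump data `(ξ, ξ')` of `y` at the place `Pl`**, with respect to the roots `g₁, g₂, g₃` of the
three residues -/
def MltJ4JumpAt (y : ↥(t4niAFix 𝔓 N' h hζ m).U) (g₁ g₂ g₃ : (↥(tbBarF 𝔓 N'))ˣ)
    (Pl : Place (IsLocalRing.ResidueField ↥𝔓.P) ↥(tbBarF 𝔓 N'))
    (ξ ξ' : (IsLocalRing.ResidueField ↥𝔓.P)ˣ) : Prop :=
  ∃ 𝔫 : Ideal ↥(t4vyPFix 𝔓 N' h hζ).B, MltJ4TriplePt 𝔓 N' h hζ 𝔫 ∧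
    MltJ4PlaceOf 𝔓 N' h hζ h49 𝔫 Pl ∧
    ∃ s : ↥(t4niAFix 𝔓 N' h hζ m).U, MltJ4StripAt 𝔓 N' h hζ m y s 𝔫 ∧
      DlgVal Pl (((g₁ * (t4niBFix 𝔓 N' h hζ m hm hqm).rinf s /
        (g₂ * (t4niBFix 𝔓 N' h hζ m hm hqm).rmid s) : (↥(tbBarF 𝔓 N'))ˣ)) : ↥(tbBarF 𝔓 N'))
        (ξ : IsLocalRing.ResidueField ↥𝔓.P) ∧
      DlgVal Pl (((g₂ * (t4niBFix 𝔓 N' h hζ m hm hqm).rmid s /
        (g₃ * (t4niBFix 𝔓 N' h hζ m hm hqm).r0 s) : (↥(tbBarF 𝔓 N'))ˣ)) : ↥(tbBarF 𝔓 N'))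
        (ξ' : IsLocalRing.ResidueField ↥𝔓.P)

/-- the strip condition for `s` is the unit condition for `s ^ m * y` -/
theorem MltJ4StripAt.hloc {y s : ↥(t4niAFix 𝔓 N' h hζ m).U}
    {𝔫 : Ideal ↥(t4vyPFix 𝔓 N' h hζ).B} (hs : MltJ4StripAt 𝔓 N' h hζ m y s 𝔫) :
    ∀ V ∈ (t4vyPFix 𝔓 N' h hζ).through 𝔫,
      V.valuation ((((s ^ m * y : ↥(t4niAFix 𝔓 N' h hζ m).U) :
        (↥(tbLevF 𝔓 (N' * 𝔓.p * 𝔓.p) ⊤))ˣ)) : ↥(tbLevF 𝔓 (N' * 𝔓.p * 𝔓.p) ⊤)) = 1 := by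
  intro V hV
  have h1 := hs V hV
  rwa [← Units.val_pow_eq_pow_val, ← Units.val_mul] at h1

include hm in
/-- two strips differ by a unit at the point -/
theorem MltJ4StripAt.div {y s t : ↥(t4niAFix 𝔓 N' h hζ m).U}
    {𝔫 : Ideal ↥(t4vyPFix 𝔓 N' h hζ).B} (hs : MltJ4StripAt 𝔓 N' h hζ m y s 𝔫)
    (ht : MltJ4StripAt 𝔓 N' h hζ m y t 𝔫) :
    ∀ V ∈ (t4vyPFix 𝔓 N' h hζ).through 𝔫,
      V.valuation ((((t / s : ↥(t4niAFix 𝔓 N' h hζ m).U) :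
        (↥(tbLevF 𝔓 (N' * 𝔓.p * 𝔓.p) ⊤))ˣ)) : ↥(tbLevF 𝔓 (N' * 𝔓.p * 𝔓.p) ⊤)) = 1 := by
  intro V hV
  have h1 := hs V hV
  have h2 := ht V hV
  have hy0 : V.valuation (((y : (↥(tbLevF 𝔓 (N' * 𝔓.p * 𝔓.p) ⊤))ˣ)) :
      ↥(tbLevF 𝔓 (N' * 𝔓.p * 𝔓.p) ⊤)) ≠ 0 :=
    (Valuation.ne_zero_iff _).mpr (Units.ne_zero _)
  rw [map_mul, map_pow] at h1 h2
  have h3 : V.valuation (((t : (↥(tbLevF 𝔓 (N' * 𝔓.p * 𝔓.p) ⊤))ˣ)) :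
      ↥(tbLevF 𝔓 (N' * 𝔓.p * 𝔓.p) ⊤)) ^ m =
      V.valuation (((s : (↥(tbLevF 𝔓 (N' * 𝔓.p * 𝔓.p) ⊤))ˣ)) :
        ↥(tbLevF 𝔓 (N' * 𝔓.p * 𝔓.p) ⊤)) ^ m :=
    mul_right_cancel₀ hy0 (h2.trans h1.symm)
  have h4 : V.valuation (((t : (↥(tbLevF 𝔓 (N' * 𝔓.p * 𝔓.p) ⊤))ˣ)) :
      ↥(tbLevF 𝔓 (N' * 𝔓.p * 𝔓.p) ⊤)) =
      V.valuation (((s : (↥(tbLevF 𝔓 (N' * 𝔓.p * 𝔓.p) ⊤))ˣ)) :
        ↥(tbLevF 𝔓 (N' * 𝔓.p * 𝔓.p) ⊤)) :=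
    (pow_left_inj₀ zero_le zero_le hm).mp h3
  have hs0 : V.valuation (((s : (↥(tbLevF 𝔓 (N' * 𝔓.p * 𝔓.p) ⊤))ˣ)) :
      ↥(tbLevF 𝔓 (N' * 𝔓.p * 𝔓.p) ⊤)) ≠ 0 :=
    (Valuation.ne_zero_iff _).mpr (Units.ne_zero _)
  have e1 : (((t / s : ↥(t4niAFix 𝔓 N' h hζ m).U) :
      (↥(tbLevF 𝔓 (N' * 𝔓.p * 𝔓.p) ⊤))ˣ) : ↥(tbLevF 𝔓 (N' * 𝔓.p * 𝔓.p) ⊤)) =
      (((t : (↥(tbLevF 𝔓 (N' * 𝔓.p * 𝔓.p) ⊤))ˣ)) : ↥(tbLevF 𝔓 (N' * 𝔓.p * 𝔓.p) ⊤)) /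
      (((s : (↥(tbLevF 𝔓 (N' * 𝔓.p * 𝔓.p) ⊤))ˣ)) : ↥(tbLevF 𝔓 (N' * 𝔓.p * 𝔓.p) ⊤)) := by
    rw [← Units.val_div_eq_div_val]
    rfl
  rw [e1, map_div₀, h4, div_self hs0]

end Fermat.Agent.MLT
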