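/-
MLT / [L2] / P4 (helper5), part 17: **basic properties of the jump data** (see `JumpDef.lean`).

* `mltj4_res_strip`        : the residues of `s ^ m * y`;
* **`mltj4_jumpAt_of_strip`** : the jump data may be computed with ANY strip;
* **`mltj4_jumpAt_unique`**;
* **`mltj4_jumpAt_pow`**    : `ξ ^ m = c₂ / c₁`, `ξ' ^ m = c₃ / c₂`;
* **`mltj4_jumpAt_exists`** : existence for Kummer units at every supersingular place.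
-/
import Fermat.Agent.Lib.MLT.L2.P4.JumpDef

set_option autoImplicit false
set_option linter.unusedSectionVars false
set_option linter.unusedVariables false
set_option linter.style.haveILetI false
set_option synthInstance.maxHeartbeats 400000
set_option maxHeartbeats 1000000

open HahnSeries ModularCurve AlgebraicCurve Fermat.Agent.T1 Fermat.Agent.T2 IntermediateField
  Fermat.Agent.Curve Fermat.Agent.Curve.PlaceAux Fermat.Agent.TW Fermat.Agent.S05Lib Fermat.Agent.T4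
  Fermat.Agent.Delta

noncomputable section

namespace Fermat.Agent.MLT

local notation "Qb" => AlgebraicClosure ℚ

attribute [local instance] t2i_dvr t2i_isAlgClosed t2i_charP t2i_fact t2iAlgebra t2i_isScalarTower

variable (𝔓 : FFPlace) (N' : ℕ) [NeZero N'] (h : ¬ 𝔓.p ∣ N') {ζ : Qb}
  (hζ : IsPrimitiveRoot ζ 𝔓.p) (h49 : 4 ∣ N' ∨ 9 ∣ N')
  (m : ℕ) (hm : m ≠ 0) (hqm : Nat.Coprime m 𝔓.p)

set_option quotPrecheck false in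
local notation "KK" => IsLocalRing.ResidueField ↥𝔓.P
set_option quotPrecheck false in
local notation "EE" => ↥(tbBarF 𝔓 N')
set_option quotPrecheck false in
local notation "FF" => ↥(tbLevF 𝔓 (N' * 𝔓.p * 𝔓.p) ⊤)
local notation "DD" => t4niAFix 𝔓 N' h hζ m
local notation "BB" => t4niBFix 𝔓 N' h hζ m hm hqm

/-- the constants of `B` are the constants of `E` -/
theorem mltj4_kappa_coe (c : (KK)ˣ) : (((BB).κ c : (EE)ˣ) : EE) = algebraMap KK EE (c : KK) := rfl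

include h49 in
/-- **the jump data may be computed with any strip** -/
theorem mltj4_jumpAt_of_strip {y : ↥(DD).U} {g₁ g₂ g₃ : (EE)ˣ} {Pl : Place KK EE} {ξ ξ' : (KK)ˣ}
    (hJ : MltJ4JumpAt 𝔓 N' h hζ h49 m hm hqm y g₁ g₂ g₃ Pl ξ ξ')
    {𝔫 : Ideal ↥(t4vyPFix 𝔓 N' h hζ).B} (hp : MltJ4PlaceOf 𝔓 N' h hζ h49 𝔫 Pl)
    {t : ↥(DD).U} (ht : MltJ4StripAt 𝔓 N' h hζ m y t 𝔫) :
    DlgVal Pl (((g₁ * (BB).rinf t / (g₂ * (BB).rmid t) : (EE)ˣ)) : EE) (ξ : KK) ∧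
    DlgVal Pl (((g₂ * (BB).rmid t / (g₃ * (BB).r0 t) : (EE)ˣ)) : EE) (ξ' : KK) := by
  obtain ⟨𝔫', h𝔫', hp', s, hs, w₁, w₂⟩ := hJ
  have e : 𝔫' = 𝔫 := mltj4_pointOf_unique 𝔓 N' h hζ h49 hp' hp
  have hs₂ : MltJ4StripAt 𝔓 N' h hζ m y s 𝔫 :=
    (congrArg (fun 𝔪 => MltJ4StripAt 𝔓 N' h hζ m y s 𝔪) e).mp hs
  have h𝔫 : MltJ4TriplePt 𝔓 N' h hζ 𝔫 :=
    (congrArg (fun 𝔪 => MltJ4TriplePt 𝔓 N' h hζ 𝔪) e).mp h𝔫'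
  have hloc := MltJ4StripAt.div 𝔓 N' h hζ m hm hs₂ ht
  have hcont := mltj4_continuity_fix 𝔓 N' h hζ h49 hm hqm h𝔫 hp (t / s) hloc
  obtain ⟨d, hd, x₁, x₂, x₃⟩ := hcont
  exact ⟨mltj4a_of_strip Pl _ _ hd w₁ x₁ x₂, mltj4a_of_strip Pl _ _ hd w₂ x₂ x₃⟩

include h49 in
/-- **the jump data are unique** -/
theorem mltj4_jumpAt_unique {y : ↥(DD).U} {g₁ g₂ g₃ : (EE)ˣ} {Pl : Place KK EE}
    {ξ ξ' η η' : (KK)ˣ}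
    (hJ : MltJ4JumpAt 𝔓 N' h hζ h49 m hm hqm y g₁ g₂ g₃ Pl ξ ξ')
    (hJ' : MltJ4JumpAt 𝔓 N' h hζ h49 m hm hqm y g₁ g₂ g₃ Pl η η') : ξ = η ∧ ξ' = η' := by
  obtain ⟨𝔫, h𝔫, hp, s, hs, w₁, w₂⟩ := hJ'
  obtain ⟨v₁, v₂⟩ := mltj4_jumpAt_of_strip 𝔓 N' h hζ h49 m hm hqm hJ hp hs
  exact ⟨Units.ext (v₁.unique w₁), Units.ext (v₂.unique w₂)⟩

include h49 in
/-- **the `m`-th powers of the jump data are the quotients of the constants** -/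
theorem mltj4_jumpAt_pow {y : ↥(DD).U} {g₁ g₂ g₃ : (EE)ˣ} {c₁ c₂ c₃ : (KK)ˣ}
    (h₁ : (BB).rinf y = (BB).κ c₁ * g₁ ^ m) (h₂ : (BB).rmid y = (BB).κ c₂ * g₂ ^ m)
    (h₃ : (BB).r0 y = (BB).κ c₃ * g₃ ^ m) {Pl : Place KK EE} {ξ ξ' : (KK)ˣ}
    (hJ : MltJ4JumpAt 𝔓 N' h hζ h49 m hm hqm y g₁ g₂ g₃ Pl ξ ξ') :
    ξ ^ m = c₂ / c₁ ∧ ξ' ^ m = c₃ / c₂ := by
  obtain ⟨𝔫, h𝔫, hp, s, hs, w₁, w₂⟩ := hJ
  have hloc := MltJ4StripAt.hloc 𝔓 N' h hζ m hs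
  have hcont := mltj4_continuity_fix 𝔓 N' h hζ h49 hm hqm h𝔫 hp (s ^ m * y) hloc
  obtain ⟨d, hd, x₁, x₂, x₃⟩ := hcont
  exact ⟨mltj4a_pow Pl _ _ (mltj4_kappa_coe 𝔓 N' h hζ m hm hqm c₁)
      (mltj4_kappa_coe 𝔓 N' h hζ m hm hqm c₂) h₁ h₂ hd x₁ x₂ w₁,
    mltj4a_pow Pl _ _ (mltj4_kappa_coe 𝔓 N' h hζ m hm hqm c₂)
      (mltj4_kappa_coe 𝔓 N' h hζ m hm hqm c₃) h₂ h₃ hd x₂ x₃ w₂⟩

include h49 in
/-- **existence of the jump data** at the supersingular places, for a Kummer unit whose three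
residues are `constant × m`-th powers -/
theorem mltj4_jumpAt_exists (y : ↥(DD).U)
    (hyK : (y : (FF)ˣ) ∈ tWsub ↥(tbFix 𝔓 (⊤ : Subgroup 𝔓.I)) (N' * 𝔓.p * 𝔓.p) m)
    {g₁ g₂ g₃ : (EE)ˣ} {c₁ c₂ c₃ : (KK)ˣ}
    (h₁ : (BB).rinf y = (BB).κ c₁ * g₁ ^ m) (h₂ : (BB).rmid y = (BB).κ c₂ * g₂ ^ m)
    (h₃ : (BB).r0 y = (BB).κ c₃ * g₃ ^ m) {Pl : Place KK EE}
    (hPl : Pl ∈ mltjSS 𝔓 N' h h49) :
    ∃ ξ ξ' : (KK)ˣ, MltJ4JumpAt 𝔓 N' h hζ h49 m hm hqm y g₁ g₂ g₃ Pl ξ ξ' := by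
  obtain ⟨𝔫, h𝔫, hp⟩ := (mltj4_SS_iff 𝔓 N' h hζ h49 Pl).mp hPl
  obtain ⟨s, hs⟩ := mltj4_exists_strip_local 𝔓 N' h hζ h49 hm y.2 hyK h𝔫
  have hs' : MltJ4StripAt 𝔓 N' h hζ m y s 𝔫 := hs
  have hloc := MltJ4StripAt.hloc 𝔓 N' h hζ m hs'
  have hcont := mltj4_continuity_fix 𝔓 N' h hζ h49 hm hqm h𝔫 hp (s ^ m * y) hloc
  obtain ⟨d, hd, x₁, x₂, x₃⟩ := hcont
  have hgen := (mltj4_fix_gen 𝔓 N').out
  obtain ⟨ξ, w₁⟩ := mltj4a_exists Pl _ _ hgen hm (mltj4_kappa_coe 𝔓 N' h hζ m hm hqm c₁)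
    (mltj4_kappa_coe 𝔓 N' h hζ m hm hqm c₂) h₁ h₂ hd x₁ x₂
  obtain ⟨ξ', w₂⟩ := mltj4a_exists Pl _ _ hgen hm (mltj4_kappa_coe 𝔓 N' h hζ m hm hqm c₂)
    (mltj4_kappa_coe 𝔓 N' h hζ m hm hqm c₃) h₂ h₃ hd x₂ x₃
  exact ⟨ξ, ξ', 𝔫, h𝔫, hp, s, hs', w₁, w₂⟩

end Fermat.Agent.MLT
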