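/-
MLT / [L2] / P4 (helper5), part 18: **operations on the jump data; the jump FUNCTIONS on `Σ`**
(see `JumpDef.lean`, `JumpBasic.lean`).

At one place:
* `mltj4_jumpAt_root` : change of the roots by constants `e_i` multiplies `(ξ, ξ')` by `(e₁/e₂, e₂/e₃)`;
* `mltj4_jumpAt_mul`, `mltj4_jumpAt_inv` : multiplicativity;
* `mltj4_jumpAt_powm` : the jump data of an `m`-th power `t ^ m` (roots `r_i t`) are `(1, 1)`;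
* `mltj4_jumpAt_of_unit` : for a unit at the triple point the jump data are the values of `g₁/g₂`, `g₂/g₃`.

On `Σ = mltjSS 𝔓 N' h h49` (helper9's supersingular places):
* `MltJ4Roots y g c`     : `r_i y = κ c_i * g_i ^ m`, `i = inf, mid, 0`;
* **`MltJ4IsJump y ξ ξ'`** : `ξ, ξ' : Place → 𝕜ˣ` are jump functions of `y` (for SOME roots);
* **`mltj4_isJump_exists`** (Kummer units with trivial residues), **`mltj4_isJump_unique`** (up to two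
  constants), `MltJ4IsJump.pow_const` (`ξ ^ m`, `ξ' ^ m` are constant on `Σ`),
  `MltJ4IsJump.mul`, `.inv`, `.zpow`, `mltj4_isJump_powm`, `mltj4_isJump_one`.
-/
import Fermat.Agent.Lib.MLT.L2.P4.JumpBasic

set_option autoImplicit false
set_option linter.unusedSectionVars false
set_option linter.unusedVariables false
set_option linter.style.haveILetI false
set_option synthInstance.maxHeartbeats 400000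
set_option maxHeartbeats 1000000

open HahnSeries ModularCurve AlgebraicCurve Fermat.Agent.T1 Fermat.Agent.T2 IntermediateField
  Fermat.Agent.Curve Fermat.Agent.Curve.PlaceAux Fermat.Agent.TW Fermat.Agent.S05Lib Fermat.Agent.T4
  Fermat.Agent.Delta

noncomputable section

namespace Fermat.Agent.MLT

local notation "Qb" => AlgebraicClosure ℚ

attribute [local instance] t2i_dvr t2i_isAlgClosed t2i_charP t2i_fact t2iAlgebra t2i_isScalarTower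

variable (𝔓 : FFPlace) (N' : ℕ) [NeZero N'] (h : ¬ 𝔓.p ∣ N') {ζ : Qb}
  (hζ : IsPrimitiveRoot ζ 𝔓.p) (h49 : 4 ∣ N' ∨ 9 ∣ N')
  (m : ℕ) (hm : m ≠ 0) (hqm : Nat.Coprime m 𝔓.p)

set_option quotPrecheck false in
local notation "KK" => IsLocalRing.ResidueField ↥𝔓.P
set_option quotPrecheck false in
local notation "EE" => ↥(tbBarF 𝔓 N')
set_option quotPrecheck false in
local notation "FF" => ↥(tbLevF 𝔓 (N' * 𝔓.p * 𝔓.p) ⊤)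
local notation "DD" => t4niAFix 𝔓 N' h hζ m
local notation "BB" => t4niBFix 𝔓 N' h hζ m hm hqm

/-! ### Operations at one place -/

/-- change of the roots by constants -/
theorem mltj4_jumpAt_root {y : ↥(DD).U} {g₁ g₂ g₃ : (EE)ˣ} {Pl : Place KK EE} {ξ ξ' : (KK)ˣ}
    (hJ : MltJ4JumpAt 𝔓 N' h hζ h49 m hm hqm y g₁ g₂ g₃ Pl ξ ξ') (e₁ e₂ e₃ : (KK)ˣ) :
    MltJ4JumpAt 𝔓 N' h hζ h49 m hm hqm y ((BB).κ e₁ * g₁) ((BB).κ e₂ * g₂) ((BB).κ e₃ * g₃) Pl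
      (e₁ / e₂ * ξ) (e₂ / e₃ * ξ') := by
  obtain ⟨𝔫, h𝔫, hp, s, hs, w₁, w₂⟩ := hJ
  have v₁ := mltj4a_root Pl (BB).rinf (BB).rmid (mltj4_kappa_coe 𝔓 N' h hζ m hm hqm e₁)
    (mltj4_kappa_coe 𝔓 N' h hζ m hm hqm e₂) w₁
  have v₂ := mltj4a_root Pl (BB).rmid (BB).r0 (mltj4_kappa_coe 𝔓 N' h hζ m hm hqm e₂)
    (mltj4_kappa_coe 𝔓 N' h hζ m hm hqm e₃) w₂
  exact ⟨𝔫, h𝔫, hp, s, hs, v₁, v₂⟩

include h49 in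
/-- multiplicativity of the jump data -/
theorem mltj4_jumpAt_mul {y y' : ↥(DD).U} {g₁ g₂ g₃ g₁' g₂' g₃' : (EE)ˣ} {Pl : Place KK EE}
    {ξ ξ' η η' : (KK)ˣ}
    (hJ : MltJ4JumpAt 𝔓 N' h hζ h49 m hm hqm y g₁ g₂ g₃ Pl ξ ξ')
    (hJ' : MltJ4JumpAt 𝔓 N' h hζ h49 m hm hqm y' g₁' g₂' g₃' Pl η η') :
    MltJ4JumpAt 𝔓 N' h hζ h49 m hm hqm (y * y') (g₁ * g₁') (g₂ * g₂') (g₃ * g₃') Pl
      (ξ * η) (ξ' * η') := by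
  obtain ⟨𝔫, h𝔫, hp, s, hs, w₁, w₂⟩ := hJ
  obtain ⟨𝔫', h𝔫', hp', s', hs', w₁', w₂'⟩ := hJ'
  have e : 𝔫' = 𝔫 := mltj4_pointOf_unique 𝔓 N' h hζ h49 hp' hp
  have hs₂ : MltJ4StripAt 𝔓 N' h hζ m y' s' 𝔫 :=
    (congrArg (fun 𝔪 => MltJ4StripAt 𝔓 N' h hζ m y' s' 𝔪) e).mp hs'
  have hst : MltJ4StripAt 𝔓 N' h hζ m (y * y') (s * s') 𝔫 :=
    fun V hV => mltj4a_strip_mul _ V (hs V hV) (hs₂ V hV)
  have v₁ := mltj4a_mul Pl (BB).rinf (BB).rmid w₁ w₁'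
  have v₂ := mltj4a_mul Pl (BB).rmid (BB).r0 w₂ w₂'
  exact ⟨𝔫, h𝔫, hp, s * s', hst, v₁, v₂⟩

/-- the jump data of the inverse -/
theorem mltj4_jumpAt_inv {y : ↥(DD).U} {g₁ g₂ g₃ : (EE)ˣ} {Pl : Place KK EE} {ξ ξ' : (KK)ˣ}
    (hJ : MltJ4JumpAt 𝔓 N' h hζ h49 m hm hqm y g₁ g₂ g₃ Pl ξ ξ') :
    MltJ4JumpAt 𝔓 N' h hζ h49 m hm hqm y⁻¹ g₁⁻¹ g₂⁻¹ g₃⁻¹ Pl ξ⁻¹ ξ'⁻¹ := by
  obtain ⟨𝔫, h𝔫, hp, s, hs, w₁, w₂⟩ := hJ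
  have hst : MltJ4StripAt 𝔓 N' h hζ m y⁻¹ s⁻¹ 𝔫 :=
    fun V hV => mltj4a_strip_inv _ V (hs V hV)
  have v₁ := mltj4a_inv Pl (BB).rinf (BB).rmid w₁
  have v₂ := mltj4a_inv Pl (BB).rmid (BB).r0 w₂
  exact ⟨𝔫, h𝔫, hp, s⁻¹, hst, v₁, v₂⟩

/-- the jump data of an `m`-th power are trivial -/
theorem mltj4_jumpAt_powm (t : ↥(DD).U) {Pl : Place KK EE}
    {𝔫 : Ideal ↥(t4vyPFix 𝔓 N' h hζ).B} (h𝔫 : MltJ4TriplePt 𝔓 N' h hζ 𝔫)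
    (hp : MltJ4PlaceOf 𝔓 N' h hζ h49 𝔫 Pl)
    {ξ ξ' : (KK)ˣ} (hξ : ξ = 1) (hξ' : ξ' = 1) :
    MltJ4JumpAt 𝔓 N' h hζ h49 m hm hqm (t ^ m) ((BB).rinf t) ((BB).rmid t) ((BB).r0 t) Pl
      ξ ξ' := by
  subst hξ
  subst hξ'
  have hst : MltJ4StripAt 𝔓 N' h hζ m (t ^ m) t⁻¹ 𝔫 :=
    fun V hV => mltj4a_strip_powm _ V t
  have v₁ := mltj4a_one Pl (BB).rinf (BB).rmid t
  have v₂ := mltj4a_one Pl (BB).rmid (BB).r0 t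
  exact ⟨𝔫, h𝔫, hp, t⁻¹, hst, v₁, v₂⟩

/-- for a unit at the triple point the jump data are the values of the quotients of the roots -/
theorem mltj4_jumpAt_of_unit {y : ↥(DD).U} {g₁ g₂ g₃ : (EE)ˣ} {Pl : Place KK EE} {ξ ξ' : (KK)ˣ}
    {𝔫 : Ideal ↥(t4vyPFix 𝔓 N' h hζ).B} (h𝔫 : MltJ4TriplePt 𝔓 N' h hζ 𝔫)
    (hp : MltJ4PlaceOf 𝔓 N' h hζ h49 𝔫 Pl)
    (hy : ∀ V ∈ (t4vyPFix 𝔓 N' h hζ).through 𝔫, V.valuation (((y : (FF)ˣ)) : FF) = 1)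
    (w₁ : DlgVal Pl ((g₁ : EE) / (g₂ : EE)) (ξ : KK))
    (w₂ : DlgVal Pl ((g₂ : EE) / (g₃ : EE)) (ξ' : KK)) :
    MltJ4JumpAt 𝔓 N' h hζ h49 m hm hqm y g₁ g₂ g₃ Pl ξ ξ' := by
  have hst : MltJ4StripAt 𝔓 N' h hζ m y 1 𝔫 :=
    fun V hV => mltj4a_strip_one _ V (hy V hV)
  have v₁ := mltj4a_quot_one Pl (BB).rinf (BB).rmid w₁
  have v₂ := mltj4a_quot_one Pl (BB).rmid (BB).r0 w₂
  exact ⟨𝔫, h𝔫, hp, 1, hst, v₁, v₂⟩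

/-! ### Jump functions on `Σ` -/

/-- **the three residues of `y` are `constant × m`-th powers** -/
def MltJ4Roots (y : ↥(DD).U) (g₁ g₂ g₃ : (EE)ˣ) (c₁ c₂ c₃ : (KK)ˣ) : Prop :=
  (BB).rinf y = (BB).κ c₁ * g₁ ^ m ∧ (BB).rmid y = (BB).κ c₂ * g₂ ^ m ∧
    (BB).r0 y = (BB).κ c₃ * g₃ ^ m

/-- **`(ξ, ξ')` are jump functions of `y`** on the supersingular places -/
def MltJ4IsJump (y : ↥(DD).U) (ξ ξ' : Place KK EE → (KK)ˣ) : Prop :=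
  ∃ (g₁ g₂ g₃ : (EE)ˣ) (c₁ c₂ c₃ : (KK)ˣ),
    MltJ4Roots 𝔓 N' h hζ m hm hqm y g₁ g₂ g₃ c₁ c₂ c₃ ∧
    ∀ Pl ∈ mltjSS 𝔓 N' h h49,
      MltJ4JumpAt 𝔓 N' h hζ h49 m hm hqm y g₁ g₂ g₃ Pl (ξ Pl) (ξ' Pl)

include h49 in
/-- **existence of the jump functions** of a Kummer unit whose three residues are
`constant × m`-th powers -/
theorem mltj4_isJump_exists (y : ↥(DD).U)
    (hyK : (y : (FF)ˣ) ∈ tWsub ↥(tbFix 𝔓 (⊤ : Subgroup 𝔓.I)) (N' * 𝔓.p * 𝔓.p) m)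
    {g₁ g₂ g₃ : (EE)ˣ} {c₁ c₂ c₃ : (KK)ˣ}
    (hR : MltJ4Roots 𝔓 N' h hζ m hm hqm y g₁ g₂ g₃ c₁ c₂ c₃) :
    ∃ ξ ξ' : Place KK EE → (KK)ˣ, MltJ4IsJump 𝔓 N' h hζ h49 m hm hqm y ξ ξ' := by
  classical
  have H : ∀ Pl : Place KK EE, Pl ∈ mltjSS 𝔓 N' h h49 → ∃ p : (KK)ˣ × (KK)ˣ,
      MltJ4JumpAt 𝔓 N' h hζ h49 m hm hqm y g₁ g₂ g₃ Pl p.1 p.2 := by
    intro Pl hPl
    have hex := mltj4_jumpAt_exists 𝔓 N' h hζ h49 m hm hqm y hyK hR.1 hR.2.1 hR.2.2 hPl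
    obtain ⟨ξ, ξ', hJ⟩ := hex
    exact ⟨(ξ, ξ'), hJ⟩
  choose! f hf using H
  exact ⟨fun Pl => (f Pl).1, fun Pl => (f Pl).2, g₁, g₂, g₃, c₁, c₂, c₃, hR, hf⟩

include h49 in
/-- the `m`-th powers of the jump functions are constant on `Σ` -/
theorem MltJ4IsJump.pow_const {y : ↥(DD).U} {ξ ξ' : Place KK EE → (KK)ˣ}
    (hJ : MltJ4IsJump 𝔓 N' h hζ h49 m hm hqm y ξ ξ') :
    ∃ e e' : (KK)ˣ, ∀ Pl ∈ mltjSS 𝔓 N' h h49, ξ Pl ^ m = e ∧ ξ' Pl ^ m = e' := by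
  obtain ⟨g₁, g₂, g₃, c₁, c₂, c₃, hR, hJ⟩ := hJ
  exact ⟨c₂ / c₁, c₃ / c₂, fun Pl hPl =>
    mltj4_jumpAt_pow 𝔓 N' h hζ h49 m hm hqm hR.1 hR.2.1 hR.2.2 (hJ Pl hPl)⟩

include h49 in
/-- multiplicativity of the jump functions -/
theorem MltJ4IsJump.mul {y y' : ↥(DD).U} {ξ ξ' η η' : Place KK EE → (KK)ˣ}
    (hJ : MltJ4IsJump 𝔓 N' h hζ h49 m hm hqm y ξ ξ')
    (hJ' : MltJ4IsJump 𝔓 N' h hζ h49 m hm hqm y' η η') :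
    MltJ4IsJump 𝔓 N' h hζ h49 m hm hqm (y * y') (ξ * η) (ξ' * η') := by
  obtain ⟨g₁, g₂, g₃, c₁, c₂, c₃, hR, hJ⟩ := hJ
  obtain ⟨g₁', g₂', g₃', c₁', c₂', c₃', hR', hJ'⟩ := hJ'
  have r₁ := mltj4a_roots_mul (BB).rinf (BB).κ hR.1 hR'.1
  have r₂ := mltj4a_roots_mul (BB).rmid (BB).κ hR.2.1 hR'.2.1
  have r₃ := mltj4a_roots_mul (BB).r0 (BB).κ hR.2.2 hR'.2.2
  exact ⟨g₁ * g₁', g₂ * g₂', g₃ * g₃', c₁ * c₁', c₂ * c₂', c₃ * c₃', ⟨r₁, r₂, r₃⟩,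
    fun Pl hPl => mltj4_jumpAt_mul 𝔓 N' h hζ h49 m hm hqm (hJ Pl hPl) (hJ' Pl hPl)⟩

/-- the jump functions of the inverse -/
theorem MltJ4IsJump.inv {y : ↥(DD).U} {ξ ξ' : Place KK EE → (KK)ˣ}
    (hJ : MltJ4IsJump 𝔓 N' h hζ h49 m hm hqm y ξ ξ') :
    MltJ4IsJump 𝔓 N' h hζ h49 m hm hqm y⁻¹ ξ⁻¹ ξ'⁻¹ := by
  obtain ⟨g₁, g₂, g₃, c₁, c₂, c₃, hR, hJ⟩ := hJ
  have r₁ := mltj4a_roots_inv (BB).rinf (BB).κ hR.1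
  have r₂ := mltj4a_roots_inv (BB).rmid (BB).κ hR.2.1
  have r₃ := mltj4a_roots_inv (BB).r0 (BB).κ hR.2.2
  exact ⟨g₁⁻¹, g₂⁻¹, g₃⁻¹, c₁⁻¹, c₂⁻¹, c₃⁻¹, ⟨r₁, r₂, r₃⟩,
    fun Pl hPl => mltj4_jumpAt_inv 𝔓 N' h hζ h49 m hm hqm (hJ Pl hPl)⟩

include h49 in
/-- the jump functions of an `m`-th power are trivial -/
theorem mltj4_isJump_powm (t : ↥(DD).U) :
    MltJ4IsJump 𝔓 N' h hζ h49 m hm hqm (t ^ m) 1 1 := by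
  have r₁ := mltj4a_roots_powm (BB).rinf (BB).κ t m
  have r₂ := mltj4a_roots_powm (BB).rmid (BB).κ t m
  have r₃ := mltj4a_roots_powm (BB).r0 (BB).κ t m
  refine ⟨(BB).rinf t, (BB).rmid t, (BB).r0 t, 1, 1, 1, ⟨r₁, r₂, r₃⟩, fun Pl hPl => ?_⟩
  have hex := (mltj4_SS_iff 𝔓 N' h hζ h49 Pl).mp hPl
  obtain ⟨𝔫, h𝔫, hp⟩ := hex
  exact mltj4_jumpAt_powm 𝔓 N' h hζ h49 m hm hqm t h𝔫 hp (Pi.one_apply Pl) (Pi.one_apply Pl)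

include h49 in
/-- the jump functions of `1` are trivial -/
theorem mltj4_isJump_one : MltJ4IsJump 𝔓 N' h hζ h49 m hm hqm 1 1 1 := by
  have r₁ := mltj4a_roots_one (BB).rinf (BB).κ m
  have r₂ := mltj4a_roots_one (BB).rmid (BB).κ m
  have r₃ := mltj4a_roots_one (BB).r0 (BB).κ m
  refine ⟨1, 1, 1, 1, 1, 1, ⟨r₁, r₂, r₃⟩, fun Pl hPl => ?_⟩
  have hex := (mltj4_SS_iff 𝔓 N' h hζ h49 Pl).mp hPl
  obtain ⟨𝔫, h𝔫, hp⟩ := hex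
  have hst : MltJ4StripAt 𝔓 N' h hζ m 1 1 𝔫 := fun V hV => mltj4a_strip_one_one _ V
  have v₁ := mltj4a_one_one Pl (BB).rinf (BB).rmid
  have v₂ := mltj4a_one_one Pl (BB).rmid (BB).r0
  exact ⟨𝔫, h𝔫, hp, 1, hst, v₁, v₂⟩

include h49 in
/-- integral powers -/
theorem MltJ4IsJump.zpow {y : ↥(DD).U} {ξ ξ' : Place KK EE → (KK)ˣ}
    (hJ : MltJ4IsJump 𝔓 N' h hζ h49 m hm hqm y ξ ξ') (n : ℤ) :
    MltJ4IsJump 𝔓 N' h hζ h49 m hm hqm (y ^ n) (ξ ^ n) (ξ' ^ n) :=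
  mltj4a_zpow_closed (fun y ξ ξ' => MltJ4IsJump 𝔓 N' h hζ h49 m hm hqm y ξ ξ')
    (mltj4_isJump_one 𝔓 N' h hζ h49 m hm hqm)
    (fun _ _ _ _ _ _ h1 h2 => MltJ4IsJump.mul 𝔓 N' h hζ h49 m hm hqm h1 h2)
    (fun _ _ _ h1 => MltJ4IsJump.inv 𝔓 N' h hζ h49 m hm hqm h1) hJ n

end Fermat.Agent.MLT
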