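/-
MLT / [L2] / P4 (helper5), part 19: **the jump functions are unique up to two constants**.

`mltj4_isJump_unique` : two pairs of jump functions `(ξ, ξ')`, `(η, η')` of the same `y` (with respect to
any two systems of roots) satisfy `η = e · ξ`, `η' = e' · ξ'` on `Σ` for two constants `e, e' ∈ 𝕜ˣ`
(the roots are unique up to constants: `𝕜` is algebraically closed in `E`).
-/
import Fermat.Agent.Lib.MLT.L2.P4.JumpOps

set_option autoImplicit false
set_option linter.unusedSectionVars false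
set_option linter.unusedVariables false
set_option linter.style.haveILetI false
set_option synthInstance.maxHeartbeats 400000
set_option maxHeartbeats 1000000

open HahnSeries ModularCurve AlgebraicCurve Fermat.Agent.T1 Fermat.Agent.T2 IntermediateField
  Fermat.Agent.Curve Fermat.Agent.Curve.PlaceAux Fermat.Agent.TW Fermat.Agent.S05Lib Fermat.Agent.T4
  Fermat.Agent.Delta

noncomputable section

namespace Fermat.Agent.MLT

local notation "Qb" => AlgebraicClosure ℚ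

attribute [local instance] t2i_dvr t2i_isAlgClosed t2i_charP t2i_fact t2iAlgebra t2i_isScalarTower

variable (𝔓 : FFPlace) (N' : ℕ) [NeZero N'] (h : ¬ 𝔓.p ∣ N') {ζ : Qb}
  (hζ : IsPrimitiveRoot ζ 𝔓.p) (h49 : 4 ∣ N' ∨ 9 ∣ N')
  (m : ℕ) (hm : m ≠ 0) (hqm : Nat.Coprime m 𝔓.p)

set_option quotPrecheck false in
local notation "KK" => IsLocalRing.ResidueField ↥𝔓.P
set_option quotPrecheck false in
local notation "EE" => ↥(tbBarF 𝔓 N')
set_option quotPrecheck false in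
local notation "FF" => ↥(tbLevF 𝔓 (N' * 𝔓.p * 𝔓.p) ⊤)
local notation "DD" => t4niAFix 𝔓 N' h hζ m
local notation "BB" => t4niBFix 𝔓 N' h hζ m hm hqm

include h in
/-- the roots of a residue are unique up to constants -/
theorem mltj4_root_const {R g g' : (EE)ˣ} {c c' : (KK)ˣ}
    (hR : R = (BB).κ c * g ^ m) (hR' : R = (BB).κ c' * g' ^ m) :
    ∃ e : (KK)ˣ, g' = (BB).κ e * g := by
  haveI := mltj4_fix_sep 𝔓 N' h
  exact mltj4a_root_const' (mltj4_fix_gen 𝔓 N').out (mltj4_kappa_coe 𝔓 N' h hζ m hm hqm) hm hR hR'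

include h49 in
/-- **the jump functions are unique up to two constants** -/
theorem mltj4_isJump_unique {y : ↥(DD).U} {ξ ξ' η η' : Place KK EE → (KK)ˣ}
    (hJ : MltJ4IsJump 𝔓 N' h hζ h49 m hm hqm y ξ ξ')
    (hJ' : MltJ4IsJump 𝔓 N' h hζ h49 m hm hqm y η η') :
    ∃ e e' : (KK)ˣ, ∀ Pl ∈ mltjSS 𝔓 N' h h49, η Pl = e * ξ Pl ∧ η' Pl = e' * ξ' Pl := by
  obtain ⟨g₁, g₂, g₃, c₁, c₂, c₃, hR, hJ⟩ := hJ
  obtain ⟨g₁', g₂', g₃', c₁', c₂', c₃', hR', hJ'⟩ := hJ'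
  have k₁ := mltj4_root_const 𝔓 N' h hζ m hm hqm hR.1 hR'.1
  have k₂ := mltj4_root_const 𝔓 N' h hζ m hm hqm hR.2.1 hR'.2.1
  have k₃ := mltj4_root_const 𝔓 N' h hζ m hm hqm hR.2.2 hR'.2.2
  obtain ⟨e₁, he₁⟩ := k₁
  obtain ⟨e₂, he₂⟩ := k₂
  obtain ⟨e₃, he₃⟩ := k₃
  refine ⟨e₁ / e₂, e₂ / e₃, fun Pl hPl => ?_⟩
  have h1 := mltj4_jumpAt_root 𝔓 N' h hζ h49 m hm hqm (hJ Pl hPl) e₁ e₂ e₃
  have h2 := hJ' Pl hPl
  rw [he₁, he₂, he₃] at h2
  exact mltj4_jumpAt_unique 𝔓 N' h hζ h49 m hm hqm h2 h1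

end Fermat.Agent.MLT
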