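/-
MLT / [L2] / P4 (helper5), part 23: **the jump functions in unit form** (for the Hecke-equivariance of the jump
data: after a global strip everything is a statement about VALUES of quotients of roots at the
supersingular places).

* `mltj4_isJump_of_unit_roots` : `y` a unit at the triple points, `r_i y = κ c_i * g_i ^ m`, and
  `(g₁/g₂)(Pl) = ξ Pl`, `(g₂/g₃)(Pl) = ξ' Pl` on `Σ`  ⟹  `IsJump y ξ ξ'`;
* **`MltJ4IsJump.unit_form`** : `IsJump y ξ ξ'`, `y` Kummer  ⟹  there is a global strip `t ∈ D.U`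
  (`t ^ m * y` a unit at the triple points) and roots `G_i` of the residues of `t ^ m * y` with
  `(G₁/G₂)(Pl) = ξ Pl`, `(G₂/G₃)(Pl) = ξ' Pl` on `Σ`; in particular `IsJump (t ^ m * y) ξ ξ'`.
-/
import Fermat.Agent.Lib.MLT.L2.P4.JumpUniq

set_option autoImplicit false
set_option linter.unusedSectionVars false
set_option linter.unusedVariables false
set_option linter.style.haveILetI false
set_option synthInstance.maxHeartbeats 400000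
set_option maxHeartbeats 1000000

open HahnSeries ModularCurve AlgebraicCurve Fermat.Agent.T1 Fermat.Agent.T2 IntermediateField
  Fermat.Agent.Curve Fermat.Agent.Curve.PlaceAux Fermat.Agent.TW Fermat.Agent.S05Lib Fermat.Agent.T4
  Fermat.Agent.Delta

noncomputable section

namespace Fermat.Agent.MLT

local notation "Qb" => AlgebraicClosure ℚ

/-! ### Abstract -/

section Abs

variable {U : Type*} [Group U] {E : Type*} [Field E] {k : Type*} [Field k] [Algebra k E]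
  [IsAlgClosed k] (Pl : Place k E) (r r' : U →* Eˣ)

/-- the residue of `s ^ m * y` (units) -/
theorem mltj4a_res_strip' (y s : U) {κc g : Eˣ} {m : ℕ} (hr : r y = κc * g ^ m) :
    r (s ^ m * y) = κc * (g * r s) ^ m := by
  rw [map_mul, map_pow, hr, mul_pow, mul_comm (r s ^ m), mul_assoc]

/-- the value of a quotient of units -/
theorem mltj4a_val_div {a b : Eˣ} {ξ : k} (w : DlgVal Pl (((a / b : Eˣ)) : E) ξ) :
    DlgVal Pl ((a : E) / (b : E)) ξ := by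
  rwa [Units.val_div_eq_div_val] at w

end Abs

/-! ### The inertia level -/

attribute [local instance] t2i_dvr t2i_isAlgClosed t2i_charP t2i_fact t2iAlgebra t2i_isScalarTower

variable (𝔓 : FFPlace) (N' : ℕ) [NeZero N'] (h : ¬ 𝔓.p ∣ N') {ζ : Qb}
  (hζ : IsPrimitiveRoot ζ 𝔓.p) (h49 : 4 ∣ N' ∨ 9 ∣ N')
  (m : ℕ) (hm : m ≠ 0) (hqm : Nat.Coprime m 𝔓.p)

set_option quotPrecheck false in
local notation "KK" => IsLocalRing.ResidueField ↥𝔓.P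
set_option quotPrecheck false in
local notation "EE" => ↥(tbBarF 𝔓 N')
set_option quotPrecheck false in
local notation "FF" => ↥(tbLevF 𝔓 (N' * 𝔓.p * 𝔓.p) ⊤)
local notation "DD" => t4niAFix 𝔓 N' h hζ m
local notation "BB" => t4niBFix 𝔓 N' h hζ m hm hqm

include h49 in
/-- **jump functions of a unit at the triple points**: the values of the quotients of the roots -/
theorem mltj4_isJump_of_unit_roots {y : ↥(DD).U}
    (hy : ∀ 𝔫 : Ideal ↥(t4vyPFix 𝔓 N' h hζ).B, MltJ4TriplePt 𝔓 N' h hζ 𝔫 →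
      ∀ V ∈ (t4vyPFix 𝔓 N' h hζ).through 𝔫, V.valuation (((y : (FF)ˣ)) : FF) = 1)
    {g₁ g₂ g₃ : (EE)ˣ} {c₁ c₂ c₃ : (KK)ˣ}
    (hR : MltJ4Roots 𝔓 N' h hζ m hm hqm y g₁ g₂ g₃ c₁ c₂ c₃)
    {ξ ξ' : Place KK EE → (KK)ˣ}
    (hval : ∀ Pl ∈ mltjSS 𝔓 N' h h49, DlgVal Pl ((g₁ : EE) / (g₂ : EE)) (ξ Pl : KK) ∧
      DlgVal Pl ((g₂ : EE) / (g₃ : EE)) (ξ' Pl : KK)) :
    MltJ4IsJump 𝔓 N' h hζ h49 m hm hqm y ξ ξ' := by
  refine ⟨g₁, g₂, g₃, c₁, c₂, c₃, hR, fun Pl hPl => ?_⟩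
  have hex := (mltj4_SS_iff 𝔓 N' h hζ h49 Pl).mp hPl
  obtain ⟨𝔫, h𝔫, hp⟩ := hex
  have hv := hval Pl hPl
  exact mltj4_jumpAt_of_unit 𝔓 N' h hζ h49 m hm hqm h𝔫 hp (hy 𝔫 h𝔫) hv.1 hv.2

include h49 in
/-- **the unit form of the jump functions** -/
theorem MltJ4IsJump.unit_form {y : ↥(DD).U}
    (hyK : (y : (FF)ˣ) ∈ tWsub ↥(tbFix 𝔓 (⊤ : Subgroup 𝔓.I)) (N' * 𝔓.p * 𝔓.p) m)
    {ξ ξ' : Place KK EE → (KK)ˣ} (hJ : MltJ4IsJump 𝔓 N' h hζ h49 m hm hqm y ξ ξ') :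
    ∃ t : ↥(DD).U,
      (∀ 𝔫 : Ideal ↥(t4vyPFix 𝔓 N' h hζ).B, MltJ4TriplePt 𝔓 N' h hζ 𝔫 →
        ∀ V ∈ (t4vyPFix 𝔓 N' h hζ).through 𝔫,
          V.valuation ((((t ^ m * y : ↥(DD).U) : (FF)ˣ)) : FF) = 1) ∧
      ∃ (G₁ G₂ G₃ : (EE)ˣ) (c₁ c₂ c₃ : (KK)ˣ),
        MltJ4Roots 𝔓 N' h hζ m hm hqm (t ^ m * y) G₁ G₂ G₃ c₁ c₂ c₃ ∧
        ∀ Pl ∈ mltjSS 𝔓 N' h h49, DlgVal Pl ((G₁ : EE) / (G₂ : EE)) (ξ Pl : KK) ∧
          DlgVal Pl ((G₂ : EE) / (G₃ : EE)) (ξ' Pl : KK) := by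
  obtain ⟨g₁, g₂, g₃, c₁, c₂, c₃, hR, hJ⟩ := hJ
  have hst := mltj4_exists_strip_global 𝔓 N' h hζ h49 hm y.2 hyK
  obtain ⟨t, ht⟩ := hst
  have ht' : ∀ 𝔫 : Ideal ↥(t4vyPFix 𝔓 N' h hζ).B, MltJ4TriplePt 𝔓 N' h hζ 𝔫 →
      MltJ4StripAt 𝔓 N' h hζ m y t 𝔫 := ht
  have r₁ := mltj4a_res_strip' (BB).rinf y t hR.1
  have r₂ := mltj4a_res_strip' (BB).rmid y t hR.2.1
  have r₃ := mltj4a_res_strip' (BB).r0 y t hR.2.2
  refine ⟨t, fun 𝔫 h𝔫 => MltJ4StripAt.hloc 𝔓 N' h hζ m (ht' 𝔫 h𝔫), g₁ * (BB).rinf t,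
    g₂ * (BB).rmid t, g₃ * (BB).r0 t, c₁, c₂, c₃, ⟨r₁, r₂, r₃⟩, fun Pl hPl => ?_⟩
  have hex := (mltj4_SS_iff 𝔓 N' h hζ h49 Pl).mp hPl
  obtain ⟨𝔫, h𝔫, hp⟩ := hex
  have hw := mltj4_jumpAt_of_strip 𝔓 N' h hζ h49 m hm hqm (hJ Pl hPl) hp (ht' 𝔫 h𝔫)
  exact ⟨mltj4a_val_div Pl hw.1, mltj4a_val_div Pl hw.2⟩

end Fermat.Agent.MLT
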