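/-
MLT / [L2] / P4 (helper5), part 25: **HECKE-EQUIVARIANCE OF THE JUMP FUNCTIONS**.

`K = N'` a rigid level, `ℓ ∤ K q` a prime, `D = t4niAFix 𝔓 K h hζ m`, `Σ = mltjSS`.  For a function
`ξ : Place → 𝕜ˣ` let `(ξ ∘ T)(P) := ∏_Q ξ(Q) ^ (β̄_* ᾱ^* P)(Q)` (`mltj4BrT`).

* **`mltj4_isJump_hecke`** : `y ∈ D.U` Kummer over `L`, `IsJump y ξ ξ'`, `y' ∈ D.U` with `Φ y' = T_ℓ^fun (Φ y)`  ⟹
  `IsJump y' (ξ ∘ T) (ξ' ∘ T)`.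

Hypotheses (contracts of helper9's `Contracts/L2GOut.lean`, `Contracts/L2JL.lean`):
  (d)     `MltjTripleHeckeAt` : `T_ℓ^fun` preserves the units at the triple points (helper7);
  (BR-SS) `MltjBrSSAt`        : `Σ` is stable under `β̄_* ᾱ^*` (helper2).
Inputs: `MltJ4IsJump.unit_form`, `mltj4_isJump_of_unit_roots` (JumpUnit), `mltj4_hecke_norm` (HeckeNorm, from
helper7's (a)), helper9's `mltjg_brT_value` (`L2/GOut/NormBeta.lean`, origin/helper9 @70a4620).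
-/
import Fermat.Agent.Lib.MLT.L2.P4.JumpUnit
import Fermat.Agent.Lib.MLT.L2.P4.HeckeNorm
import Fermat.Agent.Lib.MLT.L2.P4.HeckeAbs
import Fermat.Agent.Lib.MLT.L2.GOut.NormBeta
import Fermat.Agent.Lib.MLT.Contracts.L2GOut

set_option autoImplicit false
set_option linter.unusedSectionVars false
set_option linter.unusedVariables false
set_option linter.style.haveILetI false
set_option synthInstance.maxHeartbeats 400000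
set_option maxHeartbeats 1000000

open HahnSeries ModularCurve AlgebraicCurve Fermat.Agent.T1 Fermat.Agent.T2 IntermediateField
  Fermat.Agent.Curve Fermat.Agent.Curve.PlaceAux Fermat.Agent.TW Fermat.Agent.S05Lib Fermat.Agent.T4
  Fermat.Agent.Delta

noncomputable section

namespace Fermat.Agent.MLT

local notation "Qb" => AlgebraicClosure ℚ

attribute [local instance] t2i_dvr t2i_isAlgClosed t2i_charP t2i_fact t2iAlgebra t2i_isScalarTower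
attribute [local instance 5000] dlhAlgK

variable (𝔓 : FFPlace) (N' : ℕ) [NeZero N'] (h : ¬ 𝔓.p ∣ N') {ζ : Qb}
  (hζ : IsPrimitiveRoot ζ 𝔓.p) (h49 : 4 ∣ N' ∨ 9 ∣ N')
  (m : ℕ) (hm : m ≠ 0) (hqm : Nat.Coprime m 𝔓.p)

set_option quotPrecheck false in
local notation "KK" => IsLocalRing.ResidueField ↥𝔓.P
set_option quotPrecheck false in
local notation "EE" => ↥(tbBarF 𝔓 N')
set_option quotPrecheck false in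
local notation "FF" => ↥(tbLevF 𝔓 (N' * 𝔓.p * 𝔓.p) ⊤)
local notation "DD" => t4niAFix 𝔓 N' h hζ m
local notation "BB" => t4niBFix 𝔓 N' h hζ m hm hqm

/-- **the multiplicative transform `ξ ∘ T` of a function on the places by `β̄_* ᾱ^*`** -/
def mltj4BrT (ℓ : ℕ) [NeZero ℓ] (hℓ : ℓ.Prime) (hℓp : ℓ ≠ 𝔓.p)
    (ξ : Place KK EE → (KK)ˣ) : Place KK EE → (KK)ˣ :=
  fun P => (mltjBrT 𝔓 N' h ℓ hℓ hℓp (Finsupp.single P 1)).prod (fun Q n => ξ Q ^ n)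

theorem mltj4BrT_apply (ℓ : ℕ) [NeZero ℓ] (hℓ : ℓ.Prime) (hℓp : ℓ ≠ 𝔓.p)
    (ξ : Place KK EE → (KK)ˣ) (P : Place KK EE) :
    mltj4BrT 𝔓 N' h ℓ hℓ hℓp ξ P =
      (mltjBrT 𝔓 N' h ℓ hℓ hℓp (Finsupp.single P 1)).prod (fun Q n => ξ Q ^ n) := rfl

include h49 in
/-- **Hecke-equivariance of the jump functions** -/
theorem mltj4_isJump_hecke (hd : MltjTripleHeckeAt 𝔓 N' h hζ m) (hbr : MltjBrSSAt 𝔓 N' h h49)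
    (ℓ : ℕ) [NeZero ℓ] (hℓ : ℓ.Prime) (hℓp : ℓ ≠ 𝔓.p) (hℓK : ¬ ℓ ∣ N')
    {y : ↥(DD).U}
    (hyK : (y : (FF)ˣ) ∈ tWsub ↥(tbFix 𝔓 (⊤ : Subgroup 𝔓.I)) (N' * 𝔓.p * 𝔓.p) m)
    {ξ ξ' : Place KK EE → (KK)ˣ} (hJ : MltJ4IsJump 𝔓 N' h hζ h49 m hm hqm y ξ ξ')
    (y' : ↥(DD).U)
    (hy' : mltl2PhiU 𝔓 (N' * 𝔓.p * 𝔓.p) (y' : (FF)ˣ) =
      tkrHeckeUnits (N' * 𝔓.p * 𝔓.p) ℓ (mltl2PhiU 𝔓 (N' * 𝔓.p * 𝔓.p) (y : (FF)ˣ))) :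
    MltJ4IsJump 𝔓 N' h hζ h49 m hm hqm y' (mltj4BrT 𝔓 N' h ℓ hℓ hℓp ξ)
      (mltj4BrT 𝔓 N' h ℓ hℓ hℓp ξ') := by
  have hℓN : ¬ ℓ ∣ N' * 𝔓.p * 𝔓.p := by
    intro hd'
    have hℓq : ¬ ℓ ∣ 𝔓.p := fun h1 => hℓp ((Nat.prime_dvd_prime_iff_eq hℓ 𝔓.hp).mp h1)
    rcases (Nat.Prime.dvd_mul hℓ).mp hd' with h1 | h1
    · rcases (Nat.Prime.dvd_mul hℓ).mp h1 with h2 | h2
      · exact hℓK h2
      · exact hℓq h2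
    · exact hℓq h1
  have hU := MltJ4IsJump.unit_form 𝔓 N' h hζ h49 m hm hqm hyK hJ
  obtain ⟨t, htz, G₁, G₂, G₃, c₁, c₂, c₃, hR, hval⟩ := hU
  -- the translates
  have Ht := mltj4_hecke_norm 𝔓 N' h hζ m hm hqm ℓ hℓ hℓN t
  obtain ⟨t', hΦt, -, -, -⟩ := Ht
  have Hz := mltj4_hecke_norm 𝔓 N' h hζ m hm hqm ℓ hℓ hℓN (t ^ m * y)
  obtain ⟨z', hΦz, e1, e2, e3⟩ := Hz
  have hz'eq : z' = t' ^ m * y' :=
    mltj4a_hecke_eq (DD).U (mltl2PhiU 𝔓 (N' * 𝔓.p * 𝔓.p))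
      (mltj4_phiU_injective 𝔓 (N' * 𝔓.p * 𝔓.p)) (tkrHeckeUnits (N' * 𝔓.p * 𝔓.p) ℓ) hΦt hy' hΦz
  -- `z'` is a unit at the triple points
  have hz'u := hd ℓ hℓ hℓN (t ^ m * y) z' hΦz htz
  -- the roots of `z'`
  have r₁ := mltj4a_hecke_roots (dlhAlphaC KK N' ℓ) (dlhBetaC KK N' ℓ) (BB).rinf (BB).κ
    (mltj4_kappa_coe 𝔓 N' h hζ m hm hqm) hR.1 e1
  have r₂ := mltj4a_hecke_roots (dlhAlphaC KK N' ℓ) (dlhBetaC KK N' ℓ) (BB).rmid (BB).κ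
    (mltj4_kappa_coe 𝔓 N' h hζ m hm hqm) hR.2.1 e2
  have r₃ := mltj4a_hecke_roots (dlhAlphaC KK N' ℓ) (dlhBetaC KK N' ℓ) (BB).r0 (BB).κ
    (mltj4_kappa_coe 𝔓 N' h hζ m hm hqm) hR.2.2 e3
  -- the values
  have hval' : ∀ Pl ∈ mltjSS 𝔓 N' h h49,
      DlgVal Pl (((Units.map (mltj4aT (dlhAlphaC KK N' ℓ) (dlhBetaC KK N' ℓ)) G₁ : (EE)ˣ) : EE) /
        ((Units.map (mltj4aT (dlhAlphaC KK N' ℓ) (dlhBetaC KK N' ℓ)) G₂ : (EE)ˣ) : EE))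
        ((mltj4BrT 𝔓 N' h ℓ hℓ hℓp ξ Pl : (KK)ˣ) : KK) ∧
      DlgVal Pl (((Units.map (mltj4aT (dlhAlphaC KK N' ℓ) (dlhBetaC KK N' ℓ)) G₂ : (EE)ˣ) : EE) /
        ((Units.map (mltj4aT (dlhAlphaC KK N' ℓ) (dlhBetaC KK N' ℓ)) G₃ : (EE)ˣ) : EE))
        ((mltj4BrT 𝔓 N' h ℓ hℓ hℓp ξ' Pl : (KK)ˣ) : KK) := by
    intro Pl hPl
    have v₁ := mltjg_brT_value 𝔓 N' h h49 ℓ hℓ hℓp ((G₁ : EE) / (G₂ : EE)) Pl ξ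
      (fun Q hQ => (hval Q (hbr ℓ hℓ hℓp hℓK Pl hPl Q hQ)).1)
    have v₂ := mltjg_brT_value 𝔓 N' h h49 ℓ hℓ hℓp ((G₂ : EE) / (G₃ : EE)) Pl ξ'
      (fun Q hQ => (hval Q (hbr ℓ hℓ hℓp hℓK Pl hPl Q hQ)).2)
    rw [mltj4aT_div, mltj4aT_div]
    exact ⟨v₁, v₂⟩
  have Jz := mltj4_isJump_of_unit_roots 𝔓 N' h hζ h49 m hm hqm hz'u ⟨r₁, r₂, r₃⟩ hval'
  have Jt := mltj4_isJump_powm 𝔓 N' h hζ h49 m hm hqm t'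
  exact mltj4a_hecke_transport (fun y ξ ξ' => MltJ4IsJump 𝔓 N' h hζ h49 m hm hqm y ξ ξ')
    (fun _ _ _ _ _ _ h1 h2 => MltJ4IsJump.mul 𝔓 N' h hζ h49 m hm hqm h1 h2)
    (fun _ _ _ h1 => MltJ4IsJump.inv 𝔓 N' h hζ h49 m hm hqm h1) hz'eq Jz Jt

end Fermat.Agent.MLT
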