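/-
MLT / [L2] / P4 (helper5), part 22: **the jump functions of constants, units and eigen-relations**.

* `mltj4_const_val_one`   : the unit constants `c ∈ D.UL` are units at all valuation rings of chart 1;
* `mltj4_isJump_of_unit`  : a unit at the triple points whose three residues are constants has the jump
                            functions `(1, 1)`;
* `mltj4_isJump_const`    : `IsJump (cF c) 1 1` for `c ∈ D.UL`;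
* **`mltj4_isJump_eigen`** : `y' · y ^ (-a) = cF c · g ^ m` (`y, y' ∈ D.U`, `a : ℤ`, `c ∈ Lˣ`, `g ∈ Fˣ` arbitrary) and
                            `IsJump y ξ ξ'`  ⟹  `IsJump y' (ξ ^ a) (ξ' ^ a)`.

Uses helper3's `mltj3_normalise` (P3/AsmAbs) and `mltj3_hconst` (P3/AsmRes), origin/helper3 @3299585.
-/
import Fermat.Agent.Lib.MLT.L2.P4.JumpUniq
import Fermat.Agent.Lib.MLT.L2.P4.EigenAbs
import Fermat.Agent.Lib.MLT.L2.P3.AsmRes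

set_option autoImplicit false
set_option linter.unusedSectionVars false
set_option linter.unusedVariables false
set_option linter.style.haveILetI false
set_option synthInstance.maxHeartbeats 400000
set_option maxHeartbeats 1000000

open HahnSeries ModularCurve AlgebraicCurve Fermat.Agent.T1 Fermat.Agent.T2 IntermediateField
  Fermat.Agent.Curve Fermat.Agent.Curve.PlaceAux Fermat.Agent.TW Fermat.Agent.S05Lib Fermat.Agent.T4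
  Fermat.Agent.Delta

noncomputable section

namespace Fermat.Agent.MLT

local notation "Qb" => AlgebraicClosure ℚ

attribute [local instance] t2i_dvr t2i_isAlgClosed t2i_charP t2i_fact t2iAlgebra t2i_isScalarTower

variable (𝔓 : FFPlace) (N' : ℕ) [NeZero N'] (h : ¬ 𝔓.p ∣ N') {ζ : Qb}
  (hζ : IsPrimitiveRoot ζ 𝔓.p) (h49 : 4 ∣ N' ∨ 9 ∣ N')
  (m : ℕ) (hm : m ≠ 0) (hqm : Nat.Coprime m 𝔓.p)

set_option quotPrecheck false in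
local notation "KK" => IsLocalRing.ResidueField ↥𝔓.P
set_option quotPrecheck false in
local notation "EE" => ↥(tbBarF 𝔓 N')
set_option quotPrecheck false in
local notation "FF" => ↥(tbLevF 𝔓 (N' * 𝔓.p * 𝔓.p) ⊤)
local notation "DD" => t4niAFix 𝔓 N' h hζ m
local notation "BB" => t4niBFix 𝔓 N' h hζ m hm hqm

/-- the unit constants are units at all valuation rings of chart 1 -/
theorem mltj4_const_val_one {c : (↥(tbFix 𝔓 (⊤ : Subgroup 𝔓.I)))ˣ} (hc : c ∈ (DD).UL)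
    {V : ValuationSubring FF} (hV : V ∈ (t4vyPFix 𝔓 N' h hζ).vals) :
    V.valuation ((((DD).cF c : (FF)ˣ)) : FF) = 1 := by
  letI := t4cyAlgebra 𝔓 (le_top : t4cyH 𝔓 ζ ≤ ⊤)
  have hO := t4ni_mem_O_of_mem_UL (tbFixO 𝔓 ⊤) (tbFixRes 𝔓 ⊤) (tbFixRes_surjective 𝔓 ⊤)
    (t2i_natCast_ne_zero 𝔓 h) (t2iALFix 𝔓 ⊤ N' h) (t2iFrobFix 𝔓 N') (t4iALFix 𝔓 ⊤ N' h)
    (t4cy_irreducible_p 𝔓) (tbFixO 𝔓 (t4cyH 𝔓 ζ)) (tbFixRes 𝔓 (t4cyH 𝔓 ζ)) (t4iCycFix 𝔓 hζ)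
    (t4vMidFix 𝔓 N' h hζ) m (t4ni_happrox (tbFixO 𝔓 ⊤) (tbFixRes 𝔓 ⊤) (tbFixRes_surjective 𝔓 ⊤)
    (t2i_natCast_ne_zero 𝔓 h) (t2iALFix 𝔓 ⊤ N' h) (t2iFrobFix 𝔓 N') (t4iALFix 𝔓 ⊤ N' h)
    (t4cy_irreducible_p 𝔓) (tbFixO 𝔓 (t4cyH 𝔓 ζ)) (tbFixRes 𝔓 (t4cyH 𝔓 ζ)) (t4iCycFix 𝔓 hζ)
    (t4vMidFix 𝔓 N' h hζ)) hc
  have h1 := t4rt_const_mem_B (tbFixO 𝔓 ⊤) (tbFixRes 𝔓 ⊤) (tbFixRes_surjective 𝔓 ⊤)
    (t2i_natCast_ne_zero 𝔓 h) (t2iALFix 𝔓 ⊤ N' h) (t2iFrobFix 𝔓 N') (t4iALFix 𝔓 ⊤ N' h)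
    (t4cy_irreducible_p 𝔓) (tbFixO 𝔓 (t4cyH 𝔓 ζ)) (tbFixRes 𝔓 (t4cyH 𝔓 ζ)) (t4iCycFix 𝔓 hζ)
    (t4vMidFix 𝔓 N' h hζ) (t4vyPFix_vals 𝔓 N' h hζ) ⟨_, hO.1⟩
  have h2 := t4rt_const_mem_B (tbFixO 𝔓 ⊤) (tbFixRes 𝔓 ⊤) (tbFixRes_surjective 𝔓 ⊤)
    (t2i_natCast_ne_zero 𝔓 h) (t2iALFix 𝔓 ⊤ N' h) (t2iFrobFix 𝔓 N') (t4iALFix 𝔓 ⊤ N' h)
    (t4cy_irreducible_p 𝔓) (tbFixO 𝔓 (t4cyH 𝔓 ζ)) (tbFixRes 𝔓 (t4cyH 𝔓 ζ)) (t4iCycFix 𝔓 hζ)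
    (t4vMidFix 𝔓 N' h hζ) (t4vyPFix_vals 𝔓 N' h hζ) ⟨_, hO.2⟩
  have e2 : ((((DD).cF c)⁻¹ : (FF)ˣ) : FF) =
      algebraMap ↥(tbFix 𝔓 (⊤ : Subgroup 𝔓.I)) FF
        (((c⁻¹ : (↥(tbFix 𝔓 (⊤ : Subgroup 𝔓.I)))ˣ)) : ↥(tbFix 𝔓 (⊤ : Subgroup 𝔓.I))) := by
    rw [← map_inv]
    rfl
  refine mltj4a_val_one_of_mem V ((t4vyPFix 𝔓 N' h hζ).B_le hV h1) ?_
  rw [e2]
  exact (t4vyPFix 𝔓 N' h hζ).B_le hV h2

include h49 in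
/-- **a unit at the triple points whose three residues are constants has trivial jump functions** -/
theorem mltj4_isJump_of_unit {y : ↥(DD).U}
    (hy : ∀ 𝔫 : Ideal ↥(t4vyPFix 𝔓 N' h hζ).B, MltJ4TriplePt 𝔓 N' h hζ 𝔫 →
      ∀ V ∈ (t4vyPFix 𝔓 N' h hζ).through 𝔫, V.valuation (((y : (FF)ˣ)) : FF) = 1)
    {b₁ b₂ b₃ : (KK)ˣ} (h₁ : (BB).rinf y = (BB).κ b₁) (h₂ : (BB).rmid y = (BB).κ b₂)
    (h₃ : (BB).r0 y = (BB).κ b₃) :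
    MltJ4IsJump 𝔓 N' h hζ h49 m hm hqm y 1 1 := by
  have r₁ := mltj4a_roots_const (BB).rinf m h₁
  have r₂ := mltj4a_roots_const (BB).rmid m h₂
  have r₃ := mltj4a_roots_const (BB).r0 m h₃
  refine ⟨1, 1, 1, b₁, b₂, b₃, ⟨r₁, r₂, r₃⟩, fun Pl hPl => ?_⟩
  have hex := (mltj4_SS_iff 𝔓 N' h hζ h49 Pl).mp hPl
  obtain ⟨𝔫, h𝔫, hp⟩ := hex
  have w₁ : DlgVal Pl ((((1 : (EE)ˣ)) : EE) / (((1 : (EE)ˣ)) : EE))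
      (((1 : Place KK EE → (KK)ˣ) Pl : (KK)ˣ) : KK) := mltj4a_val_one_div_one Pl (Pi.one_apply Pl)
  exact mltj4_jumpAt_of_unit 𝔓 N' h hζ h49 m hm hqm h𝔫 hp (hy 𝔫 h𝔫) w₁ w₁

include h49 in
/-- the jump functions of a unit constant are trivial -/
theorem mltj4_isJump_const {c : (↥(tbFix 𝔓 (⊤ : Subgroup 𝔓.I)))ˣ} (hc : c ∈ (DD).UL)
    (hcU : (DD).cF c ∈ (DD).U) :
    MltJ4IsJump 𝔓 N' h hζ h49 m hm hqm ⟨(DD).cF c, hcU⟩ 1 1 := by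
  letI := t4cyAlgebra 𝔓 (le_top : t4cyH 𝔓 ζ ≤ ⊤)
  have hconst := mltj3_hconst (tbFixO 𝔓 ⊤) (tbFixRes 𝔓 ⊤) (tbFixRes_surjective 𝔓 ⊤)
    (t2i_natCast_ne_zero 𝔓 h) (t2iALFix 𝔓 ⊤ N' h) (t2iFrobFix 𝔓 N') (t4iALFix 𝔓 ⊤ N' h)
    (t4cy_irreducible_p 𝔓) (tbFixO 𝔓 (t4cyH 𝔓 ζ)) (tbFixRes 𝔓 (t4cyH 𝔓 ζ)) (t4iCycFix 𝔓 hζ)
    (t4vMidFix 𝔓 N' h hζ) m hm hqm c hcU hc
  obtain ⟨b, hb1, hb2, hb3⟩ := hconst
  have hy : ∀ 𝔫 : Ideal ↥(t4vyPFix 𝔓 N' h hζ).B, MltJ4TriplePt 𝔓 N' h hζ 𝔫 →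
      ∀ V ∈ (t4vyPFix 𝔓 N' h hζ).through 𝔫, V.valuation ((((DD).cF c : (FF)ˣ)) : FF) = 1 :=
    fun 𝔫 h𝔫 V hV => mltj4_const_val_one 𝔓 N' h hζ m hc hV.1
  exact mltj4_isJump_of_unit 𝔓 N' h hζ h49 m hm hqm hy hb1 hb2 hb3

include h49 in
/-- **the jump functions of an eigen-relation** -/
theorem mltj4_isJump_eigen {y y' : ↥(DD).U} {ξ ξ' : Place KK EE → (KK)ˣ}
    (hJ : MltJ4IsJump 𝔓 N' h hζ h49 m hm hqm y ξ ξ') (a : ℤ)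
    (c : (↥(tbFix 𝔓 (⊤ : Subgroup 𝔓.I)))ˣ) (g : (FF)ˣ)
    (hrel : (y' : (FF)ˣ) * (y : (FF)ˣ) ^ (-a) = (DD).cF c * g ^ m) :
    MltJ4IsJump 𝔓 N' h hζ h49 m hm hqm y' (ξ ^ a) (ξ' ^ a) := by
  have hu : (y' : (FF)ˣ) * (y : (FF)ˣ) ^ (-a) ∈ (DD).U :=
    (DD).U.mul_mem y'.2 ((DD).U.zpow_mem y.2 _)
  have hnorm := mltj3_normalise (DD) hm hu c g hrel
  obtain ⟨c₁, g', hc₁, hg', hcg⟩ := hnorm
  have hcU := mltj3_cF_mem_U (DD) hc₁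
  have key := mltj4a_eigen_key (DD).U y y' a hcU hg' hcg
  have J1 := mltj4_isJump_const 𝔓 N' h hζ h49 m hm hqm hc₁ hcU
  have J2 := mltj4_isJump_powm 𝔓 N' h hζ h49 m hm hqm ⟨g', hg'⟩
  have J3 := MltJ4IsJump.zpow 𝔓 N' h hζ h49 m hm hqm hJ a
  have J12 := MltJ4IsJump.mul 𝔓 N' h hζ h49 m hm hqm J1 J2
  have J := MltJ4IsJump.mul 𝔓 N' h hζ h49 m hm hqm J12 J3
  exact mltj4a_transport (fun y ξ ξ' => MltJ4IsJump 𝔓 N' h hζ h49 m hm hqm y ξ ξ') J key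
    (by rw [one_mul, one_mul]) (by rw [one_mul, one_mul])

end Fermat.Agent.MLT
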