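/-
MLT / [L2] / P4 (helper5), part 20a: abstract lemmas for the injectivity of the jump data
(`JumpInj.lean`): the Kummer and norm conditions for `t ^ m * y`, the choice of the constants, equal values
of the normalised roots.
-/
import Fermat.Agent.Lib.MLT.L2.P4.JumpAbs

set_option autoImplicit false
set_option linter.unusedSectionVars false
set_option linter.unusedVariables false
set_option linter.style.haveILetI false

open AlgebraicCurve Fermat.Agent.Curve Fermat.Agent.Curve.PlaceAux Fermat.Agent.Delta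

namespace Fermat.Agent.MLT

/-! ### `t ^ m * y` -/

section Grp

variable {G : Type*} [CommGroup G] (U : Subgroup G) {m : ℕ}

/-- the norm condition for `t ^ m * y` -/
theorem mltj4a_norm_strip {H K : Type*} [CommGroup H] [CommGroup K] (N : G →* H) (cc : K →* H)
    (y t : ↥U) (hN : ∃ (c : K) (g : H), N (y : G) = cc c * g ^ m) :
    ∃ (c : K) (g : H), N ((t ^ m * y : ↥U) : G) = cc c * g ^ m := by
  obtain ⟨c, g, hcg⟩ := hN
  refine ⟨c, N (t : G) * g, ?_⟩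
  rw [Subgroup.coe_mul, Subgroup.coe_pow, map_mul, map_pow, hcg, mul_pow, mul_left_comm]

/-- a subgroup containing the `m`-th powers -/
theorem mltj4a_mem_strip (W : Subgroup G) (hW : ∀ g : G, g ^ m ∈ W) (y t : ↥U)
    (hy : (y : G) ∈ W) : ((t ^ m * y : ↥U) : G) ∈ W := by
  rw [Subgroup.coe_mul, Subgroup.coe_pow]
  exact W.mul_mem (hW _) hy

/-- undoing the strip -/
theorem mltj4a_unstrip (y t₀ : ↥U) {c t : G} (hy : ((t₀ ^ m * y : ↥U) : G) = c * t ^ m) :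
    (y : G) = c * (t * (t₀ : G)⁻¹) ^ m := by
  rw [Subgroup.coe_mul, Subgroup.coe_pow] at hy
  rw [mul_pow, inv_pow, ← mul_assoc, ← hy, mul_comm ((t₀ : G) ^ m), mul_inv_cancel_right]

end Grp

section Ord

variable {k' F F' : Type*} [Field k'] [Field F] [Field F'] [Algebra k' F'] (φ : F →+* F')
  (U : Subgroup Fˣ) {m : ℕ}

/-- divisibility of the orders for `t ^ m * y` -/
theorem mltj4a_ord_strip (y t : ↥U) (P : Place k' F')
    (hy : (m : ℤ) ∣ P.ord (φ (((y : Fˣ)) : F))) :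
    (m : ℤ) ∣ P.ord (φ ((((t ^ m * y : ↥U) : Fˣ)) : F)) := by
  have hy0 : φ (((y : Fˣ)) : F) ≠ 0 := (map_ne_zero φ).mpr (Units.ne_zero _)
  have ht0 : φ (((t : Fˣ)) : F) ≠ 0 := (map_ne_zero φ).mpr (Units.ne_zero _)
  rw [Subgroup.coe_mul, Subgroup.coe_pow, Units.val_mul, Units.val_pow_eq_pow_val, map_mul, map_pow,
    Place.ord_mul P (pow_ne_zero _ ht0) hy0, ← zpow_natCast, Place.ord_zpow]
  exact dvd_add (dvd_mul_right _ _) hy

end Ord

/-! ### The constants -/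

section Cst

variable {K : Type*} [CommGroup K] {m : ℕ}

/-- roots of the constants compatible with the jumps -/
theorem mltj4a_exists_consts (hdiv : ∀ a : K, ∃ b : K, b ^ m = a) {c₁ c₂ c₃ a a' : K}
    (ha : a ^ m = c₂ / c₁) (ha' : a' ^ m = c₃ / c₂) :
    ∃ e₁ e₂ e₃ : K, e₁ ^ m = c₁ ∧ e₂ ^ m = c₂ ∧ e₃ ^ m = c₃ ∧ a = e₂ / e₁ ∧ a' = e₃ / e₂ := by
  obtain ⟨e₁, he₁⟩ := hdiv c₁
  refine ⟨e₁, e₁ * a, e₁ * a * a', he₁, ?_, ?_, ?_, ?_⟩
  · rw [mul_pow, he₁, ha, mul_div_cancel]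
  · rw [mul_pow, mul_pow, he₁, ha, ha', mul_div_cancel, mul_div_cancel]
  · rw [mul_div_cancel_left]
  · rw [mul_div_cancel_left]

end Cst

/-! ### Equal values of the normalised roots -/

section Val

variable {U : Type*} [Group U] {E : Type*} [Field E] {k : Type*} [Field k] [Algebra k E]
  [IsAlgClosed k] (Pl : Place k E) (r₁ r₂ r₃ : U →* Eˣ)

/-- if the jumps are the quotients of the constants, the normalised roots have equal values -/
theorem mltj4a_equal_vals' {z : E} (hz : IsFunctionFieldGen k E z) {s : U}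
    {g₁ g₂ g₃ κ₁ κ₂ κ₃ : Eˣ} {e₁ e₂ e₃ ξ ξ' : kˣ}
    (hκ₁ : (κ₁ : E) = algebraMap k E (e₁ : k)) (hκ₂ : (κ₂ : E) = algebraMap k E (e₂ : k))
    (hκ₃ : (κ₃ : E) = algebraMap k E (e₃ : k)) {m : ℕ} (hm : m ≠ 0) {d : k} (hd : d ≠ 0)
    (x : DlgVal Pl ((((κ₁ * g₁ * r₁ s) ^ m : Eˣ)) : E) d)
    (w : DlgVal Pl (((g₁ * r₁ s / (g₂ * r₂ s) : Eˣ)) : E) (ξ : k))
    (w' : DlgVal Pl (((g₂ * r₂ s / (g₃ * r₃ s) : Eˣ)) : E) (ξ' : k))
    (hξ : ξ = e₂ / e₁) (hξ' : ξ' = e₃ / e₂) :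
    ∃ c : k, DlgVal Pl (((κ₁ * g₁ * r₁ s : Eˣ)) : E) c ∧
      DlgVal Pl (((κ₂ * g₂ * r₂ s : Eˣ)) : E) c ∧ DlgVal Pl (((κ₃ * g₃ * r₃ s : Eˣ)) : E) c := by
  have v := mltj4a_root Pl r₁ r₂ hκ₁ hκ₂ w
  have v' := mltj4a_root Pl r₂ r₃ hκ₂ hκ₃ w'
  have h1 : e₁ / e₂ * ξ = 1 := by rw [hξ, div_mul_div_cancel, div_self']
  have h2 : e₂ / e₃ * ξ' = 1 := by rw [hξ', div_mul_div_cancel, div_self']
  rw [h1, Units.val_one] at v
  rw [h2, Units.val_one] at v'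
  exact mltj4a_equal_vals Pl hz hm hd x v v'

end Val

end Fermat.Agent.MLT
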