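/-
MLT / [L2] / P4 (helper5), part 20: **INJECTIVITY OF THE JUMP DATA** (final form).

**`mltj4_inj_jump`** : `y ∈ D.U` Kummer (over `L` and over `ℚ̄`), both norms `constant × m`-th powers, with jump
functions `(ξ, ξ')` (for some roots of its three residues, `MltJ4IsJump`) which are CONSTANT on the
supersingular places `Σ = mltjSS 𝔓 N' h h49`  ⟹  `y = D.cF c * t ^ m`.

Proof: strip `y` globally at the triple points (`mltj4_exists_strip_global`), normalise the roots by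
constants so that they take equal values at all triple points, apply `mltj4_inj_roots`.
-/
import Fermat.Agent.Lib.MLT.L2.P4.JumpUniq
import Fermat.Agent.Lib.MLT.L2.P4.InjAbs

set_option autoImplicit false
set_option linter.unusedSectionVars false
set_option linter.unusedVariables false
set_option linter.style.haveILetI false
set_option synthInstance.maxHeartbeats 400000
set_option maxHeartbeats 1000000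

open HahnSeries ModularCurve AlgebraicCurve Fermat.Agent.T1 Fermat.Agent.T2 IntermediateField
  Fermat.Agent.Curve Fermat.Agent.Curve.PlaceAux Fermat.Agent.TW Fermat.Agent.S05Lib Fermat.Agent.T4
  Fermat.Agent.Delta

noncomputable section

namespace Fermat.Agent.MLT

local notation "Qb" => AlgebraicClosure ℚ

attribute [local instance] t2i_dvr t2i_isAlgClosed t2i_charP t2i_fact t2iAlgebra t2i_isScalarTower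

variable (𝔓 : FFPlace) (N' : ℕ) [NeZero N'] (h : ¬ 𝔓.p ∣ N') {ζ : Qb}
  (hζ : IsPrimitiveRoot ζ 𝔓.p) (h49 : 4 ∣ N' ∨ 9 ∣ N')
  (m : ℕ) (hm : m ≠ 0) (hqm : Nat.Coprime m 𝔓.p)

set_option quotPrecheck false in
local notation "KK" => IsLocalRing.ResidueField ↥𝔓.P
set_option quotPrecheck false in
local notation "EE" => ↥(tbBarF 𝔓 N')
set_option quotPrecheck false in
local notation "FF" => ↥(tbLevF 𝔓 (N' * 𝔓.p * 𝔓.p) ⊤)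
local notation "DD" => t4niAFix 𝔓 N' h hζ m
local notation "BB" => t4niBFix 𝔓 N' h hζ m hm hqm

include h49 in
/-- the constants of the roots, compatible with constant jump functions -/
theorem mltj4_inj_consts {y : ↥(DD).U} {g₁ g₂ g₃ : (EE)ˣ} {c₁ c₂ c₃ : (KK)ˣ}
    (hR : MltJ4Roots 𝔓 N' h hζ m hm hqm y g₁ g₂ g₃ c₁ c₂ c₃)
    {ξ ξ' : Place KK EE → (KK)ˣ}
    (hJ : ∀ Pl ∈ mltjSS 𝔓 N' h h49,
      MltJ4JumpAt 𝔓 N' h hζ h49 m hm hqm y g₁ g₂ g₃ Pl (ξ Pl) (ξ' Pl))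
    (hconst : ∀ Pl ∈ mltjSS 𝔓 N' h h49, ∀ Pl' ∈ mltjSS 𝔓 N' h h49,
      ξ Pl = ξ Pl' ∧ ξ' Pl = ξ' Pl') :
    ∃ e₁ e₂ e₃ : (KK)ˣ, e₁ ^ m = c₁ ∧ e₂ ^ m = c₂ ∧ e₃ ^ m = c₃ ∧
      ∀ Pl ∈ mltjSS 𝔓 N' h h49, ξ Pl = e₂ / e₁ ∧ ξ' Pl = e₃ / e₂ := by
  by_cases hne : ∃ Pl₀ : Place KK EE, Pl₀ ∈ mltjSS 𝔓 N' h h49
  · obtain ⟨Pl₀, hPl₀⟩ := hne
    have hpow := mltj4_jumpAt_pow 𝔓 N' h hζ h49 m hm hqm hR.1 hR.2.1 hR.2.2 (hJ Pl₀ hPl₀)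
    obtain ⟨e₁, e₂, e₃, h1, h2, h3, h4, h5⟩ :=
      mltj4a_exists_consts (BB).k_div hpow.1 hpow.2
    refine ⟨e₁, e₂, e₃, h1, h2, h3, fun Pl hPl => ?_⟩
    obtain ⟨k1, k2⟩ := hconst Pl hPl Pl₀ hPl₀
    exact ⟨k1.trans h4, k2.trans h5⟩
  · obtain ⟨e₁, h1⟩ := (BB).k_div c₁
    obtain ⟨e₂, h2⟩ := (BB).k_div c₂
    obtain ⟨e₃, h3⟩ := (BB).k_div c₃
    exact ⟨e₁, e₂, e₃, h1, h2, h3, fun Pl hPl => absurd ⟨Pl, hPl⟩ hne⟩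

include h49 in
/-- **INJECTIVITY OF THE JUMP DATA**: a Kummer unit, both of whose norms are `constant × m`-th powers
and whose jump functions are constant on the supersingular places, is a `constant × m`-th power -/
theorem mltj4_inj_jump (y : ↥(DD).U)
    (hyK : (y : (FF)ˣ) ∈ tWsub ↥(tbFix 𝔓 (⊤ : Subgroup 𝔓.I)) (N' * 𝔓.p * 𝔓.p) m)
    (hyQ : ∀ P : Place Qb ↥(modularFunctionFieldBar (N' * 𝔓.p * 𝔓.p)),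
      (m : ℤ) ∣ P.ord (tbPhiF 𝔓 (N' * 𝔓.p * 𝔓.p) ⊤ (((y : (FF)ˣ)) : FF)))
    (hα : ∃ (c : (↥(tbFix 𝔓 (⊤ : Subgroup 𝔓.I)))ˣ) (g : (↥(tbLevF 𝔓 (N' * 𝔓.p) ⊤))ˣ),
      (DD).Nα y = (DD).cF1 c * g ^ m)
    (hβ : ∃ (c : (↥(tbFix 𝔓 (⊤ : Subgroup 𝔓.I)))ˣ) (g : (↥(tbLevF 𝔓 (N' * 𝔓.p) ⊤))ˣ),
      (DD).Nβ y = (DD).cF1 c * g ^ m)
    {ξ ξ' : Place KK EE → (KK)ˣ} (hJ : MltJ4IsJump 𝔓 N' h hζ h49 m hm hqm y ξ ξ')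
    (hconst : ∀ Pl ∈ mltjSS 𝔓 N' h h49, ∀ Pl' ∈ mltjSS 𝔓 N' h h49,
      ξ Pl = ξ Pl' ∧ ξ' Pl = ξ' Pl') :
    ∃ (c : (↥(tbFix 𝔓 (⊤ : Subgroup 𝔓.I)))ˣ) (t : (FF)ˣ), (y : (FF)ˣ) = (DD).cF c * t ^ m := by
  obtain ⟨g₁, g₂, g₃, c₁, c₂, c₃, hR, hJ⟩ := hJ
  have hcs := mltj4_inj_consts 𝔓 N' h hζ h49 m hm hqm hR hJ hconst
  obtain ⟨e₁, e₂, e₃, he₁, he₂, he₃, hξ⟩ := hcs
  -- the global strip
  have hst := mltj4_exists_strip_global 𝔓 N' h hζ h49 hm y.2 hyK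
  obtain ⟨t₀, ht₀⟩ := hst
  have ht₀' : ∀ 𝔫 : Ideal ↥(t4vyPFix 𝔓 N' h hζ).B, MltJ4TriplePt 𝔓 N' h hζ 𝔫 →
      MltJ4StripAt 𝔓 N' h hζ m y t₀ 𝔫 := ht₀
  -- the Kummer and norm conditions for `t₀ ^ m * y`
  have hK' : ((t₀ ^ m * y : ↥(DD).U) : (FF)ˣ) ∈
      tWsub ↥(tbFix 𝔓 (⊤ : Subgroup 𝔓.I)) (N' * 𝔓.p * 𝔓.p) m :=
    mem_tWsub.mpr (fun Pp => mltj4a_ord_strip (RingHom.id FF) (DD).U y t₀ Pp (mem_tWsub.mp hyK Pp))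
  have hQ' : ∀ P : Place Qb ↥(modularFunctionFieldBar (N' * 𝔓.p * 𝔓.p)),
      (m : ℤ) ∣ P.ord (tbPhiF 𝔓 (N' * 𝔓.p * 𝔓.p) ⊤
        ((((t₀ ^ m * y : ↥(DD).U) : (FF)ˣ)) : FF)) :=
    fun Pp => mltj4a_ord_strip (tbPhiF 𝔓 (N' * 𝔓.p * 𝔓.p) ⊤) (DD).U y t₀ Pp (hyQ Pp)
  have hα' := mltj4a_norm_strip (DD).U (DD).Nα (DD).cF1 y t₀ hα
  have hβ' := mltj4a_norm_strip (DD).U (DD).Nβ (DD).cF1 y t₀ hβ
  -- the normalised roots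
  have hκ₁ : (BB).κ e₁ ^ m = (BB).κ c₁ := by rw [← map_pow, he₁]
  have hκ₂ : (BB).κ e₂ ^ m = (BB).κ c₂ := by rw [← map_pow, he₂]
  have hκ₃ : (BB).κ e₃ ^ m = (BB).κ c₃ := by rw [← map_pow, he₃]
  have r₁ := mltj4a_res_root (BB).rinf y t₀ hR.1 hκ₁
  have r₂ := mltj4a_res_root (BB).rmid y t₀ hR.2.1 hκ₂
  have r₃ := mltj4a_res_root (BB).r0 y t₀ hR.2.2 hκ₃
  -- the unit condition
  have hloc : ∀ 𝔫 : Ideal ↥(t4vyPFix 𝔓 N' h hζ).B, MltJ4TriplePt 𝔓 N' h hζ 𝔫 →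
      ∀ V ∈ (t4vyPFix 𝔓 N' h hζ).through 𝔫,
        V.valuation ((((t₀ ^ m * y : ↥(DD).U) : (FF)ˣ)) : FF) = 1 :=
    fun 𝔫 h𝔫 => MltJ4StripAt.hloc 𝔓 N' h hζ m (ht₀' 𝔫 h𝔫)
  -- equal values of the normalised roots at the triple points
  have heq : ∀ 𝔫 : Ideal ↥(t4vyPFix 𝔓 N' h hζ).B, MltJ4TriplePt 𝔓 N' h hζ 𝔫 →
      ∀ Pl : Place KK EE, MltJ4PlaceOf 𝔓 N' h hζ h49 𝔫 Pl →
      ∃ c : KK, DlgVal Pl ((((BB).κ e₁ * g₁ * (BB).rinf t₀ : (EE)ˣ)) : EE) c ∧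
        DlgVal Pl ((((BB).κ e₂ * g₂ * (BB).rmid t₀ : (EE)ˣ)) : EE) c ∧
        DlgVal Pl ((((BB).κ e₃ * g₃ * (BB).r0 t₀ : (EE)ˣ)) : EE) c := by
    intro 𝔫 h𝔫 Pl hp
    have hPl : Pl ∈ mltjSS 𝔓 N' h h49 := (mltj4_SS_iff 𝔓 N' h hζ h49 Pl).mpr ⟨𝔫, h𝔫, hp⟩
    have hw := mltj4_jumpAt_of_strip 𝔓 N' h hζ h49 m hm hqm (hJ Pl hPl) hp (ht₀' 𝔫 h𝔫)
    obtain ⟨w₁, w₂⟩ := hw
    have hloc' := hloc 𝔫 h𝔫
    have hcont := mltj4_continuity_fix 𝔓 N' h hζ h49 hm hqm h𝔫 hp (t₀ ^ m * y) hloc'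
    obtain ⟨d, hd, x₁, -, -⟩ := hcont
    have x₁' : DlgVal Pl (((((BB).κ e₁ * g₁ * (BB).rinf t₀) ^ m : (EE)ˣ)) : EE) d :=
      (congrArg (fun u : (EE)ˣ => DlgVal Pl (u : EE) d) r₁).mp x₁
    have hk := hξ Pl hPl
    exact mltj4a_equal_vals' Pl (BB).rinf (BB).rmid (BB).r0 (mltj4_fix_gen 𝔓 N').out
      (mltj4_kappa_coe 𝔓 N' h hζ m hm hqm e₁) (mltj4_kappa_coe 𝔓 N' h hζ m hm hqm e₂)
      (mltj4_kappa_coe 𝔓 N' h hζ m hm hqm e₃) hm hd x₁' w₁ w₂ hk.1 hk.2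
  have hfin := mltj4_inj_roots 𝔓 N' h hζ h49 m hm hqm (t₀ ^ m * y) hK' hQ' hα' hβ' hloc
    ((BB).κ e₁ * g₁ * (BB).rinf t₀) ((BB).κ e₂ * g₂ * (BB).rmid t₀)
    ((BB).κ e₃ * g₃ * (BB).r0 t₀) r₁ r₂ r₃ heq
  obtain ⟨c, t, hct⟩ := hfin
  exact ⟨c, t * ((t₀ : (FF)ˣ))⁻¹, mltj4a_unstrip (DD).U y t₀ hct⟩

end Fermat.Agent.MLT
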