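/-
MLT / [L2] / P4 (helper5), part 26: **THEOREM R** (the rigid geometric output at the level of functions), via the
jump functions.

`K = N'` a rigid level, `D = t4niAFix 𝔓 K h hζ m`, `Σ = mltjSS`.  Let `y ∈ D.U` be a Kummer function (over `L` and
over `ℚ̄`) both of whose norms to the level `K q` are `constant × m`-th powers, whose three residues are `m`-th
powers (`MltL2AbTriv`), which satisfies the eigen-relations `T_ℓ^fun (Φ y) · (Φ y) ^ (-a_ℓ) = t ^ m` for the good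
primes `ℓ` and which is NOT a `constant × m`-th power.  Then there is `ξ : Place → 𝕜ˣ` with the three clauses of
`MltjGeomOutAt`: `ξ ^ m` is constant on `Σ`, `ξ` is not constant on `Σ`, and
`∏_Q ξ(Q) ^ (β̄_* ᾱ^* P)(Q) = c_ℓ · ξ(P) ^ a_ℓ` on `Σ`.

* `mltj4_hecke_clause` : the Hecke clause for both jump functions;
* **`mltj4_theoremR`**  : Theorem R (eigen-relations as function identities = the output of helper3's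
                          `mltj3_eigen_fun`);
* **`mltj4_theoremR_class`** : the same with the hypothesis `alpfClass (Φ y) ∈ dlwEig (K q²) m W`.

Hypotheses kept as contracts: (d) `MltjTripleHeckeAt` (helper7), (BR-SS) `MltjBrSSAt` (helper2).
No hypothesis "`y` is a unit at the triple points" is needed (the strip is internal to the jump functions).
Uses helper3's `mltj3_eigen_fun`, `mltj3_eigen_descend` (`L2/P3/AsmCls.lean`, origin/helper3 @3299585).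
-/
import Fermat.Agent.Lib.MLT.L2.P4.HeckeJump
import Fermat.Agent.Lib.MLT.L2.P4.JumpEigen
import Fermat.Agent.Lib.MLT.L2.P4.JumpInj
import Fermat.Agent.Lib.MLT.L2.P3.AsmCls

set_option autoImplicit false
set_option linter.unusedSectionVars false
set_option linter.unusedVariables false
set_option linter.style.haveILetI false
set_option synthInstance.maxHeartbeats 400000
set_option maxHeartbeats 1000000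

open WeierstrassCurve

open HahnSeries ModularCurve AlgebraicCurve Fermat.Agent.T1 Fermat.Agent.T2 IntermediateField
  Fermat.Agent.Curve Fermat.Agent.Curve.PlaceAux Fermat.Agent.TW Fermat.Agent.S05Lib Fermat.Agent.T4
  Fermat.Agent.Delta Fermat.Agent.Alpha

noncomputable section

namespace Fermat.Agent.MLT

local notation "Qb" => AlgebraicClosure ℚ

/-- an `m`-th power is `κ 1` times an `m`-th power -/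
theorem mltj4a_roots_of_pow {U : Type*} [Group U] {E : Type*} [Field E] {k : Type*} [Field k]
    (r : U →* Eˣ) (κ : kˣ →* Eˣ) {y : U} {t : Eˣ} {m : ℕ} (h : r y = t ^ m) :
    r y = κ 1 * t ^ m := by
  rw [map_one, one_mul, h]

/-- a pair of functions one of which is not constant on a set -/
theorem mltj4a_choose_nonconst {X Y : Type*} (S : Set X) (ξ ξ' : X → Y)
    (hne : ¬ ∀ P ∈ S, ∀ P' ∈ S, ξ P = ξ P' ∧ ξ' P = ξ' P') :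
    (∃ P ∈ S, ∃ P' ∈ S, ξ P ≠ ξ P') ∨ (∃ P ∈ S, ∃ P' ∈ S, ξ' P ≠ ξ' P') := by
  by_contra hcon
  rw [not_or] at hcon
  refine hne fun P hP P' hP' => ⟨?_, ?_⟩
  · by_contra hh
    exact hcon.1 ⟨P, hP, P', hP', hh⟩
  · by_contra hh
    exact hcon.2 ⟨P, hP, P', hP', hh⟩

attribute [local instance] t2i_dvr t2i_isAlgClosed t2i_charP t2i_fact t2iAlgebra t2i_isScalarTower
attribute [local instance 5000] dlhAlgK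

variable (𝔓 : FFPlace) (N' : ℕ) [NeZero N'] (h : ¬ 𝔓.p ∣ N') {ζ : Qb}
  (hζ : IsPrimitiveRoot ζ 𝔓.p) (h49 : 4 ∣ N' ∨ 9 ∣ N')
  (m : ℕ) (hm : m ≠ 0) (hqm : Nat.Coprime m 𝔓.p)

set_option quotPrecheck false in
local notation "KK" => IsLocalRing.ResidueField ↥𝔓.P
set_option quotPrecheck false in
local notation "EE" => ↥(tbBarF 𝔓 N')
set_option quotPrecheck false in
local notation "FF" => ↥(tbLevF 𝔓 (N' * 𝔓.p * 𝔓.p) ⊤)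
local notation "DD" => t4niAFix 𝔓 N' h hζ m
local notation "BB" => t4niBFix 𝔓 N' h hζ m hm hqm

include h49 in
/-- **the Hecke clause**: the jump functions of a Kummer unit satisfying the eigen-relation at `ℓ` with the
eigenvalue `a` are eigenvectors modulo constants of `β̄_* ᾱ^*` with the eigenvalue `a` -/
theorem mltj4_hecke_clause (hd : MltjTripleHeckeAt 𝔓 N' h hζ m) (hbr : MltjBrSSAt 𝔓 N' h h49)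
    (ℓ : ℕ) [NeZero ℓ] (hℓ : ℓ.Prime) (hℓp : ℓ ≠ 𝔓.p) (hℓK : ¬ ℓ ∣ N')
    {y : ↥(DD).U}
    (hyK : (y : (FF)ˣ) ∈ tWsub ↥(tbFix 𝔓 (⊤ : Subgroup 𝔓.I)) (N' * 𝔓.p * 𝔓.p) m)
    {ξ ξ' : Place KK EE → (KK)ˣ} (hJ : MltJ4IsJump 𝔓 N' h hζ h49 m hm hqm y ξ ξ') (a : ℤ)
    (heig : ∃ t : (↥(modularFunctionFieldBar (N' * 𝔓.p * 𝔓.p)))ˣ,
      tkrHeckeUnits (N' * 𝔓.p * 𝔓.p) ℓ (mltl2PhiU 𝔓 (N' * 𝔓.p * 𝔓.p) (y : (FF)ˣ)) *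
        (mltl2PhiU 𝔓 (N' * 𝔓.p * 𝔓.p) (y : (FF)ˣ)) ^ (-a) = t ^ m) :
    ∃ e e' : (KK)ˣ, ∀ P ∈ mltjSS 𝔓 N' h h49,
      (mltjBrT 𝔓 N' h ℓ hℓ hℓp (Finsupp.single P 1)).prod (fun Q n => ξ Q ^ n) = e * ξ P ^ a ∧
      (mltjBrT 𝔓 N' h ℓ hℓ hℓp (Finsupp.single P 1)).prod (fun Q n => ξ' Q ^ n) = e' * ξ' P ^ a := by
  have hℓN : ¬ ℓ ∣ N' * 𝔓.p * 𝔓.p := by
    intro hd'
    have hℓq : ¬ ℓ ∣ 𝔓.p := fun h1 => hℓp ((Nat.prime_dvd_prime_iff_eq hℓ 𝔓.hp).mp h1)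
    rcases (Nat.Prime.dvd_mul hℓ).mp hd' with h1 | h1
    · rcases (Nat.Prime.dvd_mul hℓ).mp h1 with h2 | h2
      · exact hℓK h2
      · exact hℓq h2
    · exact hℓq h1
  obtain ⟨t, ht⟩ := heig
  have Hy := mltj4_hecke_norm 𝔓 N' h hζ m hm hqm ℓ hℓ hℓN y
  obtain ⟨y', hΦ, -, -, -⟩ := Hy
  rw [← hΦ] at ht
  have H3 := mltj3_eigen_descend 𝔓 (N' * 𝔓.p * 𝔓.p) hm (y : (FF)ˣ) (y' : (FF)ˣ) a t ht
  obtain ⟨c, g, hcg⟩ := H3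
  have J1 := mltj4_isJump_eigen 𝔓 N' h hζ h49 m hm hqm hJ a c g hcg
  have J2 := mltj4_isJump_hecke 𝔓 N' h hζ h49 m hm hqm hd hbr ℓ hℓ hℓp hℓK hyK hJ y' hΦ
  exact mltj4_isJump_unique 𝔓 N' h hζ h49 m hm hqm J1 J2

include h49 in
/-- **THEOREM R** -/
theorem mltj4_theoremR (hd : MltjTripleHeckeAt 𝔓 N' h hζ m) (hbr : MltjBrSSAt 𝔓 N' h h49)
    (W : WeierstrassCurve ℤ) (y : ↥(DD).U)
    (hyK : (y : (FF)ˣ) ∈ tWsub ↥(tbFix 𝔓 (⊤ : Subgroup 𝔓.I)) (N' * 𝔓.p * 𝔓.p) m)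
    (hyQ : ∀ P : Place Qb ↥(modularFunctionFieldBar (N' * 𝔓.p * 𝔓.p)),
      (m : ℤ) ∣ P.ord ((mltl2PhiU 𝔓 (N' * 𝔓.p * 𝔓.p) (y : (FF)ˣ) :
        (↥(modularFunctionFieldBar (N' * 𝔓.p * 𝔓.p)))ˣ) :
          ↥(modularFunctionFieldBar (N' * 𝔓.p * 𝔓.p))))
    (hα : ∃ (c : (↥(tbFix 𝔓 (⊤ : Subgroup 𝔓.I)))ˣ) (g : (↥(tbLevF 𝔓 (N' * 𝔓.p) ⊤))ˣ),
      (DD).Nα y = (DD).cF1 c * g ^ m)
    (hβ : ∃ (c : (↥(tbFix 𝔓 (⊤ : Subgroup 𝔓.I)))ˣ) (g : (↥(tbLevF 𝔓 (N' * 𝔓.p) ⊤))ˣ),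
      (DD).Nβ y = (DD).cF1 c * g ^ m)
    (hab : MltL2AbTriv 𝔓 N' h hζ m hm hqm y)
    (heig : ∀ (ℓ : ℕ) [NeZero ℓ], ℓ.Prime → ℓ ≠ 𝔓.p → ¬ ℓ ∣ N' → W.IsGoodPrimeFor ℓ → ℓ ≠ m →
      ∃ t : (↥(modularFunctionFieldBar (N' * 𝔓.p * 𝔓.p)))ˣ,
        tkrHeckeUnits (N' * 𝔓.p * 𝔓.p) ℓ (mltl2PhiU 𝔓 (N' * 𝔓.p * 𝔓.p) (y : (FF)ˣ)) *
          (mltl2PhiU 𝔓 (N' * 𝔓.p * 𝔓.p) (y : (FF)ˣ)) ^ (-(W.apOfModel ℓ)) = t ^ m)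
    (hne : ¬ ∃ (c : (↥(tbFix 𝔓 (⊤ : Subgroup 𝔓.I)))ˣ) (t : (FF)ˣ),
      (y : (FF)ˣ) = (DD).cF c * t ^ m) :
    ∃ ξ : Place KK EE → (KK)ˣ,
      (∀ P ∈ mltjSS 𝔓 N' h h49, ∀ P' ∈ mltjSS 𝔓 N' h h49, ξ P ^ m = ξ P' ^ m) ∧
      (∃ P ∈ mltjSS 𝔓 N' h h49, ∃ P' ∈ mltjSS 𝔓 N' h h49, ξ P ≠ ξ P') ∧
      ∀ (ℓ : ℕ) [NeZero ℓ] (hℓ : ℓ.Prime) (hℓp : ℓ ≠ 𝔓.p), ¬ ℓ ∣ N' → W.IsGoodPrimeFor ℓ → ℓ ≠ m →
        ∃ c : (KK)ˣ, ∀ P ∈ mltjSS 𝔓 N' h h49,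
          (mltjBrT 𝔓 N' h ℓ hℓ hℓp (Finsupp.single P 1)).prod (fun Q n => ξ Q ^ n)
            = c * ξ P ^ (W.apOfModel ℓ) := by
  obtain ⟨⟨t₁, h₁⟩, ⟨t₂, h₂⟩, ⟨t₃, h₃⟩⟩ := hab
  have hR : MltJ4Roots 𝔓 N' h hζ m hm hqm y t₁ t₂ t₃ 1 1 1 :=
    ⟨mltj4a_roots_of_pow (BB).rinf (BB).κ h₁, mltj4a_roots_of_pow (BB).rmid (BB).κ h₂,
      mltj4a_roots_of_pow (BB).r0 (BB).κ h₃⟩
  have hex := mltj4_isJump_exists 𝔓 N' h hζ h49 m hm hqm y hyK hR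
  obtain ⟨ξ, ξ', hJ⟩ := hex
  have hpc := MltJ4IsJump.pow_const 𝔓 N' h hζ h49 m hm hqm hJ
  obtain ⟨e, e', hpc⟩ := hpc
  have hnc : ¬ ∀ Pl ∈ mltjSS 𝔓 N' h h49, ∀ Pl' ∈ mltjSS 𝔓 N' h h49,
      ξ Pl = ξ Pl' ∧ ξ' Pl = ξ' Pl' := fun hconst =>
    hne (mltj4_inj_jump 𝔓 N' h hζ h49 m hm hqm y hyK (fun P => hyQ P) hα hβ hJ hconst)
  have hcl : ∀ (ℓ : ℕ) [NeZero ℓ] (hℓ : ℓ.Prime) (hℓp : ℓ ≠ 𝔓.p), ¬ ℓ ∣ N' →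
      W.IsGoodPrimeFor ℓ → ℓ ≠ m →
      ∃ e e' : (KK)ˣ, ∀ P ∈ mltjSS 𝔓 N' h h49,
        (mltjBrT 𝔓 N' h ℓ hℓ hℓp (Finsupp.single P 1)).prod (fun Q n => ξ Q ^ n) =
          e * ξ P ^ (W.apOfModel ℓ) ∧
        (mltjBrT 𝔓 N' h ℓ hℓ hℓp (Finsupp.single P 1)).prod (fun Q n => ξ' Q ^ n) =
          e' * ξ' P ^ (W.apOfModel ℓ) := fun ℓ _ hℓ hℓp hℓK hg hℓm =>
    mltj4_hecke_clause 𝔓 N' h hζ h49 m hm hqm hd hbr ℓ hℓ hℓp hℓK hyK hJ (W.apOfModel ℓ)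
      (heig ℓ hℓ hℓp hℓK hg hℓm)
  rcases mltj4a_choose_nonconst (mltjSS 𝔓 N' h h49) ξ ξ' hnc with hξ | hξ
  · refine ⟨ξ, fun P hP P' hP' => ((hpc P hP).1).trans ((hpc P' hP').1).symm, hξ, ?_⟩
    intro ℓ _ hℓ hℓp hℓK hg hℓm
    obtain ⟨c, c', hc⟩ := hcl ℓ hℓ hℓp hℓK hg hℓm
    exact ⟨c, fun P hP => (hc P hP).1⟩
  · refine ⟨ξ', fun P hP P' hP' => ((hpc P hP).2).trans ((hpc P' hP').2).symm, hξ, ?_⟩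
    intro ℓ _ hℓ hℓp hℓK hg hℓm
    obtain ⟨c, c', hc⟩ := hcl ℓ hℓ hℓp hℓK hg hℓm
    exact ⟨c', fun P hP => (hc P hP).2⟩

include h49 in
/-- **THEOREM R**, with the eigen-hypothesis on the Kummer class -/
theorem mltj4_theoremR_class (hd : MltjTripleHeckeAt 𝔓 N' h hζ m) (hbr : MltjBrSSAt 𝔓 N' h h49)
    (W : WeierstrassCurve ℤ) (y : ↥(DD).U)
    (hyK : (y : (FF)ˣ) ∈ tWsub ↥(tbFix 𝔓 (⊤ : Subgroup 𝔓.I)) (N' * 𝔓.p * 𝔓.p) m)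
    (hyQ : ∀ P : Place Qb ↥(modularFunctionFieldBar (N' * 𝔓.p * 𝔓.p)),
      (m : ℤ) ∣ P.ord ((mltl2PhiU 𝔓 (N' * 𝔓.p * 𝔓.p) (y : (FF)ˣ) :
        (↥(modularFunctionFieldBar (N' * 𝔓.p * 𝔓.p)))ˣ) :
          ↥(modularFunctionFieldBar (N' * 𝔓.p * 𝔓.p))))
    (hyE : alpfClass hm (mltl2PhiU 𝔓 (N' * 𝔓.p * 𝔓.p) (y : (FF)ˣ)) hyQ ∈
      dlwEig (N' * 𝔓.p * 𝔓.p) m W)
    (hα : ∃ (c : (↥(tbFix 𝔓 (⊤ : Subgroup 𝔓.I)))ˣ) (g : (↥(tbLevF 𝔓 (N' * 𝔓.p) ⊤))ˣ),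
      (DD).Nα y = (DD).cF1 c * g ^ m)
    (hβ : ∃ (c : (↥(tbFix 𝔓 (⊤ : Subgroup 𝔓.I)))ˣ) (g : (↥(tbLevF 𝔓 (N' * 𝔓.p) ⊤))ˣ),
      (DD).Nβ y = (DD).cF1 c * g ^ m)
    (hab : MltL2AbTriv 𝔓 N' h hζ m hm hqm y)
    (hne : ¬ ∃ (c : (↥(tbFix 𝔓 (⊤ : Subgroup 𝔓.I)))ˣ) (t : (FF)ˣ),
      (y : (FF)ˣ) = (DD).cF c * t ^ m) :
    ∃ ξ : Place KK EE → (KK)ˣ,
      (∀ P ∈ mltjSS 𝔓 N' h h49, ∀ P' ∈ mltjSS 𝔓 N' h h49, ξ P ^ m = ξ P' ^ m) ∧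
      (∃ P ∈ mltjSS 𝔓 N' h h49, ∃ P' ∈ mltjSS 𝔓 N' h h49, ξ P ≠ ξ P') ∧
      ∀ (ℓ : ℕ) [NeZero ℓ] (hℓ : ℓ.Prime) (hℓp : ℓ ≠ 𝔓.p), ¬ ℓ ∣ N' → W.IsGoodPrimeFor ℓ → ℓ ≠ m →
        ∃ c : (KK)ˣ, ∀ P ∈ mltjSS 𝔓 N' h h49,
          (mltjBrT 𝔓 N' h ℓ hℓ hℓp (Finsupp.single P 1)).prod (fun Q n => ξ Q ^ n)
            = c * ξ P ^ (W.apOfModel ℓ) := by
  refine mltj4_theoremR 𝔓 N' h hζ h49 m hm hqm hd hbr W y hyK hyQ hα hβ hab ?_ hne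
  intro ℓ _ hℓ hℓp hℓK hg hℓm
  have hℓN : ¬ ℓ ∣ N' * 𝔓.p * 𝔓.p := by
    intro hd'
    have hℓq : ¬ ℓ ∣ 𝔓.p := fun h1 => hℓp ((Nat.prime_dvd_prime_iff_eq hℓ 𝔓.hp).mp h1)
    rcases (Nat.Prime.dvd_mul hℓ).mp hd' with h1 | h1
    · rcases (Nat.Prime.dvd_mul hℓ).mp h1 with h2 | h2
      · exact hℓK h2
      · exact hℓq h2
    · exact hℓq h1
  have heig := (mem_dlwEig.mp hyE).2 ℓ hℓ hℓN hg hℓm
  exact mltj3_eigen_fun (N' * 𝔓.p * 𝔓.p) hℓ hℓN hm _ hyQ (W.apOfModel ℓ) heig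

end Fermat.Agent.MLT
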