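/-
MLT / [L2] / P4 (helper5), part 27: **THEOREM R AT helper9's LITERAL** `MltjTheoremRAt` (`Contracts/L2R.lean`,
origin/helper9 @f2e410e), roots form:

  `mltj4_theoremRAt : MltjTripleHeckeAt 𝔓 K h hζ m → MltjBrSSAt 𝔓 K h h49 → MltjTheoremRAt 𝔓 K h hζ h49 m hm hqm W`.

For a Kummer unit `y ∈ D.U` which is a unit at the triple points, with roots `g₁ g₂ g₃` of its three residues,
the values `ξ, ξ'` of `g₁/g₂`, `g₂/g₃` on `Σ` exist and are jump functions of `y`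
(`mltj4_isJump_of_unit_roots`); one of them satisfies the three clauses (`mltj4_xi_of_jump` = the proof of
`mltj4_theoremR`), and the clauses only depend on the restriction of `ξ` to `Σ` (`mltj4_xiClauses_congr`, by
(BR-SS)).
-/
import Fermat.Agent.Lib.MLT.L2.P4.TheoremR
import Fermat.Agent.Lib.MLT.Contracts.L2R

set_option autoImplicit false
set_option linter.unusedSectionVars false
set_option linter.unusedVariables false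
set_option linter.style.haveILetI false
set_option synthInstance.maxHeartbeats 400000
set_option maxHeartbeats 1000000

open WeierstrassCurve

open HahnSeries ModularCurve AlgebraicCurve Fermat.Agent.T1 Fermat.Agent.T2 IntermediateField
  Fermat.Agent.Curve Fermat.Agent.Curve.PlaceAux Fermat.Agent.TW Fermat.Agent.S05Lib Fermat.Agent.T4
  Fermat.Agent.Delta Fermat.Agent.Alpha

noncomputable section

namespace Fermat.Agent.MLT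

local notation "Qb" => AlgebraicClosure ℚ

/-- the two forms of an eigen-relation -/
theorem mltj4a_eig_form {G : Type*} [CommGroup G] {T Y t : G} {a : ℤ} {p : ℕ}
    (h : T = Y ^ a * t ^ p) : T * Y ^ (-a) = t ^ p := by
  rw [h, mul_comm (Y ^ a), mul_assoc, ← zpow_add, add_neg_cancel, zpow_zero, mul_one]

/-- the jump computed with the trivial strip, conversely -/
theorem mltj4a_quot_one_inv {U : Type*} [Group U] {E : Type*} [Field E] {k : Type*} [Field k]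
    [Algebra k E] (Pl : Place k E) (r r' : U →* Eˣ) {a b : Eˣ} {ξ : k}
    (w : DlgVal Pl (((a * r 1 / (b * r' 1) : Eˣ)) : E) ξ) : DlgVal Pl ((a : E) / (b : E)) ξ := by
  rw [map_one, map_one, mul_one, mul_one, Units.val_div_eq_div_val] at w
  exact w

attribute [local instance] t2i_dvr t2i_isAlgClosed t2i_charP t2i_fact t2iAlgebra t2i_isScalarTower
attribute [local instance 5000] dlhAlgK

variable (𝔓 : FFPlace) (N' : ℕ) [NeZero N'] (h : ¬ 𝔓.p ∣ N') {ζ : Qb}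
  (hζ : IsPrimitiveRoot ζ 𝔓.p) (h49 : 4 ∣ N' ∨ 9 ∣ N')
  (m : ℕ) (hm : m ≠ 0) (hqm : Nat.Coprime m 𝔓.p)

set_option quotPrecheck false in
local notation "KK" => IsLocalRing.ResidueField ↥𝔓.P
set_option quotPrecheck false in
local notation "EE" => ↥(tbBarF 𝔓 N')
set_option quotPrecheck false in
local notation "FF" => ↥(tbLevF 𝔓 (N' * 𝔓.p * 𝔓.p) ⊤)
local notation "DD" => t4niAFix 𝔓 N' h hζ m
local notation "BB" => t4niBFix 𝔓 N' h hζ m hm hqm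

/-- **the clauses only depend on the restriction of `ξ` to `Σ`** (by (BR-SS)) -/
theorem mltj4_xiClauses_congr (hbr : MltjBrSSAt 𝔓 N' h h49) (W : WeierstrassCurve ℤ)
    {ξ η : Place KK EE → (KK)ˣ} (he : ∀ P ∈ mltjSS 𝔓 N' h h49, η P = ξ P)
    (hξ : MltjXiClauses 𝔓 N' h h49 m W ξ) : MltjXiClauses 𝔓 N' h h49 m W η := by
  obtain ⟨h1, ⟨P, hP, P', hP', hPP'⟩, h3⟩ := hξ
  refine ⟨fun Q hQ Q' hQ' => ?_, ⟨P, hP, P', hP', ?_⟩, fun ℓ _ hℓ hℓp hℓK hg hℓm => ?_⟩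
  · rw [he Q hQ, he Q' hQ']
    exact h1 Q hQ Q' hQ'
  · rw [he P hP, he P' hP']
    exact hPP'
  · obtain ⟨c, hc⟩ := h3 ℓ hℓ hℓp hℓK hg hℓm
    refine ⟨c, fun Q hQ => ?_⟩
    rw [he Q hQ, ← hc Q hQ]
    refine Finsupp.prod_congr fun R hR => ?_
    rw [he R (hbr ℓ hℓ hℓp hℓK Q hQ R (Finsupp.mem_support_iff.mp hR))]

include h49 in
/-- **the values of the quotients of the roots of a unit at the triple points** -/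
theorem mltj4_unit_values {y : ↥(DD).U}
    (hyK : (y : (FF)ˣ) ∈ tWsub ↥(tbFix 𝔓 (⊤ : Subgroup 𝔓.I)) (N' * 𝔓.p * 𝔓.p) m)
    (hu : ∀ 𝔫 : Ideal ↥(t4vyPFix 𝔓 N' h hζ).B, MltJ4TriplePt 𝔓 N' h hζ 𝔫 →
      ∀ V ∈ (t4vyPFix 𝔓 N' h hζ).through 𝔫, V.valuation (((y : (FF)ˣ)) : FF) = 1)
    {g₁ g₂ g₃ : (EE)ˣ} {c₁ c₂ c₃ : (KK)ˣ}
    (hR : MltJ4Roots 𝔓 N' h hζ m hm hqm y g₁ g₂ g₃ c₁ c₂ c₃) :
    ∃ ξ ξ' : Place KK EE → (KK)ˣ, ∀ Pl ∈ mltjSS 𝔓 N' h h49,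
      DlgVal Pl ((g₁ : EE) / (g₂ : EE)) (ξ Pl : KK) ∧
      DlgVal Pl ((g₂ : EE) / (g₃ : EE)) (ξ' Pl : KK) := by
  classical
  have H : ∀ Pl : Place KK EE, Pl ∈ mltjSS 𝔓 N' h h49 → ∃ p : (KK)ˣ × (KK)ˣ,
      DlgVal Pl ((g₁ : EE) / (g₂ : EE)) (p.1 : KK) ∧
      DlgVal Pl ((g₂ : EE) / (g₃ : EE)) (p.2 : KK) := by
    intro Pl hPl
    have hex := mltj4_jumpAt_exists 𝔓 N' h hζ h49 m hm hqm y hyK hR.1 hR.2.1 hR.2.2 hPl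
    obtain ⟨ξ, ξ', hJ⟩ := hex
    have hss := (mltj4_SS_iff 𝔓 N' h hζ h49 Pl).mp hPl
    obtain ⟨𝔫, h𝔫, hp⟩ := hss
    have hst : MltJ4StripAt 𝔓 N' h hζ m y 1 𝔫 :=
      fun V hV => mltj4a_strip_one _ V (hu 𝔫 h𝔫 V hV)
    have hw := mltj4_jumpAt_of_strip 𝔓 N' h hζ h49 m hm hqm hJ hp hst
    exact ⟨(ξ, ξ'), mltj4a_quot_one_inv Pl (BB).rinf (BB).rmid hw.1,
      mltj4a_quot_one_inv Pl (BB).rmid (BB).r0 hw.2⟩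
  choose! f hf using H
  exact ⟨fun Pl => (f Pl).1, fun Pl => (f Pl).2, hf⟩

include h49 in
/-- **one of the two jump functions satisfies the three clauses** -/
theorem mltj4_xi_of_jump (hd : MltjTripleHeckeAt 𝔓 N' h hζ m) (hbr : MltjBrSSAt 𝔓 N' h h49)
    (W : WeierstrassCurve ℤ) (y : ↥(DD).U)
    (hyK : (y : (FF)ˣ) ∈ tWsub ↥(tbFix 𝔓 (⊤ : Subgroup 𝔓.I)) (N' * 𝔓.p * 𝔓.p) m)
    (hyQ : ∀ P : Place Qb ↥(modularFunctionFieldBar (N' * 𝔓.p * 𝔓.p)),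
      (m : ℤ) ∣ P.ord ((mltl2PhiU 𝔓 (N' * 𝔓.p * 𝔓.p) (y : (FF)ˣ) :
        (↥(modularFunctionFieldBar (N' * 𝔓.p * 𝔓.p)))ˣ) :
          ↥(modularFunctionFieldBar (N' * 𝔓.p * 𝔓.p))))
    (hα : ∃ (c : (↥(tbFix 𝔓 (⊤ : Subgroup 𝔓.I)))ˣ) (g : (↥(tbLevF 𝔓 (N' * 𝔓.p) ⊤))ˣ),
      (DD).Nα y = (DD).cF1 c * g ^ m)
    (hβ : ∃ (c : (↥(tbFix 𝔓 (⊤ : Subgroup 𝔓.I)))ˣ) (g : (↥(tbLevF 𝔓 (N' * 𝔓.p) ⊤))ˣ),
      (DD).Nβ y = (DD).cF1 c * g ^ m)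
    {ξ ξ' : Place KK EE → (KK)ˣ} (hJ : MltJ4IsJump 𝔓 N' h hζ h49 m hm hqm y ξ ξ')
    (heig : ∀ (ℓ : ℕ) [NeZero ℓ], ℓ.Prime → ℓ ≠ 𝔓.p → ¬ ℓ ∣ N' → W.IsGoodPrimeFor ℓ → ℓ ≠ m →
      ∃ t : (↥(modularFunctionFieldBar (N' * 𝔓.p * 𝔓.p)))ˣ,
        tkrHeckeUnits (N' * 𝔓.p * 𝔓.p) ℓ (mltl2PhiU 𝔓 (N' * 𝔓.p * 𝔓.p) (y : (FF)ˣ)) *
          (mltl2PhiU 𝔓 (N' * 𝔓.p * 𝔓.p) (y : (FF)ˣ)) ^ (-(W.apOfModel ℓ)) = t ^ m)
    (hne : ¬ ∃ (c : (↥(tbFix 𝔓 (⊤ : Subgroup 𝔓.I)))ˣ) (t : (FF)ˣ),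
      (y : (FF)ˣ) = (DD).cF c * t ^ m) :
    MltjXiClauses 𝔓 N' h h49 m W ξ ∨ MltjXiClauses 𝔓 N' h h49 m W ξ' := by
  have hpc := MltJ4IsJump.pow_const 𝔓 N' h hζ h49 m hm hqm hJ
  obtain ⟨e, e', hpc⟩ := hpc
  have hnc : ¬ ∀ Pl ∈ mltjSS 𝔓 N' h h49, ∀ Pl' ∈ mltjSS 𝔓 N' h h49,
      ξ Pl = ξ Pl' ∧ ξ' Pl = ξ' Pl' := fun hconst =>
    hne (mltj4_inj_jump 𝔓 N' h hζ h49 m hm hqm y hyK (fun P => hyQ P) hα hβ hJ hconst)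
  have hcl : ∀ (ℓ : ℕ) [NeZero ℓ] (hℓ : ℓ.Prime) (hℓp : ℓ ≠ 𝔓.p), ¬ ℓ ∣ N' →
      W.IsGoodPrimeFor ℓ → ℓ ≠ m →
      ∃ e e' : (KK)ˣ, ∀ P ∈ mltjSS 𝔓 N' h h49,
        (mltjBrT 𝔓 N' h ℓ hℓ hℓp (Finsupp.single P 1)).prod (fun Q n => ξ Q ^ n) =
          e * ξ P ^ (W.apOfModel ℓ) ∧
        (mltjBrT 𝔓 N' h ℓ hℓ hℓp (Finsupp.single P 1)).prod (fun Q n => ξ' Q ^ n) =
          e' * ξ' P ^ (W.apOfModel ℓ) := fun ℓ _ hℓ hℓp hℓK hg hℓm =>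
    mltj4_hecke_clause 𝔓 N' h hζ h49 m hm hqm hd hbr ℓ hℓ hℓp hℓK hyK hJ (W.apOfModel ℓ)
      (heig ℓ hℓ hℓp hℓK hg hℓm)
  rcases mltj4a_choose_nonconst (mltjSS 𝔓 N' h h49) ξ ξ' hnc with hξ | hξ
  · refine Or.inl ⟨fun P hP P' hP' => ((hpc P hP).1).trans ((hpc P' hP').1).symm, hξ, ?_⟩
    intro ℓ _ hℓ hℓp hℓK hg hℓm
    obtain ⟨c, c', hc⟩ := hcl ℓ hℓ hℓp hℓK hg hℓm
    exact ⟨c, fun P hP => (hc P hP).1⟩
  · refine Or.inr ⟨fun P hP P' hP' => ((hpc P hP).2).trans ((hpc P' hP').2).symm, hξ, ?_⟩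
    intro ℓ _ hℓ hℓp hℓK hg hℓm
    obtain ⟨c, c', hc⟩ := hcl ℓ hℓ hℓp hℓK hg hℓm
    exact ⟨c', fun P hP => (hc P hP).2⟩

include h49 in
/-- **THEOREM R at helper9's literal** -/
theorem mltj4_theoremRAt (hd : MltjTripleHeckeAt 𝔓 N' h hζ m) (hbr : MltjBrSSAt 𝔓 N' h h49)
    (W : WeierstrassCurve ℤ) : MltjTheoremRAt 𝔓 N' h hζ h49 m hm hqm W := by
  intro y hyK hyQ hα hβ hu g₁ g₂ g₃ h₁ h₂ h₃ heig hne
  have hR : MltJ4Roots 𝔓 N' h hζ m hm hqm y g₁ g₂ g₃ 1 1 1 :=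
    ⟨mltj4a_roots_of_pow (BB).rinf (BB).κ h₁, mltj4a_roots_of_pow (BB).rmid (BB).κ h₂,
      mltj4a_roots_of_pow (BB).r0 (BB).κ h₃⟩
  have hv := mltj4_unit_values 𝔓 N' h hζ h49 m hm hqm hyK hu hR
  obtain ⟨ξ, ξ', hval⟩ := hv
  have hJ := mltj4_isJump_of_unit_roots 𝔓 N' h hζ h49 m hm hqm hu hR hval
  have heig' : ∀ (ℓ : ℕ) [NeZero ℓ], ℓ.Prime → ℓ ≠ 𝔓.p → ¬ ℓ ∣ N' → W.IsGoodPrimeFor ℓ → ℓ ≠ m →
      ∃ t : (↥(modularFunctionFieldBar (N' * 𝔓.p * 𝔓.p)))ˣ,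
        tkrHeckeUnits (N' * 𝔓.p * 𝔓.p) ℓ (mltl2PhiU 𝔓 (N' * 𝔓.p * 𝔓.p) (y : (FF)ˣ)) *
          (mltl2PhiU 𝔓 (N' * 𝔓.p * 𝔓.p) (y : (FF)ˣ)) ^ (-(W.apOfModel ℓ)) = t ^ m :=
    fun ℓ _ hℓ hℓp hℓK hg hℓm => (heig ℓ hℓ hℓp hℓK hg hℓm).elim
      fun t ht => ⟨t, mltj4a_eig_form ht⟩
  have hX := mltj4_xi_of_jump 𝔓 N' h hζ h49 m hm hqm hd hbr W y hyK hyQ hα hβ hJ heig' hne
  rcases hX with hX | hX
  · refine ⟨g₁ / g₂, Or.inl rfl, fun P hP => ⟨ξ P, ?_⟩, fun η hη => ?_⟩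
    · rw [Units.val_div_eq_div_val]
      exact (hval P hP).1
    · refine mltj4_xiClauses_congr 𝔓 N' h h49 m hbr W (fun P hP => ?_) hX
      have h1 := hη P hP
      rw [Units.val_div_eq_div_val] at h1
      exact Units.ext (h1.unique (hval P hP).1)
  · refine ⟨g₂ / g₃, Or.inr rfl, fun P hP => ⟨ξ' P, ?_⟩, fun η hη => ?_⟩
    · rw [Units.val_div_eq_div_val]
      exact (hval P hP).2
    · refine mltj4_xiClauses_congr 𝔓 N' h h49 m hbr W (fun P hP => ?_) hX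
      have h1 := hη P hP
      rw [Units.val_div_eq_div_val] at h1
      exact Units.ext (h1.unique (hval P hP).2)

end Fermat.Agent.MLT
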