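/-
MLT / [L2] / P4 (helper5), part 13: **the reductions of `α₂ β`**, `β ∈ 𝒪¹` of level `N' q`
(generic three-valuation base `t4vInput`; `res = (r₁, r₂)` the residue map of `t2iBase2`).

* `mltj4_R1_alpha`      : `ρ_inf (α₂ β) = r₁ β`;
* `mltj4_alpha_zero_iff` : `v_0 (α₂ β) < 1 ↔ r₂ β = 0`;
* `mltj4_O10_lt_iff`     : `v_{O¹_0} β < 1 ↔ r₂ β = 0`.
-/
import Fermat.Agent.Lib.T4.Inst.ResInt
import Fermat.Agent.Lib.T4.Reg.TopReg

set_option autoImplicit false
set_option linter.unusedSectionVars false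
set_option linter.unusedVariables false
set_option linter.style.haveILetI false
set_option synthInstance.maxHeartbeats 400000

open HahnSeries ModularCurve AlgebraicCurve Fermat.Agent.T1 Fermat.Agent.T2 Fermat.Agent.T4

noncomputable section

namespace Fermat.Agent.MLT

section Inst

attribute [local instance] t2iAlgebra t2i_isScalarTower

variable {L : Type} [Field L] [Algebra ℚ L] (O : ValuationSubring L) {k : Type*} [Field k]
  (π : ↥O →+* k) [IsDiscreteValuationRing ↥O] (hπ : Function.Surjective π) [IsAlgClosed k]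
  {N' q : ℕ} [NeZero N'] [hq : Fact q.Prime] [CharP k q] (hN' : (N' : k) ≠ 0)
  (W1 : T2iAL L N' q) (Fr : T2iFrob k N' q) (W : T4iAL L N' q)
  (hqO : Irreducible ((q : ℕ) : ↥O))
  {L' : Type*} [Field L'] [Algebra L L'] (O' : ValuationSubring L')
  [IsDiscreteValuationRing ↥O'] (π' : ↥O' →+* k) (C : T4iCyc O O' π π' q)
  (M : T4iMid L L' N' q C.ζ)

/-- `ρ_inf (α₂ β) = r₁ β` -/
theorem mltj4_R1_alpha (β : ↥(t2iBase2 O π hπ hN' W1 Fr).Ov) :
    t4vmR1 O π hπ hN' W1 Fr W hqO O' π' C M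
        ((t4vInput O π hπ hN' W1 Fr W hqO O' π' C M).αO β) =
      ((t2iBase2 O π hπ hN' W1 Fr).res β).1 :=
  Subtype.ext ((t4vInput O π hπ hN' W1 Fr W hqO O' π' C M).ρ₁_α β)

include hqO M in
/-- `v_0 (α₂ β) < 1 ↔ r₂ β = 0` -/
theorem mltj4_alpha_zero_iff (β : ↥(t2iBase2 O π hπ hN' W1 Fr).Ov) :
    (t4vO0 O π hπ W).valuation
        (algebraMap ↥(TaF L (N' * q)) ↥(TaF L (N' * q * q)) (β : ↥(TaF L (N' * q)))) < 1 ↔
      ((t2iBase2 O π hπ hN' W1 Fr).res β).2 = 0 := by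
  have h1 := t4vr_ρ₃_eq_zero_iff O π hπ hN' W1 Fr W hqO O' π' C M
    ((t4vInput O π hπ hN' W1 Fr W hqO O' π' C M).αO β)
  rw [(t4vInput O π hπ hN' W1 Fr W hqO O' π' C M).ρ₃_α β] at h1
  refine h1.symm.trans ?_
  constructor
  · intro h0
    have h2 : (t4vInput O π hπ hN' W1 Fr W hqO O' π' C M).r2 β = 0 :=
      qExpand_injective (R := k) q (h0.trans (map_zero _).symm)
    exact Subtype.ext h2
  · intro h0
    have h2 : (t4vInput O π hπ hN' W1 Fr W hqO O' π' C M).r2 β = 0 :=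
      congrArg (fun t : ↥(modularFunctionFieldFullC k N') => (t : LaurentSeries k)) h0
    rw [h2]
    exact map_zero _

include W hqO M in
/-- `v_{O¹_0} β < 1 ↔ r₂ β = 0` -/
theorem mltj4_O10_lt_iff (β : ↥(t2iBase2 O π hπ hN' W1 Fr).Ov) :
    (t4rtO10 O π hπ W1).valuation (β : ↥(TaF L (N' * q))) < 1 ↔
      ((t2iBase2 O π hπ hN' W1 Fr).res β).2 = 0 := by
  rw [← mltj4_alpha_zero_iff O π hπ hN' W1 Fr W hqO O' π' C M β, ← t4rt_comapA_zero O π hπ W1 W,
    t4l_valuation_comap_lt_one]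

end Inst

end Fermat.Agent.MLT
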