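/-
MLT / [L2] / P4 (helper5), part 12: **the point of a place** (abstract `MltJ4Red` language; the converse
of `MltJ4Red.exists_placeAt`).

For a reduction `R : MltJ4Red P Ov hBO cst V E z` and a place `Pl` of `E / k` which is finite on the chart
`z`, the kernel `R.pointAt Pl hPl` of the evaluation `b ↦ (ρ b)(Pl)` is a closed point of `P.B`, `V`
passes through it and `Pl` is this point on the branch `V`.
-/
import Fermat.Agent.Lib.MLT.L2.P4.Bridge
import Fermat.Agent.Lib.Delta.NodeX.Point

set_option autoImplicit false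
set_option linter.unusedSectionVars false
set_option linter.unusedVariables false
set_option linter.style.haveILetI false

namespace Fermat.Agent.MLT

open Fermat.Agent.T4 Fermat.Agent.Delta AlgebraicCurve Fermat.Agent.Curve
  Fermat.Agent.Curve.PlaceAux

namespace MltJ4Red

variable {F : Type*} [Field F] {P : T4Pres F} {Ov : Subring F} {hBO : P.B ≤ Ov}
  {k : Type*} [Field k] {cst : k → ↥P.B} {V : ValuationSubring F}
  {E : Type*} [Field E] [Algebra k E] {z : E}
  (R : MltJ4Red P Ov hBO cst V E z) [IsAlgClosed k] [hz : Fact (IsFunctionFieldGen k E z)]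
  (Pl : Place k E) (hPl : 0 ≤ Pl.ord z)

include hPl in
/-- the reductions of the elements of the chart ring are regular at the places of the chart -/
theorem ρB_regular (b : ↥P.B) : R.ρB b ∈ Pl.toValuationSubring :=
  mem_of_ord_nonneg Pl (Fermat.Agent.T1.ta_ord_nonneg_of_isIntegral (R.int b) Pl hPl)

/-- evaluation of the chart ring at a place of the chart -/
noncomputable def evAt : ↥P.B →+* k :=
  dlxEval Pl ⟨z, hz.out⟩ R.ρB (fun b => R.ρB_regular Pl hPl b)

theorem evAt_eq_iff {b : ↥P.B} {c : k} : R.evAt Pl hPl b = c ↔ DlgVal Pl (R.ρB b) c :=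
  dlxEval_eq_iff _ _ _ _

theorem evAt_cst (c : k) : R.evAt Pl hPl (cst c) = c := by
  rw [evAt_eq_iff, R.ρB_cst]
  exact DlgVal.const Pl c

theorem evAt_surjective : Function.Surjective (R.evAt Pl hPl) :=
  fun c => ⟨cst c, R.evAt_cst Pl hPl c⟩

/-- **the point of the place `Pl`** on the branch `V` -/
noncomputable def pointAt : Ideal ↥P.B := RingHom.ker (R.evAt Pl hPl)

instance pointAt_isMaximal : (R.pointAt Pl hPl).IsMaximal :=
  RingHom.ker_isMaximal_of_surjective _ (R.evAt_surjective Pl hPl)

theorem mem_pointAt {b : ↥P.B} : b ∈ R.pointAt Pl hPl ↔ OrdGE Pl (R.ρB b) 1 := by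
  rw [pointAt, RingHom.mem_ker, evAt_eq_iff]
  unfold DlgVal
  rw [map_zero, sub_zero]

/-- the place is its point -/
theorem placeAt_pointAt : R.PlaceAt (R.pointAt Pl hPl) Pl :=
  ⟨hPl, fun b => R.mem_pointAt Pl hPl⟩

/-- `V` passes through the point of a place -/
theorem through_pointAt (hV : V ∈ P.vals) : V ∈ P.through (R.pointAt Pl hPl) := by
  refine ⟨hV, fun b hb => ?_⟩
  rw [mem_pointAt, (R.ρB_eq_zero_iff b).mpr hb, ordGE_iff]
  exact Or.inl rfl

end MltJ4Red

end Fermat.Agent.MLT
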