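/-
MLT / [L2] / P4 (helper5), part 11: **a closed point of chart 1 of level `N' q²` on the component `∞`
which lies over a node of level `N' q` (along `α₂`) is a triple point** (generic `T4rtTop`).

If only `O_inf` passed through `𝔫`, the local equation `b` of the branch `O¹_0` at the node `𝔫₁`
below (`a * b ∼ q`, REG1-G) would become a unit of `B_𝔫` (it is a unit at `O_inf`, which restricts to
`O¹_inf`, and at the horizontal valuation rings, where `a * b ∼ q` is a unit), although it lies in the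
maximal ideal of `(B₁)_𝔫₁`.

* **`mltj4_triple_of_node`**.
-/
import Fermat.Agent.Lib.T4.Reg.TopReg

set_option autoImplicit false
set_option linter.unusedSectionVars false
set_option linter.unusedVariables false
set_option linter.style.haveILetI false
set_option synthInstance.maxHeartbeats 400000

open HahnSeries ModularCurve AlgebraicCurve Fermat.Agent.T1 Fermat.Agent.T2 Fermat.Agent.T4

noncomputable section

namespace Fermat.Agent.MLT

section Top

variable {L : Type} [Field L] [Algebra ℚ L] {O : ValuationSubring L} {k : Type*} [Field k]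
  {π : ↥O →+* k} [IsDiscreteValuationRing ↥O] {hπ : Function.Surjective π} [IsAlgClosed k]
  {N' q : ℕ} [NeZero N'] [hq : Fact q.Prime] [CharP k q] (hN' : (N' : k) ≠ 0)
  {W1 : T2iAL L N' q} (Fr : T2iFrob k N' q) {W : T4iAL L N' q}
  (hqO : Irreducible ((q : ℕ) : ↥O))
  {L' : Type*} [Field L'] [Algebra L L'] {O' : ValuationSubring L'}
  [IsDiscreteValuationRing ↥O'] {π' : ↥O' →+* k} {C : T4iCyc O O' π π' q}
  {M : T4iMid L L' N' q C.ζ}
  {x1 : ↥(TaF L (N' * q))} {x : ↥(TaF L (N' * q * q))}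
  {P1 : T4Pres ↥(TaF L (N' * q))} {P : T4Pres ↥(TaF L (N' * q * q))}

attribute [local instance] t2iAlgebra

include hN' Fr hqO in
/-- **a point of the component `∞` over a node is a triple point** -/
theorem mltj4_triple_of_node (T : T4rtTop O π hπ W1 W O' π' C M x1 x P1 P)
    (hG : T4rtRegG O π hπ W1 P1) (𝔫 : Ideal P.B) [h𝔫 : 𝔫.IsMaximal]
    (hi : t4vOinf (N' := N') (q := q) O π hπ ∈ P.through 𝔫)
    (h10 : t4rtO10 O π hπ W1 ∈ P1.through (T.overA.under 𝔫)) :
    t4vOmid O π hπ O' π' C M ∈ P.through 𝔫 ∧ t4vO0 O π hπ W ∈ P.through 𝔫 := by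
  rcases T.trichotomy hN' Fr hqO hG 𝔫 with hone | ⟨-, -, hm, h0, -⟩
  swap
  · exact ⟨hm, h0⟩
  exfalso
  haveI := h𝔫.isPrime
  haveI : (T.overA.under 𝔫).IsMaximal := T.overA.under_isMaximal 𝔫
  haveI : (T.overA.under 𝔫).IsPrime := (T.overA.under_isMaximal 𝔫).isPrime
  have hcomap := T.hcomapA hN' Fr hqO
  have hivert : t4vOinf (N' := N') (q := q) O π hπ ∈ P.vert (t4vQ L N' q) := by
    rw [T.vert hqO]
    exact (mem_t4vwVer O π hπ W O' π' C M _).mpr (Or.inl rfl)
  have h1inf : taOv O π hπ (N' * q) ∈ P1.through (T.overA.under 𝔫) := by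
    have := T.overA.comap_mem_through hi (hcomap _ hi.1)
    rwa [t4rt_comapA_inf] at this
  obtain ⟨a, b, ha, hb, hab, hainf, ha0, hbinf, hb0⟩ :=
    hG _ (T.overA.under_isMaximal 𝔫) h1inf h10
  have hnu : ¬ IsUnit (⟨b, hb⟩ : ↥(P1.loc (T.overA.under 𝔫))) :=
    T4PresOver.not_isUnit_of_valuation_lt h10 hb
      (by rw [hb0]; exact t4rt_O10_valuation_q O π hπ W1 W hqO)
  have hnu' := T.overA.not_isUnit_locMap 𝔫 hnu
  apply hnu'
  rw [P.isUnit_loc_iff]
  have hb_ne : b ≠ 0 := by
    rintro rfl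
    rw [map_zero] at hbinf
    exact zero_ne_one hbinf
  refine ⟨?_, fun V hV => ?_⟩
  · rw [T4PresOver.coe_locMap]
    exact (map_ne_zero _).mpr hb_ne
  rw [T4PresOver.coe_locMap]
  show V.valuation (algebraMap ↥(TaF L (N' * q)) ↥(TaF L (N' * q * q)) b) = 1
  rw [← t4l_valuation_comap_eq_one]
  have hV1 := T.overA.comap_mem_through hV (hcomap V hV.1)
  by_cases hVq : V ∈ P.vert (t4vQ L N' q)
  · have hVi : V = t4vOinf (N' := N') (q := q) O π hπ := hone V hV hVq _ hi hivert
    rw [hVi, t4rt_comapA_inf]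
    exact hbinf
  · -- a horizontal valuation ring: `q` is a unit
    have hq1 : V.valuation (t4vQ L N' q) = 1 := by
      have hle : V.valuation (t4vQ L N' q) ≤ 1 :=
        (V.valuation_le_one_iff _).mpr (P.B_le hV.1 (t4rt_Q_mem_B T.vals))
      rcases lt_or_eq_of_le hle with hlt | heq
      · exact absurd ⟨hV.1, hlt⟩ hVq
      · exact heq
    have hq2 : (V.comap (algebraMap ↥(TaF L (N' * q)) ↥(TaF L (N' * q * q)))).valuation
        ((q : ℕ) : ↥(TaF L (N' * q))) = 1 := by
      rw [t4l_valuation_comap_eq_one, map_natCast, ← t4rt_Q_eq]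
      exact hq1
    have hab1 := hab _ hV1
    rw [hq2] at hab1
    exact (t4rt_valuation_eq_one_of_mul _ (P1.B_le hV1.1 ha) (hb _ hV1) hab1).2

end Top

end Fermat.Agent.MLT
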