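/-
MLT / [L2] / P4 (helper5), part 14: **the places of the triple points of chart 1 of level `N' p²` are the
supersingular places `mltjSS 𝔓 N' h h49`** (helper9's `Σ` of `Contracts/L2JL.lean`: the first branches of
the nodes of the special fibre of `X₀(N' p)`).

* `mltj4_nodes₁_iff`  : (abstract Σ-GLUE) `P` is the first branch of a node iff every `(b, 0) ∈ S` has
  `b(P) = 0`;
* `mltj4_hor_eq`, `mltj4_mem_P1_iff` : the chart ring of the symmetric chart `x_s` of level `N' p` is the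
  ring of `t4rLevFixPres1` (chart `j ^ Q - j`);
* **`mltj4_SS_of_triple`** : the place of a triple point is supersingular
  (`(b, 0) ∈ S` ⟹ `α₂ β` vanishes on `O_0` ⟹ `α₂ β ∈ 𝔫` ⟹ `b(Pl) = (ρ_inf (α₂ β))(Pl) = 0`);
* **`mltj4_triple_of_SS`** : every supersingular place is the place of a triple point
  (the point of `Pl` on the branch `∞` lies over a node of level `N' p`: `mltj4_triple_of_node`);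
* `mltj4_SS_iff`, `mltj4_triple_finite`.
-/
import Fermat.Agent.Lib.MLT.Contracts.L2JL
import Fermat.Agent.Lib.MLT.L2.P4.Roots
import Fermat.Agent.Lib.MLT.L2.P4.PointAt
import Fermat.Agent.Lib.MLT.L2.P4.TripleOfNode
import Fermat.Agent.Lib.MLT.L2.P4.AlphaRes
import Fermat.Agent.Lib.Delta.NodeX.InstH
import Fermat.Agent.Lib.Delta.NodeX.VertGen
import Fermat.Agent.Lib.T4.Reg.LevFixOut

set_option autoImplicit false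
set_option linter.unusedSectionVars false
set_option linter.unusedVariables false
set_option linter.style.haveILetI false
set_option synthInstance.maxHeartbeats 400000
set_option maxHeartbeats 1000000

open HahnSeries ModularCurve AlgebraicCurve Fermat.Agent.T1 Fermat.Agent.T2 IntermediateField
  Fermat.Agent.Curve Fermat.Agent.Curve.PlaceAux Fermat.Agent.TW Fermat.Agent.S05Lib Fermat.Agent.T4
  Fermat.Agent.Delta Fermat.Agent.S33 Fermat.Agent.S33Q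

noncomputable section

namespace Fermat.Agent.MLT

local notation "Qb" => AlgebraicClosure ℚ

/-! ### Abstract Σ-GLUE -/

section Abs

variable {k κ₁ κ₂ : Type*} [Field k] [Field κ₁] [Field κ₂] [Algebra k κ₁] [Algebra k κ₂]
  [IsAlgClosed k] {σ : Type*} [Fintype σ] (G : DlgData k κ₁ κ₂ σ)

/-- **the first branches of the nodes**: the places at which all `(b, 0) ∈ S` vanish -/
theorem mltj4_nodes₁_iff (P : Place k κ₁) :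
    (∃ Q, (P, Q) ∈ G.nodes) ↔
      0 ≤ P.ord G.x.1 ∧ ∀ b ∈ G.S, b.2 = 0 → OrdGE P b.1 1 := by
  constructor
  · rintro ⟨Q, hQ⟩
    refine ⟨(G.nodes_fin hQ).1, fun b hb hb2 => ?_⟩
    have h1 : DlgVal Q b.2 0 := by
      rw [hb2]
      exact DlgVal.zero Q
    have h2 : DlgVal P b.1 0 := (G.val_node hb hQ 0).mpr h1
    unfold DlgVal at h2
    rwa [map_zero, sub_zero] at h2
  · rintro ⟨hP, hvan⟩
    by_contra hfree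
    have hfree' : ∀ Q, (P, Q) ∉ G.nodes := fun Q hQ => hfree ⟨Q, hQ⟩
    obtain ⟨a, -, b, hb, hb1, hb2, -, -⟩ :=
      G.local_free₁ hP hfree' (f := 1) (c := 1) (DlgVal.one P)
    have h0 : DlgVal P b.1 0 := by
      unfold DlgVal
      rw [map_zero, sub_zero]
      exact hvan b hb hb2
    exact one_ne_zero (hb1.unique h0)

end Abs

/-! ### The two charts of level `N' q` have the same horizontal valuation rings -/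

section Hor

variable {L : Type*} [Field L] [Algebra ℚ L] {N' q : ℕ} [NeZero N'] [hq : Fact q.Prime]
  (W : T2iAL L N' q)

include W in
/-- `j(q ^ q)` is regular wherever `j` is -/
theorem mltj4_taGen_mem {V : ValuationSubring ↥(TaF L (N' * q))}
    (hL : ∀ c : L, algebraMap L ↥(TaF L (N' * q)) c ∈ V) (hj : taJ (N' * q) ∈ V) :
    taGen (N' * q) (dvd_mul_left q N') ∈ V := by
  obtain ⟨V', hV'⟩ : ∃ V' : ValuationSubring ↥(TaF L (N' * q)),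
      V' = V.comap (W.w : ↥(TaF L (N' * q)) →+* ↥(TaF L (N' * q))) := ⟨_, rfl⟩
  have hL' : ∀ c : L, algebraMap L ↥(TaF L (N' * q)) c ∈ V' := by
    intro c
    rw [hV']
    show W.w (algebraMap L ↥(TaF L (N' * q)) c) ∈ V
    rw [W.w.commutes]
    exact hL c
  have h1 : taGen (N' * q) (dvd_mul_left q N') ∈ V' := by
    rw [hV']
    show W.w (taGen (N' * q) (dvd_mul_left q N')) ∈ V
    rw [dlxv_w_taGen]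
    exact hj
  have h2 : taJ (N' * q) ∈ V' := dlxv_taJ_mem hL' h1
  rw [hV'] at h2
  have h3 : W.w (taJ (N' * q)) ∈ V := h2
  rwa [dlxv_w_taJ] at h3

/-- **the symmetric chart and the chart `j ^ Q − j` have the same horizontal valuation rings** -/
theorem mltj4_hor_eq {Q : ℕ} (hQ : 2 ≤ Q) :
    t4vpHor L (dlxvX W Q) = t4vpHor L (t4ri1X L (N' * q) Q) := by
  ext V
  constructor
  · rintro ⟨v, rfl, hx⟩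
    refine ⟨v, rfl, ?_⟩
    have hL : ∀ c : L, algebraMap L ↥(TaF L (N' * q)) c ∈ v.toValuationSubring :=
      v.algebraMap_mem'
    have hj := dlxv_taJ_mem_of_chart W hQ hL hx
    exact sub_mem (pow_mem hj Q) hj
  · rintro ⟨v, rfl, hx⟩
    refine ⟨v, rfl, ?_⟩
    have hL : ∀ c : L, algebraMap L ↥(TaF L (N' * q)) c ∈ v.toValuationSubring :=
      v.algebraMap_mem'
    have hj : taJ (N' * q) ∈ v.toValuationSubring := by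
      by_contra hj
      have h1 := dlxv_pow_sub_notMem v.toValuationSubring hj hQ
      have h2 : v.toValuationSubring.valuation (t4ri1X L (N' * q) Q) ≤ 1 :=
        (v.toValuationSubring.valuation_le_one_iff _).mpr hx
      exact absurd h2 (not_le.mpr h1)
    have hg := mltj4_taGen_mem W hL hj
    have h3 : W.w (taJ (N' * q) ^ Q - taJ (N' * q)) =
        taGen (N' * q) (dvd_mul_left q N') ^ Q - taGen (N' * q) (dvd_mul_left q N') := by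
      rw [map_sub, map_pow, dlxv_w_taJ]
    show dlxvX W Q ∈ v.toValuationSubring
    unfold dlxvX
    rw [h3]
    exact mul_mem (sub_mem (pow_mem hj Q) hj) (sub_mem (pow_mem hg Q) hg)

end Hor

/-! ### The inertia level -/

section Fix

attribute [local instance] t2i_dvr t2i_isAlgClosed t2i_charP t2i_fact t2iAlgebra t2i_isScalarTower
attribute [local instance 10000] dliAlgF dliAlgE

variable (𝔓 : FFPlace) (N' : ℕ) [NeZero N'] (h : ¬ 𝔓.p ∣ N') {ζ : Qb}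
  (hζ : IsPrimitiveRoot ζ 𝔓.p) (h49 : 4 ∣ N' ∨ 9 ∣ N')

section Setup

variable {n : ℕ} (su : T2Setup (t2iBase2Fix 𝔓 ⊤ N' h) (Fin n))
  (hx : su.x = t2gaX 𝔓 ⊤ N' h (𝔓.p ^ 2)) (hxb : su.xb = (s33qXi 𝔓 N', s33qXi 𝔓 N'))

include h49 hx hxb in
/-- the chart ring of the symmetric chart of level `N' p` is the ring of `t4rLevFixPres1` -/
theorem mltj4_mem_P1_iff (β : ↥(tbLevF 𝔓 (N' * 𝔓.p) (⊤ : Subgroup 𝔓.I))) :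
    (β ∈ t2Int (K := ↥(tbFix 𝔓 (⊤ : Subgroup 𝔓.I))) su.x ∧ β ∈ (t2iBase2Fix 𝔓 ⊤ N' h).Ov) ↔
      β ∈ (t4rLevFixPres1 𝔓 N' h (t4nsc_two_le 𝔓)).B := by
  have hvals : (dlxChart1 𝔓 ⊤ (t4cy_irreducible_p 𝔓) N' h h49 su hx hxb).P.vals =
      (t4rLevFixPres1 𝔓 N' h (t4nsc_two_le 𝔓)).vals := by
    rw [(dlxChart1 𝔓 ⊤ (t4cy_irreducible_p 𝔓) N' h h49 su hx hxb).hvals, t4rLevFixPres1_vals,
      dlxChart1_x, hx]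
    have h1 : t4vpHor ↥(tbFix 𝔓 (⊤ : Subgroup 𝔓.I)) (t2gaX 𝔓 ⊤ N' h (𝔓.p ^ 2)) =
        t4vpHor ↥(tbFix 𝔓 (⊤ : Subgroup 𝔓.I))
          (t4ri1X ↥(tbFix 𝔓 (⊤ : Subgroup 𝔓.I)) (N' * 𝔓.p) (𝔓.p * 𝔓.p)) := by
      rw [← sq]
      exact mltj4_hor_eq (t2iALFix 𝔓 ⊤ N' h) (by rw [sq]; exact t4nsc_two_le 𝔓)
    rw [h1]
    rfl
  rw [← mem_dlxChart1_B 𝔓 ⊤ (t4cy_irreducible_p 𝔓) N' h h49 su hx hxb, T4Pres.mem_iff,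
    T4Pres.mem_iff, hvals]

end Setup

include h49 in
/-- the place of a triple point is the first branch of a node of any setup at the level `⊤` -/
theorem mltj4_node_of_triple {n : ℕ} (su : T2Setup (t2iBase2Fix 𝔓 ⊤ N' h) (Fin n))
    (hx : su.x = t2gaX 𝔓 ⊤ N' h (𝔓.p ^ 2)) (hxb : su.xb = (s33qXi 𝔓 N', s33qXi 𝔓 N'))
    {𝔫 : Ideal ↥(t4vyPFix 𝔓 N' h hζ).B}
    (h𝔫 : MltJ4TriplePt 𝔓 N' h hζ 𝔫)
    {Pl : Place (IsLocalRing.ResidueField ↥𝔓.P) ↥(tbBarF 𝔓 N')}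
    (hp : MltJ4PlaceOf 𝔓 N' h hζ h49 𝔫 Pl) :
    ∃ Q, (Pl, Q) ∈ (dlgDataH 𝔓 ⊤ N' h h49 su hx hxb).nodes := by
  letI := t4cyAlgebra 𝔓 (le_top : t4cyH 𝔓 ζ ≤ ⊤)
  rw [mltj4_nodes₁_iff]
  have T := t4nsc_top_fix 𝔓 N' h hζ h49 (t4vyPFix 𝔓 N' h hζ) (t4vyPFix_vals 𝔓 N' h hζ)
    (mem_t4vyPFix_B 𝔓 N' h hζ)
  constructor
  · rw [dlgDataH_x']
    show 0 ≤ Pl.ord (s33qXi 𝔓 N')
    have hint : IsIntegral ↥(Algebra.adjoin (IsLocalRing.ResidueField ↥𝔓.P)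
        {taBarJ (IsLocalRing.ResidueField ↥𝔓.P) N'}) (s33qXi 𝔓 N') := by
      rw [dlg_xi_eq]
      exact isIntegral_algebraMap (x := (⟨_, t2sfXi_mem_adjoin (IsLocalRing.ResidueField ↥𝔓.P)
        𝔓.p N'⟩ : ↥(Algebra.adjoin (IsLocalRing.ResidueField ↥𝔓.P)
          {taBarJ (IsLocalRing.ResidueField ↥𝔓.P) N'})))
    exact ta_ord_nonneg_of_isIntegral hint Pl hp.finite
  · intro b hb hb2
    obtain ⟨β, hβ, rfl⟩ := (dlgDataH_mem_S 𝔓 ⊤ N' h h49 su hx hxb).mp hb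
    have hP1 := (mltj4_mem_P1_iff 𝔓 N' h h49 su hx hxb β).mp ⟨hβ.1, hβ.2⟩
    have hPB := T.overA.map_mem β hP1
    have hlt := (mltj4_alpha_zero_iff (tbFixO 𝔓 ⊤) (tbFixRes 𝔓 ⊤) (tbFixRes_surjective 𝔓 ⊤)
      (t2i_natCast_ne_zero 𝔓 h) (t2iALFix 𝔓 ⊤ N' h) (t2iFrobFix 𝔓 N') (t4iALFix 𝔓 ⊤ N' h)
      (t4cy_irreducible_p 𝔓) (tbFixO 𝔓 (t4cyH 𝔓 ζ)) (tbFixRes 𝔓 (t4cyH 𝔓 ζ)) (t4iCycFix 𝔓 hζ)
      (t4vMidFix 𝔓 N' h hζ) ⟨β, hβ.2⟩).mpr hb2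
    have hmem : (⟨_, hPB⟩ : ↥(t4vyPFix 𝔓 N' h hζ).B) ∈ 𝔫 := h𝔫.2.2.2.2 _ hlt
    have h1 := (hp.2 _).mp hmem
    have h2 := mltj4_R1_alpha (tbFixO 𝔓 ⊤) (tbFixRes 𝔓 ⊤) (tbFixRes_surjective 𝔓 ⊤)
      (t2i_natCast_ne_zero 𝔓 h) (t2iALFix 𝔓 ⊤ N' h) (t2iFrobFix 𝔓 N') (t4iALFix 𝔓 ⊤ N' h)
      (t4cy_irreducible_p 𝔓) (tbFixO 𝔓 (t4cyH 𝔓 ζ)) (tbFixRes 𝔓 (t4cyH 𝔓 ζ)) (t4iCycFix 𝔓 hζ)
      (t4vMidFix 𝔓 N' h hζ) ⟨β, hβ.2⟩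
    exact (congrArg (fun t : ↥(tbBarF 𝔓 N') => OrdGE Pl t 1) h2).mp h1

include h49 in
/-- **the place of a triple point is supersingular** -/
theorem mltj4_SS_of_triple {𝔫 : Ideal ↥(t4vyPFix 𝔓 N' h hζ).B}
    (h𝔫 : MltJ4TriplePt 𝔓 N' h hζ 𝔫)
    {Pl : Place (IsLocalRing.ResidueField ↥𝔓.P) ↥(tbBarF 𝔓 N')}
    (hp : MltJ4PlaceOf 𝔓 N' h hζ h49 𝔫 Pl) : Pl ∈ mltjSS 𝔓 N' h h49 := by
  obtain ⟨n, su, hx, hxb⟩ := s33q_exists_setup_level 𝔓 N' h h49 ⊤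
  exact ⟨n, su, hx, hxb, mltj4_node_of_triple 𝔓 N' h hζ h49 su hx hxb h𝔫 hp⟩

include h49 in
/-- **chart 1 has finitely many triple points** -/
theorem mltj4_triple_finite :
    {𝔫 : Ideal ↥(t4vyPFix 𝔓 N' h hζ).B | MltJ4TriplePt 𝔓 N' h hζ 𝔫}.Finite := by
  classical
  obtain ⟨n, su, hx, hxb⟩ := s33q_exists_setup_level 𝔓 N' h h49 ⊤
  refine Set.Finite.subset (Set.Finite.biUnion
    ((dlgDataH 𝔓 ⊤ N' h h49 su hx hxb).nodes₁.finite_toSet)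
    (fun Pl _ => Set.Subsingleton.finite
      (s := {𝔫 : Ideal ↥(t4vyPFix 𝔓 N' h hζ).B | MltJ4PlaceOf 𝔓 N' h hζ h49 𝔫 Pl}) ?_)) ?_
  · intro 𝔫 h1 𝔫' h2
    exact mltj4_pointOf_unique 𝔓 N' h hζ h49 h1 h2
  · intro 𝔫 h𝔫
    obtain ⟨Pl, hp⟩ := mltj4_exists_placeOf 𝔓 N' h hζ h49 h𝔫
    refine Set.mem_biUnion (x := Pl) ?_ hp
    rw [Finset.mem_coe, DlgData.mem_nodes₁]
    exact mltj4_node_of_triple 𝔓 N' h hζ h49 su hx hxb h𝔫 hp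

/-- a place of the chart `ξ` is a place of the chart `j̄` -/
theorem mltj4_ord_j_nonneg {Pl : Place (IsLocalRing.ResidueField ↥𝔓.P) ↥(tbBarF 𝔓 N')}
    (hfin : 0 ≤ Pl.ord (s33qXi 𝔓 N')) :
    0 ≤ Pl.ord (taBarJ (IsLocalRing.ResidueField ↥𝔓.P) N') := by
  have hξ : s33qXi 𝔓 N' ∈ Pl.toValuationSubring := mem_of_ord_nonneg Pl hfin
  apply ord_nonneg_of_mem
  by_contra hj
  have h1 := dlxv_pow_sub_notMem Pl.toValuationSubring hj (t2sf_two_le 𝔓.p)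
  have h2 : Pl.toValuationSubring.valuation (s33qXi 𝔓 N') ≤ 1 :=
    (Pl.toValuationSubring.valuation_le_one_iff _).mpr hξ
  rw [dlg_xi_eq, t2sfXi_eq, map_pow] at h2
  exact absurd h2 (not_le.mpr (one_lt_pow₀ h1 (Nat.succ_ne_zero _)))

include h49 in
/-- a point of the branch `∞` whose place is supersingular lies over a node of level `N' p` -/
theorem mltj4_node_under {n : ℕ} (su : T2Setup (t2iBase2Fix 𝔓 ⊤ N' h) (Fin n))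
    (hx : su.x = t2gaX 𝔓 ⊤ N' h (𝔓.p ^ 2)) (hxb : su.xb = (s33qXi 𝔓 N', s33qXi 𝔓 N'))
    {Pl : Place (IsLocalRing.ResidueField ↥𝔓.P) ↥(tbBarF 𝔓 N')}
    (hvan : ∀ b ∈ (dlgDataH 𝔓 ⊤ N' h h49 su hx hxb).S, b.2 = 0 → OrdGE Pl b.1 1)
    {𝔫 : Ideal ↥(t4vyPFix 𝔓 N' h hζ).B} (hp : MltJ4PlaceOf 𝔓 N' h hζ h49 𝔫 Pl)
    (b₁ : ↥(t4rLevFixPres1 𝔓 N' h (t4nsc_two_le 𝔓)).B)
    (hb₁ : (t4rtO10 (tbFixO 𝔓 ⊤) (tbFixRes 𝔓 ⊤) (tbFixRes_surjective 𝔓 ⊤)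
      (t2iALFix 𝔓 ⊤ N' h)).valuation (b₁ : ↥(tbLevF 𝔓 (N' * 𝔓.p) (⊤ : Subgroup 𝔓.I))) < 1)
    (c : ↥(t4vyPFix 𝔓 N' h hζ).B)
    (hc : (c : ↥(tbLevF 𝔓 (N' * 𝔓.p * 𝔓.p) (⊤ : Subgroup 𝔓.I))) =
      algebraMap ↥(TaF ↥(tbFix 𝔓 (⊤ : Subgroup 𝔓.I)) (N' * 𝔓.p))
        ↥(TaF ↥(tbFix 𝔓 (⊤ : Subgroup 𝔓.I)) (N' * 𝔓.p * 𝔓.p))
        (b₁ : ↥(tbLevF 𝔓 (N' * 𝔓.p) (⊤ : Subgroup 𝔓.I)))) :
    c ∈ 𝔫 := by
  letI := t4cyAlgebra 𝔓 (le_top : t4cyH 𝔓 ζ ≤ ⊤)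
  have hmem := (mltj4_mem_P1_iff 𝔓 N' h h49 su hx hxb b₁).mpr b₁.2
  have h2 := (mltj4_O10_lt_iff (tbFixO 𝔓 ⊤) (tbFixRes 𝔓 ⊤) (tbFixRes_surjective 𝔓 ⊤)
    (t2i_natCast_ne_zero 𝔓 h) (t2iALFix 𝔓 ⊤ N' h) (t2iFrobFix 𝔓 N') (t4iALFix 𝔓 ⊤ N' h)
    (t4cy_irreducible_p 𝔓) (tbFixO 𝔓 (t4cyH 𝔓 ζ)) (tbFixRes 𝔓 (t4cyH 𝔓 ζ)) (t4iCycFix 𝔓 hζ)
    (t4vMidFix 𝔓 N' h hζ) ⟨b₁, hmem.2⟩).mp hb₁
  have hS : (t2iBase2Fix 𝔓 ⊤ N' h).res ⟨b₁, hmem.2⟩ ∈ (dlgDataH 𝔓 ⊤ N' h h49 su hx hxb).S :=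
    (dlgDataH_mem_S 𝔓 ⊤ N' h h49 su hx hxb).mpr ⟨b₁, ⟨hmem.1, hmem.2⟩, rfl⟩
  have h3 := hvan _ hS h2
  have h4 := mltj4_R1_alpha (tbFixO 𝔓 ⊤) (tbFixRes 𝔓 ⊤) (tbFixRes_surjective 𝔓 ⊤)
    (t2i_natCast_ne_zero 𝔓 h) (t2iALFix 𝔓 ⊤ N' h) (t2iFrobFix 𝔓 N') (t4iALFix 𝔓 ⊤ N' h)
    (t4cy_irreducible_p 𝔓) (tbFixO 𝔓 (t4cyH 𝔓 ζ)) (tbFixRes 𝔓 (t4cyH 𝔓 ζ)) (t4iCycFix 𝔓 hζ)
    (t4vMidFix 𝔓 N' h hζ) ⟨b₁, hmem.2⟩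
  have key : ∀ f : ↥(t4vInput (tbFixO 𝔓 ⊤) (tbFixRes 𝔓 ⊤) (tbFixRes_surjective 𝔓 ⊤)
      (t2i_natCast_ne_zero 𝔓 h) (t2iALFix 𝔓 ⊤ N' h) (t2iFrobFix 𝔓 N') (t4iALFix 𝔓 ⊤ N' h)
      (t4cy_irreducible_p 𝔓) (tbFixO 𝔓 (t4cyH 𝔓 ζ)) (tbFixRes 𝔓 (t4cyH 𝔓 ζ)) (t4iCycFix 𝔓 hζ)
      (t4vMidFix 𝔓 N' h hζ)).Ov,
      (f : ↥(tbLevF 𝔓 (N' * 𝔓.p * 𝔓.p) (⊤ : Subgroup 𝔓.I))) =
        algebraMap ↥(TaF ↥(tbFix 𝔓 (⊤ : Subgroup 𝔓.I)) (N' * 𝔓.p))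
          ↥(TaF ↥(tbFix 𝔓 (⊤ : Subgroup 𝔓.I)) (N' * 𝔓.p * 𝔓.p))
          (b₁ : ↥(tbLevF 𝔓 (N' * 𝔓.p) (⊤ : Subgroup 𝔓.I))) →
      OrdGE Pl (t4vmR1 (tbFixO 𝔓 ⊤) (tbFixRes 𝔓 ⊤) (tbFixRes_surjective 𝔓 ⊤)
        (t2i_natCast_ne_zero 𝔓 h) (t2iALFix 𝔓 ⊤ N' h) (t2iFrobFix 𝔓 N') (t4iALFix 𝔓 ⊤ N' h)
        (t4cy_irreducible_p 𝔓) (tbFixO 𝔓 (t4cyH 𝔓 ζ)) (tbFixRes 𝔓 (t4cyH 𝔓 ζ)) (t4iCycFix 𝔓 hζ)
        (t4vMidFix 𝔓 N' h hζ) f) 1 := by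
    intro f hf
    have hf' : f = (t4vInput (tbFixO 𝔓 ⊤) (tbFixRes 𝔓 ⊤) (tbFixRes_surjective 𝔓 ⊤)
        (t2i_natCast_ne_zero 𝔓 h) (t2iALFix 𝔓 ⊤ N' h) (t2iFrobFix 𝔓 N') (t4iALFix 𝔓 ⊤ N' h)
        (t4cy_irreducible_p 𝔓) (tbFixO 𝔓 (t4cyH 𝔓 ζ)) (tbFixRes 𝔓 (t4cyH 𝔓 ζ)) (t4iCycFix 𝔓 hζ)
        (t4vMidFix 𝔓 N' h hζ)).αO ⟨b₁, hmem.2⟩ := Subtype.ext hf
    rw [hf']
    exact (congrArg (fun t : ↥(tbBarF 𝔓 N') => OrdGE Pl t 1) h4).mpr h3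
  rw [hp.2]
  exact key _ hc

include h49 in
/-- a point of the branch `∞` whose place is supersingular is a triple point -/
theorem mltj4_triple_of_vanish {n : ℕ} (su : T2Setup (t2iBase2Fix 𝔓 ⊤ N' h) (Fin n))
    (hx : su.x = t2gaX 𝔓 ⊤ N' h (𝔓.p ^ 2)) (hxb : su.xb = (s33qXi 𝔓 N', s33qXi 𝔓 N'))
    {Pl : Place (IsLocalRing.ResidueField ↥𝔓.P) ↥(tbBarF 𝔓 N')}
    (hvan : ∀ b ∈ (dlgDataH 𝔓 ⊤ N' h h49 su hx hxb).S, b.2 = 0 → OrdGE Pl b.1 1)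
    {𝔫 : Ideal ↥(t4vyPFix 𝔓 N' h hζ).B} [h𝔫 : 𝔫.IsMaximal]
    (hi : t4vOinfFix 𝔓 N' ∈ (t4vyPFix 𝔓 N' h hζ).through 𝔫)
    (hp : MltJ4PlaceOf 𝔓 N' h hζ h49 𝔫 Pl) : MltJ4TriplePt 𝔓 N' h hζ 𝔫 := by
  letI := t4cyAlgebra 𝔓 (le_top : t4cyH 𝔓 ζ ≤ ⊤)
  have T := t4nsc_top_fix 𝔓 N' h hζ h49 (t4vyPFix 𝔓 N' h hζ) (t4vyPFix_vals 𝔓 N' h hζ)
    (mem_t4vyPFix_B 𝔓 N' h hζ)
  have hG := t4rgf_regG0 𝔓 N' h (t4nsc_two_le 𝔓) h49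
  have h10 : t4rtO10 (tbFixO 𝔓 ⊤) (tbFixRes 𝔓 ⊤) (tbFixRes_surjective 𝔓 ⊤) (t2iALFix 𝔓 ⊤ N' h) ∈
      (t4rLevFixPres1 𝔓 N' h (t4nsc_two_le 𝔓)).through (T.overA.under 𝔫) := by
    refine ⟨?_, fun b₁ hb₁ => ?_⟩
    · rw [t4rLevFixPres1_vals]
      exact Or.inr ((mem_t4vwVer1 _ _ _ _ _).mpr (Or.inr rfl))
    · exact T.overA.mem_under.mpr
        (mltj4_node_under 𝔓 N' h hζ h49 su hx hxb hvan hp b₁ hb₁ (T.overA.incl b₁) rfl)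
  obtain ⟨hm, h0⟩ := mltj4_triple_of_node (t2i_natCast_ne_zero 𝔓 h) (t2iFrobFix 𝔓 N')
    (t4cy_irreducible_p 𝔓) T hG 𝔫 hi h10
  exact ⟨h𝔫, hi, hm, h0⟩

include h49 in
/-- **every supersingular place is the place of a triple point** -/
theorem mltj4_triple_of_SS {Pl : Place (IsLocalRing.ResidueField ↥𝔓.P) ↥(tbBarF 𝔓 N')}
    (hPl : Pl ∈ mltjSS 𝔓 N' h h49) :
    ∃ 𝔫 : Ideal ↥(t4vyPFix 𝔓 N' h hζ).B, MltJ4TriplePt 𝔓 N' h hζ 𝔫 ∧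
      MltJ4PlaceOf 𝔓 N' h hζ h49 𝔫 Pl := by
  letI := t4cyAlgebra 𝔓 (le_top : t4cyH 𝔓 ζ ≤ ⊤)
  haveI := mltj4_fix_gen 𝔓 N'
  obtain ⟨n, su, hx, hxb, hQ⟩ := hPl
  rw [mltj4_nodes₁_iff] at hQ
  obtain ⟨hfin, hvan⟩ := hQ
  rw [dlgDataH_x'] at hfin
  have hj := mltj4_ord_j_nonneg 𝔓 N' hfin
  have hp : MltJ4PlaceOf 𝔓 N' h hζ h49
      ((mltj4Red1 (t2iALFix 𝔓 ⊤ N' h) (t4iALFix 𝔓 ⊤ N' h)
        (t4cy_irreducible_p 𝔓) (tbFixO 𝔓 (t4cyH 𝔓 ζ)) (tbFixRes 𝔓 (t4cyH 𝔓 ζ)) (t4iCycFix 𝔓 hζ)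
        (t4vMidFix 𝔓 N' h hζ) (mltj4_fix_good 𝔓 N' h h49) (t4vyPFix 𝔓 N' h hζ)
        (mltj4_fix_hB 𝔓 N' h hζ) (mltj4_fix_hz 𝔓 N' h h49)).pointAt Pl hj) Pl :=
    MltJ4Red.placeAt_pointAt _ Pl hj
  have hi : t4vOinfFix 𝔓 N' ∈ (t4vyPFix 𝔓 N' h hζ).through
      ((mltj4Red1 (t2iALFix 𝔓 ⊤ N' h) (t4iALFix 𝔓 ⊤ N' h)
        (t4cy_irreducible_p 𝔓) (tbFixO 𝔓 (t4cyH 𝔓 ζ)) (tbFixRes 𝔓 (t4cyH 𝔓 ζ)) (t4iCycFix 𝔓 hζ)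
        (t4vMidFix 𝔓 N' h hζ) (mltj4_fix_good 𝔓 N' h h49) (t4vyPFix 𝔓 N' h hζ)
        (mltj4_fix_hB 𝔓 N' h hζ) (mltj4_fix_hz 𝔓 N' h h49)).pointAt Pl hj) := by
    refine MltJ4Red.through_pointAt _ Pl hj ?_
    rw [t4vyPFix_vals]
    exact Or.inr ((mem_t4vwVer _ _ _ _ _ _ _ _ _).mpr (Or.inl rfl))
  exact ⟨_, mltj4_triple_of_vanish 𝔓 N' h hζ h49 su hx hxb hvan hi hp, hp⟩

include h49 in
/-- **the supersingular places are the places of the triple points of chart 1** -/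
theorem mltj4_SS_iff (Pl : Place (IsLocalRing.ResidueField ↥𝔓.P) ↥(tbBarF 𝔓 N')) :
    Pl ∈ mltjSS 𝔓 N' h h49 ↔
      ∃ 𝔫 : Ideal ↥(t4vyPFix 𝔓 N' h hζ).B, MltJ4TriplePt 𝔓 N' h hζ 𝔫 ∧
        MltJ4PlaceOf 𝔓 N' h hζ h49 𝔫 Pl :=
  ⟨fun hPl => mltj4_triple_of_SS 𝔓 N' h hζ h49 hPl,
    fun ⟨_, h𝔫, hp⟩ => mltj4_SS_of_triple 𝔓 N' h hζ h49 h𝔫 hp⟩

end Fix

end Fermat.Agent.MLT
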