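/-
MLT / [L2] / P4 (helper5), part 6: **the three reductions of a chart of level `N' q²` as `MltJ4Red`**
(generic three-valuation base `t4vInput`, any chart presentation `P` of the chart ring
`B = IntCl(L[a0 y₀]) ∩ 𝒪` with a chart `y₀` of good reduction `G : T4vmGood … y₀`).

* `mltj4Red1`, `mltj4Red2`, `mltj4Red3` : the reductions `ρ_inf`, `ρ_mid`, `ρ_0 : 𝒪 → E'` restricted to
  the chart ring are `MltJ4Red` (for `ρ_0` if the elements `a2 f₀` lie in `B`: chart 1), with respect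
  to any `z` with `IntCl(k[z]) = IntCl(k[ȳ])`;
* **`mltj4_triple_place`** : at a closed point `𝔫` through which the three vertical valuation rings
  pass there is ONE place `Pl` of `E' / k` which is the point `𝔫` on each of the three branches
  (reduction table: `ρ_inf ∘ a0 = ρ_mid ∘ a0 = res`, `ρ_mid ∘ a2 = ρ_0 ∘ a2 = res`).
-/
import Fermat.Agent.Lib.MLT.L2.P4.Bridge
import Fermat.Agent.Lib.T4.Inst.ChartPt

set_option autoImplicit false
set_option linter.unusedSectionVars false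
set_option linter.unusedVariables false
set_option linter.style.haveILetI false
set_option synthInstance.maxHeartbeats 400000

open HahnSeries ModularCurve AlgebraicCurve Fermat.Agent.T1 Fermat.Agent.T2 Fermat.Agent.T4
  Fermat.Agent.Curve IntermediateField

noncomputable section

namespace Fermat.Agent.MLT

section Inst

attribute [local instance] t2iAlgebra t2i_isScalarTower

variable {L : Type} [Field L] [Algebra ℚ L] {O : ValuationSubring L} {k : Type*} [Field k]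
  {π : ↥O →+* k} [IsDiscreteValuationRing ↥O] {hπ : Function.Surjective π} [IsAlgClosed k]
  {N' q : ℕ} [NeZero N'] [hq : Fact q.Prime] [CharP k q] {hN' : (N' : k) ≠ 0}
  (W1 : T2iAL L N' q) {Fr : T2iFrob k N' q} (W : T4iAL L N' q)
  (hqO : Irreducible ((q : ℕ) : ↥O))
  {L' : Type*} [Field L'] [Algebra L L'] (O' : ValuationSubring L')
  [IsDiscreteValuationRing ↥O'] (π' : ↥O' →+* k) (C : T4iCyc O O' π π' q)
  (M : T4iMid L L' N' q C.ζ)
  {y0 : ↥(TaF L N')} (G : T4vmGood O π hπ hN' Fr y0)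
  (P : T4Pres ↥(TaF L (N' * q * q)))
  (hB : ∀ f, f ∈ P.B ↔ f ∈ t2Int (K := L) (t4vA0 L N' q y0) ∧
    f ∈ (t4vInput O π hπ hN' W1 Fr W hqO O' π' C M).Ov)
  {z : ↥(modularFunctionFieldFullC k N')}
  (hz : ∀ t : ↥(modularFunctionFieldFullC k N'),
    IsIntegral ↥(Algebra.adjoin k {G.yb}) t ↔ IsIntegral ↥(Algebra.adjoin k {z}) t)

/-- the reduction of a lifted constant -/
theorem mltj4_res_cst (c : k) :
    t2iRes O π hπ N' hN'
      ⟨algebraMap L ↥(TaF L N') ((Function.surjInv hπ c : ↥O) : L),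
        algebraMap_mem_taOv O π hπ N' (Function.surjInv hπ c)⟩ =
      algebraMap k ↥(modularFunctionFieldFullC k N') c := by
  rw [t4vk_res_const, Function.surjInv_eq hπ c]

/-- **the reduction at `∞` on the chart ring** -/
def mltj4Red1 : MltJ4Red P (t4vInput O π hπ hN' W1 Fr W hqO O' π' C M).Ov
    (t4vm_B_le W1 W hqO O' π' C M P hB) (t4vkCst W1 W hqO O' π' C M P hB)
    (t4vOinf (N' := N') (q := q) O π hπ) ↥(modularFunctionFieldFullC k N') z where
  ρ := t4vmR1 O π hπ hN' W1 Fr W hqO O' π' C M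
  ker := fun f => by
    rw [← t4vr_ρ₁_eq_zero_iff O π hπ hN' W1 Fr W hqO O' π' C M f, ← coe_t4vmR1]
    constructor
    · intro h0
      rw [h0]; rfl
    · intro h0
      exact Subtype.ext h0
  int := fun b => (hz _).mp
    (t4vm_int_R1 O π hπ hN' W1 Fr W hqO O' π' C M _ G.int
      (t4vm_B_le W1 W hqO O' π' C M P hB b.2) ((hB _).mp b.2).1)
  surj := fun t ht => by
    obtain ⟨f0, hf0, e⟩ := G.gr t ((hz t).mpr ht)
    refine ⟨⟨_, t4vm_a0_mem_B W1 W hqO O' π' C M P hB f0 hf0⟩, ?_⟩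
    rw [← e]
    exact t4vm_R1_A0 O π hπ hN' W1 Fr W hqO O' π' C M f0
  cst_eq := fun c => by
    rw [t4vk_incl_cst, t4vm_R1_A0, mltj4_res_cst]

/-- **the middle reduction on the chart ring** -/
def mltj4Red2 : MltJ4Red P (t4vInput O π hπ hN' W1 Fr W hqO O' π' C M).Ov
    (t4vm_B_le W1 W hqO O' π' C M P hB) (t4vkCst W1 W hqO O' π' C M P hB)
    (t4vOmid O π hπ O' π' C M) ↥(modularFunctionFieldFullC k N') z where
  ρ := t4vmR2 O π hπ hN' W1 Fr W hqO O' π' C M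
  ker := fun f => by
    rw [← t4vr_ρ₂_eq_zero_iff O π hπ hN' W1 Fr W hqO O' π' C M f, ← coe_t4vmR2]
    constructor
    · intro h0
      rw [h0]; rfl
    · intro h0
      exact Subtype.ext h0
  int := fun b => (hz _).mp
    (t4vm_int_R2 O π hπ hN' W1 Fr W hqO O' π' C M _ G.int
      (t4vm_B_le W1 W hqO O' π' C M P hB b.2) ((hB _).mp b.2).1)
  surj := fun t ht => by
    obtain ⟨f0, hf0, e⟩ := G.gr t ((hz t).mpr ht)
    refine ⟨⟨_, t4vm_a0_mem_B W1 W hqO O' π' C M P hB f0 hf0⟩, ?_⟩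
    rw [← e]
    exact t4vm_R2_A0 O π hπ hN' W1 Fr W hqO O' π' C M f0
  cst_eq := fun c => by
    rw [t4vk_incl_cst, t4vm_R2_A0, mltj4_res_cst]

variable (hA2 : ∀ f0 : ↥(taOv O π hπ N'), (f0 : ↥(TaF L N')) ∈ t2Int (K := L) y0 →
  t4vA2 L N' q (f0 : ↥(TaF L N')) ∈ P.B)

/-- **the reduction at `0` on the chart ring** (chart 1: the elements `a2 f₀` lie in `B`) -/
def mltj4Red3 : MltJ4Red P (t4vInput O π hπ hN' W1 Fr W hqO O' π' C M).Ov
    (t4vm_B_le W1 W hqO O' π' C M P hB) (t4vkCst W1 W hqO O' π' C M P hB)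
    (t4vO0 O π hπ W) ↥(modularFunctionFieldFullC k N') z where
  ρ := t4vmR3 O π hπ hN' W1 Fr W hqO O' π' C M
  ker := fun f => by
    rw [← t4vr_ρ₃_eq_zero_iff O π hπ hN' W1 Fr W hqO O' π' C M f, ← coe_t4vmR3]
    constructor
    · intro h0
      rw [h0]; rfl
    · intro h0
      exact Subtype.ext h0
  int := fun b => (hz _).mp
    (t4vm_int_R3 O π hπ hN' W1 Fr W hqO O' π' C M _ G.int
      (t4vm_B_le W1 W hqO O' π' C M P hB b.2) ((hB _).mp b.2).1 G.phi_mem)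
  surj := fun t ht => by
    obtain ⟨f0, hf0, e⟩ := G.gr t ((hz t).mpr ht)
    refine ⟨⟨_, hA2 f0 hf0⟩, ?_⟩
    rw [← e]
    exact t4vm_R3_A2 O π hπ hN' W1 Fr W hqO O' π' C M f0
  cst_eq := fun c => by
    rw [t4vk_incl_cst, t4vm_R3_A0, mltj4_res_cst, t4vmPhi2_algebraMap]

variable [hgen : Fact (IsFunctionFieldGen k ↥(modularFunctionFieldFullC k N') z)]
  [hsep : Algebra.IsSeparable (IntermediateField.adjoin k {z}) ↥(modularFunctionFieldFullC k N')]

/-- **at a triple point the three branches pass through the SAME place of `E' / k`** -/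
theorem mltj4_triple_place {𝔫 : Ideal ↥P.B} [h𝔫 : 𝔫.IsMaximal]
    (hi : t4vOinf (N' := N') (q := q) O π hπ ∈ P.through 𝔫)
    (hm : t4vOmid O π hπ O' π' C M ∈ P.through 𝔫) (h0 : t4vO0 O π hπ W ∈ P.through 𝔫) :
    ∃ Pl : Place k ↥(modularFunctionFieldFullC k N'),
      (mltj4Red1 W1 W hqO O' π' C M G P hB hz).PlaceAt 𝔫 Pl ∧
      (mltj4Red2 W1 W hqO O' π' C M G P hB hz).PlaceAt 𝔫 Pl ∧
      (mltj4Red3 W1 W hqO O' π' C M G P hB hz hA2).PlaceAt 𝔫 Pl := by
  obtain ⟨Pl₁, h₁⟩ := (mltj4Red1 W1 W hqO O' π' C M G P hB hz).exists_placeAt hi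
  obtain ⟨Pl₂, h₂⟩ := (mltj4Red2 W1 W hqO O' π' C M G P hB hz).exists_placeAt hm
  obtain ⟨Pl₃, h₃⟩ := (mltj4Red3 W1 W hqO O' π' C M G P hB hz hA2).exists_placeAt h0
  have e12 : Pl₁ = Pl₂ := by
    refine h₁.eq_of_agree h₂ (fun t ht => ?_)
    obtain ⟨f0, hf0, e⟩ := G.gr t ((hz t).mpr ht)
    refine ⟨⟨_, t4vm_a0_mem_B W1 W hqO O' π' C M P hB f0 hf0⟩, ?_, ?_⟩
    · rw [← e]
      exact t4vm_R1_A0 O π hπ hN' W1 Fr W hqO O' π' C M f0
    · rw [← e]
      exact t4vm_R2_A0 O π hπ hN' W1 Fr W hqO O' π' C M f0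
  have e23 : Pl₂ = Pl₃ := by
    refine h₂.eq_of_agree h₃ (fun t ht => ?_)
    obtain ⟨f0, hf0, e⟩ := G.gr t ((hz t).mpr ht)
    refine ⟨⟨_, hA2 f0 hf0⟩, ?_, ?_⟩
    · rw [← e]
      exact t4vm_R2_A2 O π hπ hN' W1 Fr W hqO O' π' C M f0
    · rw [← e]
      exact t4vm_R3_A2 O π hπ hN' W1 Fr W hqO O' π' C M f0
  subst e12
  subst e23
  exact ⟨Pl₁, h₁, h₂, h₃⟩

end Inst

end Fermat.Agent.MLT
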