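/-
MLT / [L2] / P4 (helper5), part 10: **the global strip** (abstract `T4Pres` language).

`y ≠ 0` an element of `F` which is, at every valuation ring through the finitely many regular closed
points `𝔫 ∈ T`, an `m`-th power times a unit.  Then ONE element `t ≠ 0` makes `t ^ m * y` a unit at
all valuation rings through all the points of `T` (the semi-local ring of `T` has trivial Picard
group).

* `mltj4_strip_local` : at one regular point there is `x ≠ 0` with `x ^ m * y ∈ B`, a unit at all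
  valuation rings through the point;
* `mltj4_exists_sep`  : `e ∈ B ∖ 𝔫` lying in all the other points of `T`;
* **`mltj4_strip`**.
-/
import Fermat.Agent.Lib.T4.Local.Gen
import Fermat.Agent.Lib.T4.Local.BranchVal

set_option autoImplicit false
set_option linter.unusedSectionVars false
set_option linter.unusedVariables false
set_option linter.style.haveILetI false

namespace Fermat.Agent.MLT

open Fermat.Agent.T4

variable {F : Type*} [Field F] (P : T4Pres F)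

/-- **a local generator which is integral everywhere**: at a regular point `𝔫` there is `x ≠ 0` with
`x ^ m * y ∈ B` and `x ^ m * y` a unit at all valuation rings through `𝔫` -/
theorem mltj4_strip_local [IsNoetherianRing P.B] (𝔫 : Ideal P.B) [h𝔫 : 𝔫.IsPrime]
    (hreg : P.RegAt 𝔫) {m : ℕ} (hm : m ≠ 0) {y : F} (hy : y ≠ 0)
    (hroot : ∀ V ∈ P.through 𝔫, ∃ t : F, V.valuation (t ^ m * y) = 1) :
    ∃ x : F, x ≠ 0 ∧ x ^ m * y ∈ P.B ∧ ∀ V ∈ P.through 𝔫, V.valuation (x ^ m * y) = 1 := by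
  obtain ⟨s, hs0, hs⟩ := P.exists_gen 𝔫 hreg hm hy hroot
  have hloc : s ^ m * y ∈ P.loc 𝔫 := fun V hV => (V.valuation_le_one_iff _).mp (hs V hV).le
  obtain ⟨c, hc, hcf⟩ := P.mem_loc_iff.mp hloc
  have hc0 : (c : F) ≠ 0 := by
    intro h0
    apply hc
    have : c = 0 := Subtype.ext h0
    rw [this]
    exact 𝔫.zero_mem
  refine ⟨s * (c : F), mul_ne_zero hs0 hc0, ?_, ?_⟩
  · obtain ⟨n, rfl⟩ : ∃ n, m = n + 1 := Nat.exists_eq_succ_of_ne_zero hm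
    have e1 : (s * (c : F)) ^ (n + 1) * y = (c : F) ^ n * ((c : F) * (s ^ (n + 1) * y)) := by ring
    rw [e1]
    exact P.B.mul_mem (P.B.pow_mem c.2 n) hcf
  · intro V hV
    have e1 : (s * (c : F)) ^ m * y = (c : F) ^ m * (s ^ m * y) := by ring
    rw [e1, map_mul, hs V hV, mul_one, map_pow, P.valuation_eq_one_of_not_mem hV hc, one_pow]

/-- an element of `B ∖ 𝔫` lying in all the other points of `T` -/
theorem mltj4_exists_sep (T : Finset (Ideal P.B)) (hmax : ∀ 𝔫 ∈ T, 𝔫.IsMaximal)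
    (𝔫 : Ideal P.B) (h𝔫 : 𝔫 ∈ T) :
    ∃ e : P.B, e ∉ 𝔫 ∧ ∀ 𝔫' ∈ T, 𝔫' ≠ 𝔫 → e ∈ 𝔫' := by
  classical
  haveI := hmax 𝔫 h𝔫
  haveI := (hmax 𝔫 h𝔫).isPrime
  have h3 : ∀ 𝔫' ∈ T.erase 𝔫, ∃ a : P.B, a ∈ 𝔫' ∧ a ∉ 𝔫 := by
    intro 𝔫' h𝔫'
    obtain ⟨hne', hmem⟩ := Finset.mem_erase.mp h𝔫'
    by_contra hcon
    push Not at hcon
    exact hne' ((hmax 𝔫' hmem).eq_of_le (hmax 𝔫 h𝔫).ne_top (fun a ha => hcon a ha))
  choose! a ha1 ha2 using h3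
  refine ⟨∏ 𝔫' ∈ T.erase 𝔫, a 𝔫', ?_, ?_⟩
  · intro hmem
    obtain ⟨𝔫', h𝔫', h⟩ := (Ideal.IsPrime.prod_mem_iff).mp hmem
    exact ha2 𝔫' h𝔫' h
  · intro 𝔫' h𝔫' hne'
    have hm' : 𝔫' ∈ T.erase 𝔫 := Finset.mem_erase.mpr ⟨hne', h𝔫'⟩
    exact Ideal.prod_mem 𝔫' hm' (ha1 𝔫' hm')

/-- **the global strip**: one element `t` makes `t ^ m * y` a unit at all valuation rings through
all the points of the finite set `T` of regular closed points -/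
theorem mltj4_strip [IsNoetherianRing P.B] (T : Finset (Ideal P.B))
    (hmax : ∀ 𝔫 ∈ T, 𝔫.IsMaximal) (hreg : ∀ 𝔫 ∈ T, P.RegAt 𝔫) {m : ℕ} (hm : m ≠ 0) {y : F}
    (hy : y ≠ 0)
    (hroot : ∀ 𝔫 ∈ T, ∀ V ∈ P.through 𝔫, ∃ t : F, V.valuation (t ^ m * y) = 1) :
    ∃ t : F, t ≠ 0 ∧ ∀ 𝔫 ∈ T, ∀ V ∈ P.through 𝔫, V.valuation (t ^ m * y) = 1 := by
  classical
  rcases T.eq_empty_or_nonempty with rfl | hne
  · exact ⟨1, one_ne_zero, fun 𝔫 h𝔫 => absurd h𝔫 (Finset.notMem_empty 𝔫)⟩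
  -- the local data
  have h1 : ∀ 𝔫 ∈ T, ∃ x : F, x ≠ 0 ∧ x ^ m * y ∈ P.B ∧
      ∀ V ∈ P.through 𝔫, V.valuation (x ^ m * y) = 1 := by
    intro 𝔫 h𝔫
    haveI := (hmax 𝔫 h𝔫).isPrime
    exact mltj4_strip_local P 𝔫 (hreg 𝔫 h𝔫) hm hy (hroot 𝔫 h𝔫)
  choose! x hx0 hxB hxU using h1
  have h2 : ∀ 𝔫 ∈ T, ∃ e : P.B, e ∉ 𝔫 ∧ ∀ 𝔫' ∈ T, 𝔫' ≠ 𝔫 → e ∈ 𝔫' :=
    fun 𝔫 h𝔫 => mltj4_exists_sep P T hmax 𝔫 h𝔫
  choose! e he1 he2 using h2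
  obtain ⟨t, ht⟩ : ∃ t : F, t = ∑ 𝔫 ∈ T, ((e 𝔫 : P.B) : F) * x 𝔫 := ⟨_, rfl⟩
  -- the main claim
  have key : ∀ 𝔫 ∈ T, ∀ V ∈ P.through 𝔫, V.valuation (t / x 𝔫) = 1 := by
    intro 𝔫 h𝔫
    haveI := hmax 𝔫 h𝔫
    haveI := (hmax 𝔫 h𝔫).isPrime
    have hr : ∀ 𝔫' ∈ T, x 𝔫' / x 𝔫 ∈ P.loc 𝔫 := by
      intro 𝔫' h𝔫' V hV
      have e1 : (x 𝔫' / x 𝔫) ^ m * (x 𝔫 ^ m * y) = x 𝔫' ^ m * y := by
        rw [div_pow, ← mul_assoc, div_mul_cancel₀ _ (pow_ne_zero m (hx0 𝔫 h𝔫))]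
      have e2 : V.valuation (x 𝔫' / x 𝔫) ^ m = V.valuation (x 𝔫' ^ m * y) := by
        rw [← e1, map_mul, hxU 𝔫 h𝔫 V hV, mul_one, map_pow]
      have h4 : V.valuation (x 𝔫' ^ m * y) ≤ 1 :=
        (V.valuation_le_one_iff _).mpr (P.B_le hV.1 (hxB 𝔫' h𝔫'))
      rw [← e2] at h4
      exact (V.valuation_le_one_iff _).mp ((pow_le_one_iff_of_nonneg zero_le hm).mp h4)
    obtain ⟨a, ha⟩ : ∃ a : ↥(P.loc 𝔫), a = ∑ 𝔫' ∈ T.attach,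
        P.locIncl 𝔫 (e 𝔫'.1) * (⟨x 𝔫'.1 / x 𝔫, hr 𝔫'.1 𝔫'.2⟩ : ↥(P.loc 𝔫)) := ⟨_, rfl⟩
    have haF : (a : F) = t / x 𝔫 := by
      rw [ha, ht, Finset.sum_div, ← Finset.sum_attach T]
      rw [AddSubmonoidClass.coe_finsetSum]
      refine Finset.sum_congr rfl fun 𝔫' _ => ?_
      rw [Subring.coe_mul, T4Pres.coe_locIncl, mul_div_assoc]
    have hav : P.locVal 𝔫 a = Ideal.Quotient.mk 𝔫 (e 𝔫) := by
      rw [ha, map_sum]
      rw [Finset.sum_eq_single (⟨𝔫, h𝔫⟩ : {z // z ∈ T})]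
      · have e3 : (⟨x 𝔫 / x 𝔫, hr 𝔫 h𝔫⟩ : ↥(P.loc 𝔫)) = 1 :=
          Subtype.ext (div_self (hx0 𝔫 h𝔫))
        rw [map_mul, T4Pres.locVal_locIncl, e3, map_one, mul_one]
      · intro 𝔫' _ hne'
        have hne'' : 𝔫 ≠ 𝔫'.1 := fun h => hne' (Subtype.ext h.symm)
        rw [map_mul, T4Pres.locVal_locIncl,
          Ideal.Quotient.eq_zero_iff_mem.mpr (he2 𝔫'.1 𝔫'.2 𝔫 h𝔫 hne''), zero_mul]
      · intro h
        exact absurd (Finset.mem_attach T _) h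
    have hu : IsUnit a := by
      by_contra hnu
      have h5 := (P.locVal_eq_zero_iff a).mpr hnu
      rw [hav] at h5
      exact he1 𝔫 h𝔫 (Ideal.Quotient.eq_zero_iff_mem.mp h5)
    intro V hV
    rw [← haF]
    exact ((P.isUnit_loc_iff a).mp hu).2 V hV
  have hfin : ∀ 𝔫 ∈ T, ∀ V ∈ P.through 𝔫, V.valuation (t ^ m * y) = 1 := by
    intro 𝔫 h𝔫 V hV
    have e1 : t ^ m * y = (t / x 𝔫) ^ m * (x 𝔫 ^ m * y) := by
      rw [div_pow, ← mul_assoc, div_mul_cancel₀ _ (pow_ne_zero m (hx0 𝔫 h𝔫))]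
    rw [e1, map_mul, map_pow, key 𝔫 h𝔫 V hV, one_pow, one_mul, hxU 𝔫 h𝔫 V hV]
  refine ⟨t, ?_, hfin⟩
  obtain ⟨𝔫, h𝔫⟩ := hne
  obtain ⟨V₀, hV₀, -⟩ := hreg 𝔫 h𝔫
  rintro rfl
  have := key 𝔫 h𝔫 V₀ hV₀
  rw [zero_div, map_zero] at this
  exact zero_ne_one this

end Fermat.Agent.MLT
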