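/-
MLT / [L2] / P4 (helper5), part 15: **strips at the triple points** (inertia level `N' p²`,
`(D, B) = (t4niAFix, t4niBFix)`, chart 1 = `t4vyPFix`).

* `mltj4_regAt_triple`    : chart 1 is regular at the triple points;
* `mltj4_val_one_of_mem_U`, `mltj4_mem_U_of_val_one` : `D.U` = the units at the three vertical valuation
  rings;
* `mltj4_hroot_point`     : a Kummer unit `y ∈ D.U` is, at every valuation ring of chart 1, an `m`-th power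
  times a unit;
* **`mltj4_exists_strip_local`**  : at a triple point `𝔫` there is `s ∈ D.U` with `s ^ m * y` a unit at all
  valuation rings through `𝔫`;
* **`mltj4_exists_strip_global`** : ONE `t ∈ D.U` which does this at all the triple points.
-/
import Fermat.Agent.Lib.MLT.L2.P4.Ident
import Fermat.Agent.Lib.MLT.L2.P4.Strip

set_option autoImplicit false
set_option linter.unusedSectionVars false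
set_option linter.unusedVariables false
set_option linter.style.haveILetI false
set_option synthInstance.maxHeartbeats 400000
set_option maxHeartbeats 1000000

open HahnSeries ModularCurve AlgebraicCurve Fermat.Agent.T1 Fermat.Agent.T2 IntermediateField
  Fermat.Agent.Curve Fermat.Agent.Curve.PlaceAux Fermat.Agent.TW Fermat.Agent.S05Lib Fermat.Agent.T4
  Fermat.Agent.Delta

noncomputable section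

namespace Fermat.Agent.MLT

local notation "Qb" => AlgebraicClosure ℚ

attribute [local instance] t2i_dvr t2i_isAlgClosed t2i_charP t2i_fact t2iAlgebra t2i_isScalarTower

variable (𝔓 : FFPlace) (N' : ℕ) [NeZero N'] (h : ¬ 𝔓.p ∣ N') {ζ : Qb}
  (hζ : IsPrimitiveRoot ζ 𝔓.p) (h49 : 4 ∣ N' ∨ 9 ∣ N')

include h49 in
/-- **chart 1 is regular at the triple points** -/
theorem mltj4_regAt_triple {𝔫 : Ideal ↥(t4vyPFix 𝔓 N' h hζ).B}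
    (h𝔫 : MltJ4TriplePt 𝔓 N' h hζ 𝔫) : (t4vyPFix 𝔓 N' h hζ).RegAt 𝔫 := by
  letI := t4cyAlgebra 𝔓 (le_top : t4cyH 𝔓 ζ ≤ ⊤)
  haveI := h𝔫.1
  have hQ := t4nsc_two_le 𝔓
  have G := mltj4_fix_good 𝔓 N' h h49
  haveI := t4vg_dedekind_X 𝔓 ⊤ N' h hQ G
  have T := t4nsc_top_fix 𝔓 N' h hζ h49 (t4vyPFix 𝔓 N' h hζ) (t4vyPFix_vals 𝔓 N' h hζ)
    (mem_t4vyPFix_B 𝔓 N' h hζ)
  have hG := t4rgf_regG0 𝔓 N' h hQ h49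
  exact T.regAt_triple (t2i_natCast_ne_zero 𝔓 h) (t2iFrobFix 𝔓 N') (t4cy_irreducible_p 𝔓) hG 𝔫
    h𝔫.2.1 (Or.inl h𝔫.2.2.1)
    (t4vm_smoothAt_inf (t2iALFix 𝔓 ⊤ N' h) (t4iALFix 𝔓 ⊤ N' h) (t4cy_irreducible_p 𝔓)
      (tbFixO 𝔓 (t4cyH 𝔓 ζ)) (tbFixRes 𝔓 (t4cyH 𝔓 ζ)) (t4iCycFix 𝔓 hζ) (t4vMidFix 𝔓 N' h hζ) G
      (t4vyPFix 𝔓 N' h hζ) (mltj4_fix_hB 𝔓 N' h hζ) h𝔫.2.1)

/-- the units of `D` are units at the three vertical valuation rings -/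
theorem mltj4_val_one_of_mem_U {m : ℕ} {y : (↥(tbLevF 𝔓 (N' * 𝔓.p * 𝔓.p) ⊤))ˣ}
    (hy : y ∈ (t4niAFix 𝔓 N' h hζ m).U) :
    (t4vOinfFix 𝔓 N').valuation (y : ↥(tbLevF 𝔓 (N' * 𝔓.p * 𝔓.p) ⊤)) = 1 ∧
    (t4vOmidFix 𝔓 N' h hζ).valuation (y : ↥(tbLevF 𝔓 (N' * 𝔓.p * 𝔓.p) ⊤)) = 1 ∧
    (t4vO0Fix 𝔓 N' h).valuation (y : ↥(tbLevF 𝔓 (N' * 𝔓.p * 𝔓.p) ⊤)) = 1 := by
  letI := t4cyAlgebra 𝔓 (le_top : t4cyH 𝔓 ζ ≤ ⊤)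
  obtain ⟨h1, h2⟩ := t4ni_mem_Ov_of_mem_U (tbFixO 𝔓 ⊤) (tbFixRes 𝔓 ⊤) (tbFixRes_surjective 𝔓 ⊤)
    (t2i_natCast_ne_zero 𝔓 h) (t2iALFix 𝔓 ⊤ N' h) (t2iFrobFix 𝔓 N') (t4iALFix 𝔓 ⊤ N' h)
    (t4cy_irreducible_p 𝔓) (tbFixO 𝔓 (t4cyH 𝔓 ζ)) (tbFixRes 𝔓 (t4cyH 𝔓 ζ)) (t4iCycFix 𝔓 hζ)
    (t4vMidFix 𝔓 N' h hζ) m (t4ni_happrox (tbFixO 𝔓 ⊤) (tbFixRes 𝔓 ⊤) (tbFixRes_surjective 𝔓 ⊤)
    (t2i_natCast_ne_zero 𝔓 h) (t2iALFix 𝔓 ⊤ N' h) (t2iFrobFix 𝔓 N') (t4iALFix 𝔓 ⊤ N' h)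
    (t4cy_irreducible_p 𝔓) (tbFixO 𝔓 (t4cyH 𝔓 ζ)) (tbFixRes 𝔓 (t4cyH 𝔓 ζ)) (t4iCycFix 𝔓 hζ)
    (t4vMidFix 𝔓 N' h hζ)) hy
  obtain ⟨a1, a2, a3⟩ := (mem_t4vInput_Ov_iff _ _ _ _ _ _ _ _ _ _ _ _ _).mp h1
  rw [Units.val_inv_eq_inv_val] at h2
  obtain ⟨b1, b2, b3⟩ := (mem_t4vInput_Ov_iff _ _ _ _ _ _ _ _ _ _ _ _ _).mp h2
  exact ⟨t4vs_valuation_unit _ y.ne_zero a1 b1, t4vs_valuation_unit _ y.ne_zero a3 b3,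
    t4vs_valuation_unit _ y.ne_zero a2 b2⟩

/-- the units at the three vertical valuation rings are the units of `D` -/
theorem mltj4_mem_U_of_val_one {m : ℕ} {y : (↥(tbLevF 𝔓 (N' * 𝔓.p * 𝔓.p) ⊤))ˣ}
    (h1 : (t4vOinfFix 𝔓 N').valuation (y : ↥(tbLevF 𝔓 (N' * 𝔓.p * 𝔓.p) ⊤)) = 1)
    (h2 : (t4vOmidFix 𝔓 N' h hζ).valuation (y : ↥(tbLevF 𝔓 (N' * 𝔓.p * 𝔓.p) ⊤)) = 1)
    (h3 : (t4vO0Fix 𝔓 N' h).valuation (y : ↥(tbLevF 𝔓 (N' * 𝔓.p * 𝔓.p) ⊤)) = 1) :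
    y ∈ (t4niAFix 𝔓 N' h hζ m).U := by
  letI := t4cyAlgebra 𝔓 (le_top : t4cyH 𝔓 ζ ≤ ⊤)
  have key : ∀ V : ValuationSubring ↥(tbLevF 𝔓 (N' * 𝔓.p * 𝔓.p) ⊤),
      V.valuation (y : ↥(tbLevF 𝔓 (N' * 𝔓.p * 𝔓.p) ⊤)) = 1 →
      (y : ↥(tbLevF 𝔓 (N' * 𝔓.p * 𝔓.p) ⊤)) ∈ V ∧
        ((y⁻¹ : (↥(tbLevF 𝔓 (N' * 𝔓.p * 𝔓.p) ⊤))ˣ) : ↥(tbLevF 𝔓 (N' * 𝔓.p * 𝔓.p) ⊤)) ∈ V := by
    intro V hV
    refine ⟨(V.valuation_le_one_iff _).mp hV.le, (V.valuation_le_one_iff _).mp ?_⟩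
    rw [Units.val_inv_eq_inv_val, map_inv₀, hV, inv_one]
  obtain ⟨a1, b1⟩ := key _ h1
  obtain ⟨a2, b2⟩ := key _ h2
  obtain ⟨a3, b3⟩ := key _ h3
  exact t4ni_mem_U_of_mem_Ov (tbFixO 𝔓 ⊤) (tbFixRes 𝔓 ⊤) (tbFixRes_surjective 𝔓 ⊤)
    (t2i_natCast_ne_zero 𝔓 h) (t2iALFix 𝔓 ⊤ N' h) (t2iFrobFix 𝔓 N') (t4iALFix 𝔓 ⊤ N' h)
    (t4cy_irreducible_p 𝔓) (tbFixO 𝔓 (t4cyH 𝔓 ζ)) (tbFixRes 𝔓 (t4cyH 𝔓 ζ)) (t4iCycFix 𝔓 hζ)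
    (t4vMidFix 𝔓 N' h hζ) m _
    ((mem_t4vInput_Ov_iff _ _ _ _ _ _ _ _ _ _ _ _ _).mpr ⟨a1, a3, a2⟩)
    ((mem_t4vInput_Ov_iff _ _ _ _ _ _ _ _ _ _ _ _ _).mpr ⟨b1, b3, b2⟩)

/-- **a Kummer unit is, at every valuation ring of chart 1, an `m`-th power times a unit** -/
theorem mltj4_hroot_point {m : ℕ} {y : (↥(tbLevF 𝔓 (N' * 𝔓.p * 𝔓.p) ⊤))ˣ}
    (hy : y ∈ (t4niAFix 𝔓 N' h hζ m).U)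
    (hyK : y ∈ tWsub ↥(tbFix 𝔓 (⊤ : Subgroup 𝔓.I)) (N' * 𝔓.p * 𝔓.p) m)
    (V : ValuationSubring ↥(tbLevF 𝔓 (N' * 𝔓.p * 𝔓.p) ⊤)) (hV : V ∈ (t4vyPFix 𝔓 N' h hζ).vals) :
    ∃ t : ↥(tbLevF 𝔓 (N' * 𝔓.p * 𝔓.p) ⊤),
      V.valuation (t ^ m * (y : ↥(tbLevF 𝔓 (N' * 𝔓.p * 𝔓.p) ⊤))) = 1 := by
  by_cases hv : V ∈ (t4vyPFix 𝔓 N' h hζ).vert (t4vQFix 𝔓 N')
  · obtain ⟨h1, h2, h3⟩ := mltj4_val_one_of_mem_U 𝔓 N' h hζ hy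
    rw [t4vyPFix_vert] at hv
    simp only [Set.mem_insert_iff, Set.mem_singleton_iff] at hv
    refine ⟨1, ?_⟩
    rw [one_pow, one_mul]
    rcases hv with rfl | rfl | rfl
    · exact h1
    · exact h2
    · exact h3
  · exact t4vyPFix_hroot 𝔓 N' h hζ y.ne_zero (mem_tWsub.mp hyK) V hV hv

include h49 in
/-- **the local strip**: at a triple point `𝔫` there is `s ∈ D.U` with `s ^ m * y` a unit at all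
valuation rings through `𝔫` -/
theorem mltj4_exists_strip_local {m : ℕ} (hm : m ≠ 0)
    {y : (↥(tbLevF 𝔓 (N' * 𝔓.p * 𝔓.p) ⊤))ˣ} (hy : y ∈ (t4niAFix 𝔓 N' h hζ m).U)
    (hyK : y ∈ tWsub ↥(tbFix 𝔓 (⊤ : Subgroup 𝔓.I)) (N' * 𝔓.p * 𝔓.p) m)
    {𝔫 : Ideal ↥(t4vyPFix 𝔓 N' h hζ).B} (h𝔫 : MltJ4TriplePt 𝔓 N' h hζ 𝔫) :
    ∃ s : ↥(t4niAFix 𝔓 N' h hζ m).U, ∀ V ∈ (t4vyPFix 𝔓 N' h hζ).through 𝔫,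
      V.valuation ((((s : (↥(tbLevF 𝔓 (N' * 𝔓.p * 𝔓.p) ⊤))ˣ)) :
        ↥(tbLevF 𝔓 (N' * 𝔓.p * 𝔓.p) ⊤)) ^ m * (y : ↥(tbLevF 𝔓 (N' * 𝔓.p * 𝔓.p) ⊤))) = 1 := by
  haveI := h𝔫.1
  haveI := h𝔫.1.isPrime
  haveI := t4vyPFix_noeth 𝔓 N' h hζ
  obtain ⟨s, hs0, hs⟩ := (t4vyPFix 𝔓 N' h hζ).exists_gen 𝔫 (mltj4_regAt_triple 𝔓 N' h hζ h49 h𝔫) hm
    y.ne_zero (fun V hV => mltj4_hroot_point 𝔓 N' h hζ hy hyK V hV.1)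
  obtain ⟨y1, y2, y3⟩ := mltj4_val_one_of_mem_U 𝔓 N' h hζ hy
  have key : ∀ V : ValuationSubring ↥(tbLevF 𝔓 (N' * 𝔓.p * 𝔓.p) ⊤),
      V ∈ (t4vyPFix 𝔓 N' h hζ).through 𝔫 →
      V.valuation (y : ↥(tbLevF 𝔓 (N' * 𝔓.p * 𝔓.p) ⊤)) = 1 → V.valuation s = 1 := by
    intro V hV hy1
    have h1 := hs V hV
    rw [map_mul, hy1, mul_one, map_pow] at h1
    exact (pow_eq_one_iff_of_nonneg zero_le hm).mp h1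
  refine ⟨⟨Units.mk0 s hs0, mltj4_mem_U_of_val_one 𝔓 N' h hζ (key _ h𝔫.2.1 y1)
    (key _ h𝔫.2.2.1 y2) (key _ h𝔫.2.2.2 y3)⟩, hs⟩

include h49 in
/-- **the global strip**: one `t ∈ D.U` makes `t ^ m * y` a unit at all valuation rings through all
the triple points -/
theorem mltj4_exists_strip_global {m : ℕ} (hm : m ≠ 0)
    {y : (↥(tbLevF 𝔓 (N' * 𝔓.p * 𝔓.p) ⊤))ˣ} (hy : y ∈ (t4niAFix 𝔓 N' h hζ m).U)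
    (hyK : y ∈ tWsub ↥(tbFix 𝔓 (⊤ : Subgroup 𝔓.I)) (N' * 𝔓.p * 𝔓.p) m) :
    ∃ t : ↥(t4niAFix 𝔓 N' h hζ m).U, ∀ 𝔫 : Ideal ↥(t4vyPFix 𝔓 N' h hζ).B,
      MltJ4TriplePt 𝔓 N' h hζ 𝔫 → ∀ V ∈ (t4vyPFix 𝔓 N' h hζ).through 𝔫,
      V.valuation ((((t : (↥(tbLevF 𝔓 (N' * 𝔓.p * 𝔓.p) ⊤))ˣ)) :
        ↥(tbLevF 𝔓 (N' * 𝔓.p * 𝔓.p) ⊤)) ^ m * (y : ↥(tbLevF 𝔓 (N' * 𝔓.p * 𝔓.p) ⊤))) = 1 := by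
  classical
  haveI := t4vyPFix_noeth 𝔓 N' h hζ
  have hfin := mltj4_triple_finite 𝔓 N' h hζ h49
  by_cases hne : ∃ 𝔫₀ : Ideal ↥(t4vyPFix 𝔓 N' h hζ).B, MltJ4TriplePt 𝔓 N' h hζ 𝔫₀
  · obtain ⟨𝔫₀, h𝔫₀⟩ := hne
    obtain ⟨t, ht0, ht⟩ := mltj4_strip (t4vyPFix 𝔓 N' h hζ) hfin.toFinset
      (fun 𝔫 h𝔫 => ((Set.Finite.mem_toFinset hfin).mp h𝔫).1)
      (fun 𝔫 h𝔫 => mltj4_regAt_triple 𝔓 N' h hζ h49 ((Set.Finite.mem_toFinset hfin).mp h𝔫)) hm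
      y.ne_zero (fun 𝔫 h𝔫 V hV => mltj4_hroot_point 𝔓 N' h hζ hy hyK V hV.1)
    have ht' : ∀ 𝔫 : Ideal ↥(t4vyPFix 𝔓 N' h hζ).B, MltJ4TriplePt 𝔓 N' h hζ 𝔫 →
        ∀ V ∈ (t4vyPFix 𝔓 N' h hζ).through 𝔫,
        V.valuation (t ^ m * (y : ↥(tbLevF 𝔓 (N' * 𝔓.p * 𝔓.p) ⊤))) = 1 :=
      fun 𝔫 h𝔫 => ht 𝔫 ((Set.Finite.mem_toFinset hfin).mpr h𝔫)
    obtain ⟨y1, y2, y3⟩ := mltj4_val_one_of_mem_U 𝔓 N' h hζ hy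
    have key : ∀ V : ValuationSubring ↥(tbLevF 𝔓 (N' * 𝔓.p * 𝔓.p) ⊤),
        V ∈ (t4vyPFix 𝔓 N' h hζ).through 𝔫₀ →
        V.valuation (y : ↥(tbLevF 𝔓 (N' * 𝔓.p * 𝔓.p) ⊤)) = 1 → V.valuation t = 1 := by
      intro V hV hy1
      have h1 := ht' 𝔫₀ h𝔫₀ V hV
      rw [map_mul, hy1, mul_one, map_pow] at h1
      exact (pow_eq_one_iff_of_nonneg zero_le hm).mp h1
    exact ⟨⟨Units.mk0 t ht0, mltj4_mem_U_of_val_one 𝔓 N' h hζ (key _ h𝔫₀.2.1 y1)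
      (key _ h𝔫₀.2.2.1 y2) (key _ h𝔫₀.2.2.2 y3)⟩, ht'⟩
  · exact ⟨1, fun 𝔫 h𝔫 => absurd ⟨𝔫, h𝔫⟩ hne⟩

end Fermat.Agent.MLT
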