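/-
MLT / [L2] / P4 (helper5), part 21: **(STRIP)** = helper9's contract `MltjStripAt` of `Contracts/L2GOut.lean`
at a rigid level `K` (`4 ∣ K ∨ 9 ∣ K`), exponent `p ≠ 0`.

`mltj4_stripAt` : a Kummer unit `y ∈ D.U` becomes a unit at all valuation rings through all triple points of
chart 1 after multiplication by `s ^ p`, `s ∈ D.U` (= `mltj4_exists_strip_global` of `RegTriple.lean`: the triple
points are finitely many regular points, the semi-local ring has trivial Picard group).
-/
import Fermat.Agent.Lib.MLT.Contracts.L2GOut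
import Fermat.Agent.Lib.MLT.L2.P4.RegTriple

set_option autoImplicit false
set_option linter.unusedSectionVars false
set_option linter.unusedVariables false
set_option linter.style.haveILetI false
set_option synthInstance.maxHeartbeats 400000
set_option maxHeartbeats 1000000

open HahnSeries ModularCurve AlgebraicCurve Fermat.Agent.T1 Fermat.Agent.T2 IntermediateField
  Fermat.Agent.Curve Fermat.Agent.Curve.PlaceAux Fermat.Agent.TW Fermat.Agent.S05Lib Fermat.Agent.T4
  Fermat.Agent.Delta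

noncomputable section

namespace Fermat.Agent.MLT

local notation "Qb" => AlgebraicClosure ℚ

/-- the coercion of `y * s ^ m` (abstract) -/
theorem mltj4a_coe_mul_pow {F : Type*} [Field F] (U : Subgroup Fˣ) (y s : ↥U) (m : ℕ) :
    ((((y * s ^ m : ↥U) : Fˣ)) : F) = (((s : Fˣ)) : F) ^ m * (((y : Fˣ)) : F) := by
  rw [Subgroup.coe_mul, Subgroup.coe_pow, Units.val_mul, Units.val_pow_eq_pow_val, mul_comm]

attribute [local instance] t2i_dvr t2i_isAlgClosed t2i_charP t2i_fact t2iAlgebra t2i_isScalarTower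

variable (𝔓 : FFPlace) (K : ℕ) [NeZero K] (hK : ¬ 𝔓.p ∣ K) {ζ : Qb}
  (hζ : IsPrimitiveRoot ζ 𝔓.p) (h49 : 4 ∣ K ∨ 9 ∣ K)

include h49 in
/-- **(STRIP)** at a rigid level -/
theorem mltj4_stripAt (p : ℕ) (hp0 : p ≠ 0) : MltjStripAt 𝔓 K hK hζ p := by
  intro y hyK
  have hst := mltj4_exists_strip_global 𝔓 K hK hζ h49 hp0 y.2 hyK
  obtain ⟨t, ht⟩ := hst
  refine ⟨t, fun 𝔫 h𝔫 V hV => ?_⟩
  have h1 := ht 𝔫 h𝔫 V hV
  have e := mltj4a_coe_mul_pow (t4niAFix 𝔓 K hK hζ p).U y t p
  exact (congrArg (fun u => V.valuation u = 1) e).mpr h1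

end Fermat.Agent.MLT
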