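/-
MLT / [L2] / P4 (helper5), part 28: **THEOREM R, UNCONDITIONAL**:

  `mltj4_theoremRAt_main 𝔓 K hK hζ h49 p hp0 hpq W : MltjTheoremRAt 𝔓 K hK hζ h49 p hp0 hpq W`

= `mltj4_theoremRAt` (TheoremRAt.lean) with its two hypotheses discharged:
 * (d) `MltjTripleHeckeAt` by helper7's `mltj5_unit_triple` (`L2/HkTripleFix.lean`, origin/helper7 @29cee2b) —
   `mltj4_tripleHeckeAt` is the currying bridge;
 * (BR-SS) `MltjBrSSAt` by helper2's `mltj7_brSSAt` (`L2/P7/BrSS.lean`, origin/helper2 @91b89d7).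
-/
import Fermat.Agent.Lib.MLT.L2.P4.TheoremRAt
import Fermat.Agent.Lib.MLT.L2.HkTripleFix
import Fermat.Agent.Lib.MLT.L2.P7.BrSS

set_option autoImplicit false
set_option linter.unusedSectionVars false
set_option linter.unusedVariables false
set_option linter.style.haveILetI false
set_option synthInstance.maxHeartbeats 400000
set_option maxHeartbeats 1000000

open WeierstrassCurve

open HahnSeries ModularCurve AlgebraicCurve Fermat.Agent.T1 Fermat.Agent.T2 IntermediateField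
  Fermat.Agent.Curve Fermat.Agent.Curve.PlaceAux Fermat.Agent.TW Fermat.Agent.S05Lib Fermat.Agent.T4
  Fermat.Agent.Delta Fermat.Agent.Alpha

noncomputable section

namespace Fermat.Agent.MLT

local notation "Qb" => AlgebraicClosure ℚ

attribute [local instance] t2i_dvr t2i_isAlgClosed t2i_charP t2i_fact t2iAlgebra t2i_isScalarTower
attribute [local instance 5000] dlhAlgK

variable (𝔓 : FFPlace) (K : ℕ) [NeZero K] (hK : ¬ 𝔓.p ∣ K) {ζ : Qb}
  (hζ : IsPrimitiveRoot ζ 𝔓.p) (h49 : 4 ∣ K ∨ 9 ∣ K)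
  (p : ℕ) (hp0 : p ≠ 0) (hpq : Nat.Coprime p 𝔓.p)

/-- **(d)** at helper9's literal, from helper7's `mltj5_unit_triple` -/
theorem mltj4_tripleHeckeAt : MltjTripleHeckeAt 𝔓 K hK hζ p :=
  fun ℓ _ hℓ hℓK y y' hyy' hu 𝔫 h𝔫 =>
    mltj5_unit_triple 𝔓 K hK hζ p ℓ hℓ hℓK y y' hyy'
      (fun 𝔪 a b c d => hu 𝔪 ⟨a, b, c, d⟩) 𝔫 h𝔫.1 h𝔫.2.1 h𝔫.2.2.1 h𝔫.2.2.2

/-- **THEOREM R** (unconditional, helper9's literal) -/
theorem mltj4_theoremRAt_main (W : WeierstrassCurve ℤ) :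
    MltjTheoremRAt 𝔓 K hK hζ h49 p hp0 hpq W :=
  mltj4_theoremRAt 𝔓 K hK hζ h49 p hp0 hpq (mltj4_tripleHeckeAt 𝔓 K hK hζ p)
    (mltj7_brSSAt 𝔓 K hK h49) W

end Fermat.Agent.MLT
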